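/-
S58-PREP (architect helper58): the interface file.

Every brick of the S58 build is stated here as a `Prop`-valued definition (or a structure), so
that producers and the assembly can work in parallel.  Nothing is proved here.

Notation: `Qb = ℚ̄`, `GQ = Gal(ℚ̄/ℚ)`, `EPt W` = the points over `ℚ̄` of the rational curve of an
integral Weierstrass model `W` (the type on which the Prelude's Galois action lives).
-/
import Mathlib
import Fermat.Prelude.Def_WeierstrassCurve_ConductorLevel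
import Fermat.Prelude.Def_FLTPrelim_ModularRep
import Fermat.Prelude.Def_FLTPrelim_Ramification
import Fermat.Prelude.Def_EllipticCurve_FrobeniusTrace
import Fermat.Prelude.Def_CuspForm_HeckeGaloisRepDatum
import Fermat.Prelude.Def_CuspForm_Newforms
import Fermat.Prelude.Def_GaloisRep_LocalConditions
import Fermat.Prelude.Def_GaloisRep_Residual

set_option autoImplicit false

namespace Fermat.Agent.S58

open WeierstrassCurve Polynomial
open scoped WeierstrassCurve.Affine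

/-- `ℚ̄`. -/
abbrev Qb : Type := AlgebraicClosure ℚ

/-- `Gal(ℚ̄/ℚ)`. -/
abbrev GQ : Type := Qb ≃ₐ[ℚ] Qb

/-- The rational curve of an integral model. -/
abbrev EQ (W : WeierstrassCurve ℤ) : WeierstrassCurve ℚ := W.map (Int.castRingHom ℚ)

/-- The points over `ℚ̄` of the rational curve of an integral model. -/
abbrev EPt (W : WeierstrassCurve ℤ) : Type := ((EQ W).toAffine⁄Qb).Point

/-! ### EC bricks, stated on points -/

/-- **(FT)** quadratic relation of a Frobenius lift at a good prime `ℓ` on the prime-to-`ℓ`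
torsion: `σ² - a_ℓ σ + ℓ = 0`, with `a_ℓ = ℓ + 1 - #W(𝔽_ℓ)` the Prelude's `apOfModel`. -/
def FrobQuad : Prop :=
  ∀ (W : WeierstrassCurve ℤ) (ℓ : ℕ), ℓ.Prime → ¬ (ℓ : ℤ) ∣ W.Δ →
    ∀ A : ValuationSubring Qb, A.LiesOverPrime ℓ → ∀ σ : GQ, A.IsFrobeniusAt σ ℓ →
      ∀ m : ℕ, m.Coprime ℓ → ∀ P : EPt W, m • P = 0 →
        σ • σ • P - W.apOfModel ℓ • σ • P + (ℓ : ℤ) • P = 0

/-- **(NS)** a Frobenius lift at a good prime `ℓ` is not a scalar on `E[lam ^ n]` for some `n`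
(`lam ≠ ℓ`). -/
def FrobNotScalar : Prop :=
  ∀ (W : WeierstrassCurve ℤ) (ℓ : ℕ), ℓ.Prime → ¬ (ℓ : ℤ) ∣ W.Δ →
    ∀ A : ValuationSubring Qb, A.LiesOverPrime ℓ → ∀ σ : GQ, A.IsFrobeniusAt σ ℓ →
      ∀ lam : ℕ, lam.Prime → lam ≠ ℓ →
        ∃ n : ℕ, ∀ c : ℤ, ∃ P : EPt W, lam ^ n • P = 0 ∧ σ • P ≠ c • P

/-- **(GU)** inertia at a good prime `q` acts trivially on the prime-to-`q` torsion. -/
def GoodUnram : Prop :=
  ∀ (W : WeierstrassCurve ℤ) (q : ℕ), q.Prime → ¬ (q : ℤ) ∣ W.Δ →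
    ∀ A : ValuationSubring Qb, A.LiesOverPrime q → ∀ τ ∈ A.inertiaSubgroupIn ℚ,
      ∀ m : ℕ, m.Coprime q → ∀ P : EPt W, m • P = 0 → τ • P = P

/-- **(MU)** multiplicative reduction at `q` (`q ∣ Δ`, `q ∤ c₄`): for every prime `lam ≠ q` and
every `n` there is a point of exact order `lam ^ (n + 1)` fixed by the inertia group of `A`. -/
def MultFixed : Prop :=
  ∀ (W : WeierstrassCurve ℤ) (q : ℕ), q.Prime → W.Δ ≠ 0 → (q : ℤ) ∣ W.Δ → ¬ (q : ℤ) ∣ W.c₄ →
    ∀ A : ValuationSubring Qb, A.LiesOverPrime q →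
      ∀ lam : ℕ, lam.Prime → lam ≠ q → ∀ n : ℕ,
        ∃ P : EPt W, lam ^ (n + 1) • P = 0 ∧ lam ^ n • P ≠ 0 ∧
          ∀ τ ∈ A.inertiaSubgroupIn ℚ, τ • P = P

/-! ### The Tate module as a `GaloisRepAdic ℤ_[lam]` with its level maps -/

/-- The `lam`-adic Tate module of `W` with level maps `π n : T → E[lam ^ n] ⊆ E(ℚ̄)`. -/
structure TateData (W : WeierstrassCurve ℤ) (lam : ℕ) [Fact lam.Prime] : Type 1 where
  /-- the representation -/
  T : GaloisRepAdic ℤ_[lam]
  /-- the level maps -/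
  π : ℕ → T.V →+ EPt W
  ker_π : ∀ (n : ℕ) (t : T.V), π n t = 0 ↔ ∃ w : T.V, t = (lam : ℤ_[lam]) ^ n • w
  surj_π : ∀ (n : ℕ) (P : EPt W), lam ^ n • P = 0 → ∃ t : T.V, π n t = P
  equivariant : ∀ (σ : GQ) (n : ℕ) (t : T.V), π n (T.ρ σ t) = σ • π n t

/-- **(TATE)** the Tate datum exists. -/
def TateExists : Prop :=
  ∀ (W : WeierstrassCurve ℤ), W.Δ ≠ 0 → ∀ (lam : ℕ) [Fact lam.Prime], Nonempty (TateData W lam)

/-! ### Consequences on the Tate module (the shapes consumed by the assembly) -/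

/-- **(T-FROB)** characteristic polynomial of a Frobenius lift at a good prime `ℓ ≠ lam`. -/
def TFrob : Prop :=
  ∀ (W : WeierstrassCurve ℤ) (lam : ℕ) [Fact lam.Prime] (D : TateData W lam)
    (ℓ : ℕ), ℓ.Prime → ℓ ≠ lam → ¬ (ℓ : ℤ) ∣ W.Δ →
    ∀ A : ValuationSubring Qb, A.LiesOverPrime ℓ → ∀ σ : GQ, A.IsFrobeniusAt σ ℓ →
      LinearMap.charpoly (D.T.ρ σ) = X ^ 2 - C ((W.apOfModel ℓ : ℤ) : ℤ_[lam]) * X + C (ℓ : ℤ_[lam])

/-- **(T-GOOD)** the Tate module is unramified at good primes `q ≠ lam`. -/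
def TGood : Prop :=
  ∀ (W : WeierstrassCurve ℤ) (lam : ℕ) [Fact lam.Prime] (D : TateData W lam)
    (q : ℕ), q.Prime → q ≠ lam → ¬ (q : ℤ) ∣ W.Δ → D.T.IsUnramifiedAt q

/-- **(T-MULT)** unipotent inertia at multiplicative primes `q ≠ lam`. -/
def TMult : Prop :=
  ∀ (W : WeierstrassCurve ℤ) (lam : ℕ) [Fact lam.Prime] (D : TateData W lam), W.Δ ≠ 0 →
    ∀ (q : ℕ), q.Prime → q ≠ lam → (q : ℤ) ∣ W.Δ → ¬ (q : ℤ) ∣ W.c₄ →
      D.T.IsUnipotentOnInertiaAt q

/-- **(T-RES)** for an odd prime `p` with `E[p]` irreducible, the residual representation of the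
`p`-adic Tate module is absolutely irreducible and odd. -/
def TRes : Prop :=
  ∀ (W : WeierstrassCurve ℤ) (p : ℕ) [Fact p.Prime] (D : TateData W p), W.Δ ≠ 0 → p ≠ 2 →
    W.ModRepIsIrreducible p →
      D.T.residual.IsAbsolutelyIrreducible ∧ D.T.residual.IsOdd

/-! ### Generic Galois-representation bricks -/

/-- **(CMP)** two adic representations over a discrete valuation ring whose Frobenius
characteristic polynomials agree outside a finite set have the same characteristic polynomials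
everywhere (Frobenius density + continuity). -/
def CharpolyRigid : Prop :=
  ∀ (O : Type) [CommRing O] [IsDomain O] [IsDiscreteValuationRing O]
    (ρ₁ ρ₂ : GaloisRepAdic O) (S : Finset ℕ),
    (∀ ℓ : ℕ, ℓ.Prime → ℓ ∉ S → ∀ A : ValuationSubring Qb, A.LiesOverPrime ℓ →
      ∀ σ : GQ, A.IsFrobeniusAt σ ℓ →
        LinearMap.charpoly (ρ₁.ρ σ) = LinearMap.charpoly (ρ₂.ρ σ)) →
    ∀ σ : GQ, LinearMap.charpoly (ρ₁.ρ σ) = LinearMap.charpoly (ρ₂.ρ σ)

/-- **(RES-TR)** absolute irreducibility and oddness of the residual representation only depend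
on the characteristic polynomials (also along a local homomorphism `ψ` of coefficient rings). -/
def ResidualTransfer : Prop :=
  ∀ (O₁ O₂ : Type) [CommRing O₁] [IsDomain O₁] [IsDiscreteValuationRing O₁]
    [CommRing O₂] [IsDomain O₂] [IsDiscreteValuationRing O₂]
    (ψ : O₁ →+* O₂), IsLocalHom ψ → ∀ (ρ₁ : GaloisRepAdic O₁) (ρ₂ : GaloisRepAdic O₂),
    (∀ σ : GQ, LinearMap.charpoly (ρ₂.ρ σ) = (LinearMap.charpoly (ρ₁.ρ σ)).map ψ) →
    ρ₁.residual.IsAbsolutelyIrreducible ∧ ρ₁.residual.IsOdd →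
    ρ₂.residual.IsAbsolutelyIrreducible ∧ ρ₂.residual.IsOdd

/-! ### Modular-forms bricks -/

/-- **(NEW)** the minimal level of an eigensystem carries a Prelude newform. -/
def NewformExtract : Prop :=
  ∀ (N : ℕ) [NeZero N] (f : CuspForm (CongruenceSubgroup.Gamma0 N) 2), f.IsNormalizedEigenform →
    ∃ (M : ℕ) (_ : NeZero M) (g : CuspForm (CongruenceSubgroup.Gamma0 M) 2),
      M ∣ N ∧ g.IsNewform ∧
        ∀ ℓ : ℕ, ℓ.Prime → ¬ ℓ ∣ N → ModularFormClass.qCoeff g ℓ = ModularFormClass.qCoeff f ℓ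

/-- **(CHIG)** the eigencharacter of a normalized eigenform on every `heckeAlgebra M 2 S`; its
values are algebraic integers. -/
def ChigExists : Prop :=
  ∀ (M : ℕ) [NeZero M] (g : CuspForm (CongruenceSubgroup.Gamma0 M) 2), g.IsNormalizedEigenform →
    ∀ S : Finset ℕ, ∃ chig : CuspForm.heckeAlgebra M 2 (↑S : Set ℕ) →+* ℂ,
      (∀ (ℓ : ℕ) (hℓ : ℓ.Prime) (hℓM : ¬ ℓ ∣ M) (hℓS : ℓ ∉ (↑S : Set ℕ)),
        chig (CuspForm.heckeAlgebra.T hℓ hℓM hℓS) = ModularFormClass.qCoeff g ℓ) ∧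
      ∀ x, IsIntegral ℤ (chig x)

/-- **(IOTA)** the image of a character of a Hecke algebra embeds in a complete discrete valuation
ring of residue characteristic `lam`. -/
def IotaExists : Prop :=
  ∀ (M : ℕ) [NeZero M] (S : Finset ℕ) (chig : CuspForm.heckeAlgebra M 2 (↑S : Set ℕ) →+* ℂ)
    (lam : ℕ) [Fact lam.Prime],
    ∃ (O' : Type) (_ : CommRing O') (_ : IsDomain O') (_ : IsDiscreteValuationRing O')
      (_ : IsAdicComplete (IsLocalRing.maximalIdeal O') O')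
      (_ : Finite (IsLocalRing.ResidueField O')) (_ : CharZero O'),
      (lam : O') ∈ IsLocalRing.maximalIdeal O' ∧ Nonempty (chig.range →+* O')

/-- **(STAB)** `q`-stabilisation: a normalized eigenform of level `M` and a prime `q ∤ M` give a
normalized eigenform of level `M * q` with the same coefficients at all primes `≠ q`. -/
def Stabilize : Prop :=
  ∀ (M : ℕ) [NeZero M] (g : CuspForm (CongruenceSubgroup.Gamma0 M) 2), g.IsNormalizedEigenform →
    ∀ q : ℕ, q.Prime → ¬ q ∣ M →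
      ∃ g' : CuspForm (CongruenceSubgroup.Gamma0 (M * q)) 2, g'.IsNormalizedEigenform ∧
        ∀ ℓ : ℕ, ℓ.Prime → ℓ ≠ q →
          ModularFormClass.qCoeff g' ℓ = ModularFormClass.qCoeff g ℓ

end Fermat.Agent.S58
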