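/-
S58-PREP, split of row 377 (T-LEVEL): the odd-involution lemma.

An involution `c ≠ 1` of `ℚ̄` (a "complex conjugation") inverts every root of unity of odd
order.  Proof (Artin–Schreier by hand): with `F := Fix(c)`,
* `c i = -i` for `i² = -1` (else, for `s ≠ 0` with `c s = -s` and `u² = s`, the element
  `N := u · c u ∈ F` satisfies `N² = -s²`, so `N = ± i s` and `c N = -N`, hence `N = 0`);
* a sum of two squares of `F` is a square of `F` (`a² + b² = N(u)²` for `u² = a + b i`);
* for `ζ^m = 1`, `m` odd, `η := ζ · c ζ ∈ F` has `η^m = 1` and `η = e²` with `e ∈ F`; if `η ≠ 1`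
  then `-1 = η + ⋯ + η^(m-1)` is a sum of squares of `F`, hence a square `n²` with `n ∈ F`,
  but `n = ± i` is not fixed by `c`.
-/
import Fermat.Agent.S58.Interfaces

set_option autoImplicit false

namespace Fermat.Agent.S58.OddInvolution

open Fermat.Agent.S58 Finset

section

variable (c : GQ)

/-- An involution `c ≠ 1` of `ℚ̄` sends a square root of `-1` to its negative. -/
theorem map_sqrt_neg_one (hc : c * c = 1) (hc1 : c ≠ 1) {i : Qb} (hi : i * i = -1) :
    c i = -i := by
  have hcc : ∀ x : Qb, c (c x) = x := fun x => by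
    have := congrArg (fun f : GQ => f x) hc
    simpa [AlgEquiv.mul_apply] using this
  -- an anti-invariant element
  obtain ⟨z, hz⟩ : ∃ z : Qb, c z ≠ z := by
    by_contra h
    push Not at h
    exact hc1 (AlgEquiv.ext h)
  set s := z - c z with hs
  have hs0 : s ≠ 0 := sub_ne_zero.mpr (Ne.symm hz)
  have hcs : c s = -s := by rw [hs, map_sub, hcc]; ring
  have h1 : c i * c i = -1 := by rw [← map_mul, hi, map_neg, map_one]
  have h2 : (c i - i) * (c i + i) = 0 := by linear_combination h1 - hi
  rcases mul_eq_zero.mp h2 with h | h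
  · exfalso
    have hci' : c i = i := sub_eq_zero.mp h
    obtain ⟨u, hu⟩ := IsAlgClosed.exists_eq_mul_self s
    set N := u * c u with hN
    have hcN : c N = N := by rw [hN, map_mul, hcc, mul_comm]
    have hcs' : c s = c u * c u := by rw [hu, map_mul]
    have hN2 : N * N = -(s * s) := by
      calc N * N = (u * u) * (c u * c u) := by rw [hN]; ring
        _ = s * c s := by rw [← hu, ← hcs']
        _ = -(s * s) := by rw [hcs]; ring
    have h3 : (N - i * s) * (N + i * s) = 0 := by linear_combination hN2 - (s * s) * hi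
    have hNneg : c N = -N := by
      rcases mul_eq_zero.mp h3 with h4 | h4
      · have hNe : N = i * s := sub_eq_zero.mp h4
        rw [hNe, map_mul, hci', hcs]; ring
      · have hNe : N = -(i * s) := eq_neg_of_add_eq_zero_left h4
        rw [hNe, map_neg, map_mul, hci', hcs]; ring
    have hN0 : N = 0 := by
      have h5 : N = -N := hcN.symm.trans hNneg
      have h6 : (2 : Qb) * N = 0 := by linear_combination h5
      exact (mul_eq_zero.mp h6).resolve_left two_ne_zero
    have hss : s * s = 0 := by
      have := hN2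
      rw [hN0, mul_zero] at this
      exact neg_eq_zero.mp this.symm
    exact hs0 (mul_self_eq_zero.mp hss)
  · exact eq_neg_of_add_eq_zero_left h

/-- A sum of two squares of fixed elements is the square of a fixed element. -/
theorem exists_fixed_sq_eq_add (hc : c * c = 1) (hc1 : c ≠ 1) {a b : Qb} (ha : c a = a)
    (hb : c b = b) : ∃ n : Qb, c n = n ∧ n * n = a * a + b * b := by
  have hcc : ∀ x : Qb, c (c x) = x := fun x => by
    have := congrArg (fun f : GQ => f x) hc
    simpa [AlgEquiv.mul_apply] using this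
  obtain ⟨i, hi⟩ := IsAlgClosed.exists_eq_mul_self (-1 : Qb)
  have hci : c i = -i := map_sqrt_neg_one c hc hc1 hi.symm
  obtain ⟨u, hu⟩ := IsAlgClosed.exists_eq_mul_self (a + b * i)
  refine ⟨u * c u, by rw [map_mul, hcc, mul_comm], ?_⟩
  have hcw : c (a + b * i) = a - b * i := by rw [map_add, map_mul, ha, hb, hci]; ring
  have hcu : c (a + b * i) = c u * c u := by rw [hu, map_mul]
  calc u * c u * (u * c u) = (u * u) * (c u * c u) := by ring
    _ = (a + b * i) * c (a + b * i) := by rw [← hu, ← hcu]
    _ = a * a + b * b := by rw [hcw]; linear_combination (b * b) * hi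

/-- A finite sum of squares of fixed elements is the square of a fixed element. -/
theorem exists_fixed_sq_eq_sum (hc : c * c = 1) (hc1 : c ≠ 1) (f : ℕ → Qb)
    (hf : ∀ j, c (f j) = f j) (k : ℕ) :
    ∃ n : Qb, c n = n ∧ n * n = ∑ j ∈ range k, f j * f j := by
  induction k with
  | zero => exact ⟨0, map_zero c, by simp⟩
  | succ k ih =>
    obtain ⟨n, hn, hn2⟩ := ih
    obtain ⟨n', hn', hn'2⟩ := exists_fixed_sq_eq_add c hc hc1 hn (hf k)
    exact ⟨n', hn', by rw [hn'2, hn2, sum_range_succ]⟩

/-- `-1` is not the square of a fixed element. -/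
theorem not_fixed_sq_eq_neg_one (hc : c * c = 1) (hc1 : c ≠ 1) {n : Qb} (hn : c n = n)
    (hn2 : n * n = -1) : False := by
  have h := map_sqrt_neg_one c hc hc1 hn2
  have h6 : (2 : Qb) * n = 0 := by linear_combination hn.symm.trans h
  have hn0 : n = 0 := (mul_eq_zero.mp h6).resolve_left two_ne_zero
  rw [hn0, mul_zero] at hn2
  exact one_ne_zero (neg_eq_zero.mp hn2.symm)

/-- **The odd-involution lemma**: an involution `c ≠ 1` of `ℚ̄` inverts every root of unity of
odd order. -/
theorem map_eq_inv_of_involution (hc : c * c = 1) (hc1 : c ≠ 1) {ζ : Qb} {m : ℕ}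
    (hm : Odd m) (hζ : ζ ^ m = 1) : c ζ = ζ⁻¹ := by
  have hcc : ∀ x : Qb, c (c x) = x := fun x => by
    have := congrArg (fun f : GQ => f x) hc
    simpa [AlgEquiv.mul_apply] using this
  obtain ⟨t, rfl⟩ := hm
  have hζ0 : ζ ≠ 0 := by
    rintro rfl
    simp at hζ
  set η := ζ * c ζ with hη
  have hcη : c η = η := by rw [hη, map_mul, hcc, mul_comm]
  have hηm : η ^ (2 * t + 1) = 1 := by
    rw [hη, mul_pow, ← map_pow, hζ, map_one, mul_one]
  suffices h1 : η = 1 by
    rw [hη] at h1
    exact eq_inv_of_mul_eq_one_right h1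
  by_contra hne
  set e := η ^ (t + 1) with he
  have hce : c e = e := by rw [he, map_pow, hcη]
  have hee : e * e = η := by
    rw [he, ← pow_add, show t + 1 + (t + 1) = 2 * t + 1 + 1 by ring, pow_succ, hηm, one_mul]
  -- the geometric sum vanishes
  have hgeom : ∑ j ∈ range (2 * t + 1), η ^ j = 0 := by
    have h := mul_geom_sum η (2 * t + 1)
    rw [hηm, sub_self] at h
    exact (mul_eq_zero.mp h).resolve_left (sub_ne_zero.mpr hne)
  rw [sum_range_succ'] at hgeom
  have hsum : ∑ j ∈ range (2 * t), e ^ (j + 1) * e ^ (j + 1) = -1 := by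
    have : ∀ j, e ^ (j + 1) * e ^ (j + 1) = η ^ (j + 1) := by
      intro j
      rw [← mul_pow, hee]
    simp only [this]
    simp only [pow_zero] at hgeom
    linear_combination hgeom
  obtain ⟨n, hn, hn2⟩ := exists_fixed_sq_eq_sum c hc hc1 (fun j => e ^ (j + 1))
    (fun j => by rw [map_pow, hce]) (2 * t)
  rw [hsum] at hn2
  exact not_fixed_sq_eq_neg_one c hc hc1 hn hn2

end

end Fermat.Agent.S58.OddInvolution
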