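/-
S58-PREP, row S58-9 (T-LEVEL), helper92: **the determinant of the Tate module is the cyclotomic
character**.

* `cyclo_involution` : the `p`-adic cyclotomic character (`p` odd) is `-1` on every non-trivial
  involution of `ℚ̄` (from `OddInvolution.map_eq_inv_of_involution`);
* `complexConjugation_ne_one` : the Prelude's complex conjugation is a non-trivial involution;
* `det_eq_cyclo` : a `GaloisRepAdic ℤ_[p]` whose Frobenius lifts outside a finite set of primes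
  have determinant `ℓ` has determinant the cyclotomic character (Frobenius density + continuity,
  the pattern of `S31/Cong.lean`);
* `det_tate`, `det_inertia`, `isOdd` : the consequences for a `TateData` (from `TFrob`).
-/
import Mathlib
import Fermat.Agent.S58.OddInvolution
import Fermat.Agent.ESJ.Rep.Cyclo
import Fermat.Agent.S31.Cong
import Fermat.Prelude.Def_GaloisRep_ComplexConjugation

set_option autoImplicit false

namespace Fermat.Agent.S58.DetCyclo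

open Fermat.Agent.S58 Polynomial

/-- **The `p`-adic cyclotomic character (`p` odd) takes the value `-1` on every non-trivial
involution of `ℚ̄`.** -/
theorem cyclo_involution (p : ℕ) [Fact p.Prime] (hp2 : p ≠ 2) (c : GQ) (hc : c * c = 1)
    (hc1 : c ≠ 1) : Fermat.Agent.ESJ.Rep.cyclo p c = -1 := by
  have hp : p.Prime := Fact.out
  apply Units.ext
  rw [Units.val_neg, Units.val_one]
  refine PadicInt.ext_of_toZModPow.mp fun n => ?_
  obtain ⟨ζ, hζ⟩ := Fermat.Agent.ESJ.Rep.Cyclo.exists_primitiveRoot p n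
  have hodd : Odd (p ^ n) := (hp.odd_of_ne_two hp2).pow
  have hpos : 0 < p ^ n := pow_pos hp.pos n
  have h1 : c ζ = ζ ^ (p ^ n - 1) := by
    rw [OddInvolution.map_eq_inv_of_involution c hc hc1 hodd hζ.pow_eq_one]
    apply inv_eq_of_mul_eq_one_right
    rw [← pow_succ', Nat.sub_add_cancel hpos, hζ.pow_eq_one]
  rw [Fermat.Agent.ESJ.Rep.Cyclo.toZModPow_cyclo_eq p n c (p ^ n - 1) hζ h1, map_neg, map_one,
    Nat.cast_sub hpos, Nat.cast_one, ZMod.natCast_self, zero_sub]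

/-- The Prelude's complex conjugation is not the identity. -/
theorem complexConjugation_ne_one : complexConjugation ≠ 1 := by
  intro h
  obtain ⟨i, hi⟩ : ∃ i : Qb, i ^ 2 = -1 := IsAlgClosed.exists_pow_nat_eq _ (by norm_num)
  have h1 : complexEmbedding (complexConjugation i) = complexEmbedding i := by
    rw [h]; rfl
  rw [complexEmbedding_complexConjugation] at h1
  have h2 : complexEmbedding i ^ 2 = -1 := by rw [← map_pow, hi, map_neg, map_one]
  obtain ⟨r, hr⟩ := Complex.conj_eq_iff_real.mp h1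
  rw [hr] at h2
  have h3 : ((r ^ 2 : ℝ) : ℂ) = ((-1 : ℝ) : ℂ) := by push_cast; exact h2
  have h4 : r ^ 2 = -1 := Complex.ofReal_injective h3
  nlinarith [sq_nonneg r]

/-- The powers of the maximal ideal of `ℤ_[p]`. -/
theorem maximalIdeal_pow_eq (p : ℕ) [Fact p.Prime] (n : ℕ) :
    IsLocalRing.maximalIdeal ℤ_[p] ^ n = Ideal.span {(p : ℤ_[p]) ^ n} := by
  rw [PadicInt.maximalIdeal_eq_span_p, Ideal.span_singleton_pow]

/-- **A `p`-adic representation whose Frobenius lifts outside a finite set of primes have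
determinant `ℓ` has determinant the cyclotomic character.** -/
theorem det_eq_cyclo {p : ℕ} [Fact p.Prime] (ρ : GaloisRepAdic ℤ_[p]) (S : Finset ℕ)
    (hfrob : ∀ ℓ : ℕ, ℓ.Prime → ℓ ∉ S → ∀ A : ValuationSubring Qb, A.LiesOverPrime ℓ →
      ∀ σ : GQ, A.IsFrobeniusAt σ ℓ → LinearMap.det (ρ.ρ σ) = (ℓ : ℤ_[p]))
    (g : GQ) :
    LinearMap.det (ρ.ρ g) = ((Fermat.Agent.ESJ.Rep.cyclo p g : ℤ_[p]ˣ) : ℤ_[p]) := by
  rw [← sub_eq_zero]
  refine Fermat.Agent.S31.eq_zero_of_forall_mem_pow fun n => ?_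
  obtain ⟨L, hL, hLρ⟩ := ρ.isAdicContinuous n
  obtain ⟨L', hL', hLcyc⟩ := Fermat.Agent.ESJ.Rep.cyclo_sub_one p n
  have : FiniteDimensional ℚ (L ⊔ L' : IntermediateField ℚ Qb) :=
    IntermediateField.finiteDimensional_sup L L'
  obtain ⟨ℓ, hℓ, hℓS, A, σ, k, j, hA, hσ, hgk, -⟩ :=
    Fermat.Agent.Frob.exists_frobenius_generating (L ⊔ L') (insert p S) g
  have hℓS' : ℓ ∉ S := fun h => hℓS (Finset.mem_insert_of_mem h)
  have hℓp : ℓ ≠ p := fun h => hℓS (h ▸ Finset.mem_insert_self p S)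
  have e1 : LinearMap.det (ρ.ρ g) - LinearMap.det (ρ.ρ (σ ^ k)) ∈
      IsLocalRing.maximalIdeal ℤ_[p] ^ n :=
    Fermat.Agent.S31.det_sub_mem_of_agree ρ n L hLρ g (σ ^ k) fun x hx =>
      hgk x ((le_sup_left : L ≤ L ⊔ L') hx)
  have e2 : LinearMap.det (ρ.ρ (σ ^ k)) = (ℓ : ℤ_[p]) ^ k := by
    rw [map_pow, map_pow, hfrob ℓ hℓ hℓS' A hA σ hσ]
  have hfix : ∀ x ∈ (L ⊔ L' : IntermediateField ℚ Qb), ((σ ^ k)⁻¹ * g) x = x := by
    intro x hx
    rw [AlgEquiv.mul_apply, hgk x hx]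
    exact (σ ^ k).symm_apply_apply x
  obtain ⟨c, hc⟩ := hLcyc ((σ ^ k)⁻¹ * g) fun x hx => hfix x ((le_sup_right : L' ≤ L ⊔ L') hx)
  have hg : g = σ ^ k * ((σ ^ k)⁻¹ * g) := by rw [mul_inv_cancel_left]
  have hσk : ((Fermat.Agent.ESJ.Rep.cyclo p (σ ^ k) : ℤ_[p]ˣ) : ℤ_[p]) = (ℓ : ℤ_[p]) ^ k := by
    rw [map_pow, Units.val_pow_eq_pow_val,
      Fermat.Agent.ESJ.Rep.cyclo_frobenius p hℓ hℓp A hA σ hσ]
  have e3 : ((Fermat.Agent.ESJ.Rep.cyclo p g : ℤ_[p]ˣ) : ℤ_[p]) - (ℓ : ℤ_[p]) ^ k =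
      (p : ℤ_[p]) ^ n * ((ℓ : ℤ_[p]) ^ k * c) := by
    conv_lhs => rw [hg, map_mul, Units.val_mul, hσk]
    linear_combination (ℓ : ℤ_[p]) ^ k * hc
  have e3' : ((Fermat.Agent.ESJ.Rep.cyclo p g : ℤ_[p]ˣ) : ℤ_[p]) - (ℓ : ℤ_[p]) ^ k ∈
      IsLocalRing.maximalIdeal ℤ_[p] ^ n := by
    rw [e3, maximalIdeal_pow_eq]
    exact Ideal.mul_mem_right _ _ (Ideal.subset_span rfl)
  have e : LinearMap.det (ρ.ρ g) - ((Fermat.Agent.ESJ.Rep.cyclo p g : ℤ_[p]ˣ) : ℤ_[p]) =
      (LinearMap.det (ρ.ρ g) - LinearMap.det (ρ.ρ (σ ^ k))) -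
        (((Fermat.Agent.ESJ.Rep.cyclo p g : ℤ_[p]ˣ) : ℤ_[p]) - (ℓ : ℤ_[p]) ^ k) := by
    rw [e2]; ring
  rw [e]
  exact Ideal.sub_mem _ e1 e3'

section Tate

variable {W : WeierstrassCurve ℤ} {lam : ℕ} [Fact lam.Prime]

/-- **The determinant of the Tate module is the cyclotomic character** (from `TFrob`). -/
theorem det_tate (hT : TFrob) (D : TateData W lam) (hΔ : W.Δ ≠ 0) (g : GQ) :
    LinearMap.det (D.T.ρ g) = ((Fermat.Agent.ESJ.Rep.cyclo lam g : ℤ_[lam]ˣ) : ℤ_[lam]) := by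
  refine det_eq_cyclo D.T (insert lam W.Δ.natAbs.primeFactors) ?_ g
  intro ℓ hℓ hℓS A hA σ hσ
  have hℓlam : ℓ ≠ lam := fun h => hℓS (h ▸ Finset.mem_insert_self _ _)
  have hℓΔ : ¬ (ℓ : ℤ) ∣ W.Δ := by
    intro hdvd
    apply hℓS
    apply Finset.mem_insert_of_mem
    rw [Nat.mem_primeFactors]
    exact ⟨hℓ, Int.natCast_dvd.mp hdvd, Int.natAbs_ne_zero.mpr hΔ⟩
  have hch := hT W lam D ℓ hℓ hℓlam hℓΔ A hA σ hσ
  let b : Module.Basis (Fin 2) ℤ_[lam] D.T.V :=
    Module.finBasisOfFinrankEq ℤ_[lam] D.T.V D.T.finrank_eq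
  rw [← LinearMap.charpoly_toMatrix (D.T.ρ σ) b] at hch
  obtain ⟨-, hdet⟩ := Fermat.Agent.S31.trace_det_of_charpoly _ hch
  rw [← LinearMap.det_toMatrix b]
  exact hdet

/-- The determinant of the Tate module is trivial on inertia at `q ≠ lam`. -/
theorem det_inertia (hT : TFrob) (D : TateData W lam) (hΔ : W.Δ ≠ 0) {q : ℕ} (hq : q.Prime)
    (hql : q ≠ lam) (A : ValuationSubring Qb) (hA : A.LiesOverPrime q) (τ : GQ)
    (hτ : τ ∈ A.inertiaSubgroupIn ℚ) : LinearMap.det (D.T.ρ τ) = 1 := by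
  rw [det_tate hT D hΔ τ, Fermat.Agent.ESJ.Rep.cyclo_inertia lam hq hql A hA τ hτ, Units.val_one]

/-- The determinant of the Tate module (`lam` odd) is `-1` on every non-trivial involution. -/
theorem det_involution (hT : TFrob) (D : TateData W lam) (hΔ : W.Δ ≠ 0) (hlam2 : lam ≠ 2)
    (c : GQ) (hc : c * c = 1) (hc1 : c ≠ 1) : LinearMap.det (D.T.ρ c) = -1 := by
  rw [det_tate hT D hΔ c, cyclo_involution lam hlam2 c hc hc1, Units.val_neg, Units.val_one]

/-- **The residual representation of the Tate module (`lam` odd) is odd.** -/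
theorem isOdd (hT : TFrob) (D : TateData W lam) (hΔ : W.Δ ≠ 0) (hlam2 : lam ≠ 2) :
    D.T.residual.IsOdd := by
  intro c hc hc1
  have h1 := det_involution hT D hΔ hlam2 c hc hc1
  show LinearMap.det ((D.T.ρ c).baseChange (IsLocalRing.ResidueField ℤ_[lam])) = -1
  rw [LinearMap.det_baseChange, h1, map_neg, map_one]

end Tate

end Fermat.Agent.S58.DetCyclo
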