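/-
S58-PREP row 377 (split, helper72): the Tate-module consequences **(T-FROB)** and **(T-GOOD)** from
the point-level bricks, generic over `D : TateData W lam`.

* `eq_zero_of_forall_π` : an element of `T` killed by all level maps is zero (Krull).
* `tGood (h : GoodUnram) : TGood`.
* `charpoly_eq_of_quadratic` : an endomorphism of a free module of rank two over a domain which
  satisfies a monic quadratic relation and is not a scalar has that quadratic as its
  characteristic polynomial.
* `tFrob (h1 : FrobQuad) (h2 : FrobNotScalar) : TFrob`.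
-/
import Mathlib
import Fermat.Agent.S58.Interfaces

set_option autoImplicit false

namespace Fermat.Agent.S58.TLevelFrob

open WeierstrassCurve Polynomial
open scoped WeierstrassCurve.Affine

section Level

variable {W : WeierstrassCurve ℤ} {lam : ℕ} [Fact lam.Prime]

theorem π_intCast_smul (D : TateData W lam) (n : ℕ) (c : ℤ) (t : D.T.V) :
    D.π n ((c : ℤ_[lam]) • t) = c • D.π n t := by
  rw [Int.cast_smul_eq_zsmul, map_zsmul]

theorem π_natCast_smul (D : TateData W lam) (n : ℕ) (c : ℕ) (t : D.T.V) :
    D.π n ((c : ℤ_[lam]) • t) = c • D.π n t := by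
  rw [Nat.cast_smul_eq_nsmul, map_nsmul]

theorem π_pow_smul (D : TateData W lam) (n : ℕ) (w : D.T.V) :
    D.π n ((lam : ℤ_[lam]) ^ n • w) = 0 :=
  (D.ker_π n _).mpr ⟨w, rfl⟩

theorem π_pow_mul_smul (D : TateData W lam) (n : ℕ) (y : ℤ_[lam]) (w : D.T.V) :
    D.π n (((lam : ℤ_[lam]) ^ n * y) • w) = 0 := by
  rw [mul_smul]
  exact π_pow_smul D n _

/-- The level-`n` image of `T` is killed by `lam ^ n`. -/
theorem pow_nsmul_π (D : TateData W lam) (n : ℕ) (t : D.T.V) : lam ^ n • D.π n t = 0 := by
  rw [← π_natCast_smul, Nat.cast_pow]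
  exact π_pow_smul D n t

/-- An element of the Tate module killed by all the level maps is zero. -/
theorem eq_zero_of_forall_π (D : TateData W lam) (t : D.T.V) (h : ∀ n, D.π n t = 0) : t = 0 := by
  have hI : Ideal.span {(lam : ℤ_[lam])} ≠ ⊤ := by
    rw [Ne, Ideal.span_singleton_eq_top]
    exact PadicInt.prime_p.not_isUnit
  have hK := Ideal.iInf_pow_smul_eq_bot_of_isLocalRing (M := D.T.V) _ hI
  have ht : t ∈ ⨅ i : ℕ, Ideal.span {(lam : ℤ_[lam])} ^ i • (⊤ : Submodule ℤ_[lam] D.T.V) := by
    rw [Submodule.mem_iInf]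
    intro n
    obtain ⟨w, rfl⟩ := (D.ker_π n t).mp (h n)
    exact Submodule.smul_mem_smul (Ideal.pow_mem_pow (Ideal.mem_span_singleton_self _) n)
      Submodule.mem_top
  rw [hK] at ht
  exact (Submodule.mem_bot _).mp ht

/-- Two elements of the Tate module with the same image under all level maps are equal. -/
theorem eq_of_forall_π (D : TateData W lam) (t t' : D.T.V) (h : ∀ n, D.π n t = D.π n t') :
    t = t' := by
  apply eq_of_sub_eq_zero
  apply eq_zero_of_forall_π D
  intro n
  rw [map_sub, h n, sub_self]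

theorem coprime_pow_of_ne {lam q : ℕ} (hlam : lam.Prime) (hq : q.Prime) (h : q ≠ lam) (n : ℕ) :
    (lam ^ n).Coprime q :=
  Nat.Coprime.pow_left n ((Nat.coprime_primes hlam hq).mpr (Ne.symm h))

end Level

/-- **(T-GOOD)** from **(GU)**. -/
theorem tGood (h : GoodUnram) : TGood := by
  intro W lam _ D q hq hql hΔ A hA τ hτ
  refine LinearMap.ext fun t => ?_
  apply eq_of_forall_π D
  intro n
  rw [D.equivariant, Module.End.one_apply]
  exact h W q hq hΔ A hA τ hτ (lam ^ n) (coprime_pow_of_ne (Fact.out) hq hql n) (D.π n t)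
    (pow_nsmul_π D n t)

/-! ### The characteristic polynomial of a non-scalar root of a monic quadratic -/

section Quadratic

theorem monic_quadratic {R : Type*} [CommRing R] [Nontrivial R] (a b : R) :
    (X ^ 2 - C a * X + C b : R[X]).Monic := by
  have h : (X ^ 2 - C a * X + C b : R[X]) = X ^ 2 + (C (-a) * X + C b) := by
    rw [C_neg]; ring
  rw [h]
  exact monic_X_pow_add ((degree_linear_le).trans_lt (by norm_num))

theorem natDegree_quadratic' {R : Type*} [CommRing R] [Nontrivial R] (a b : R) :
    (X ^ 2 - C a * X + C b : R[X]).natDegree = 2 := by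
  have h : (X ^ 2 - C a * X + C b : R[X]) = X ^ 2 + (C (-a) * X + C b) := by
    rw [C_neg]; ring
  rw [h, natDegree_add_eq_left_of_natDegree_lt, natDegree_X_pow]
  rw [natDegree_X_pow]
  exact (natDegree_linear_le).trans_lt (by norm_num)

variable {R M : Type*} [CommRing R] [IsDomain R] [AddCommGroup M] [Module R M]
  [Module.Free R M] [Module.Finite R M]

/-- An endomorphism `f` of a free module of rank two over a domain with `f² - a f + b = 0` which is
not a scalar has characteristic polynomial `X² - a X + b`. -/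
theorem charpoly_eq_of_quadratic (hrank : Module.finrank R M = 2) (f : Module.End R M) (a b : R)
    (hq : ∀ t, f (f t) - a • f t + b • t = 0) (hns : ¬ ∃ s : R, ∀ t, f t = s • t) :
    f.charpoly = X ^ 2 - C a * X + C b := by
  classical
  set g : R[X] := X ^ 2 - C a * X + C b with hg
  set r : R[X] := f.charpoly - g with hr
  have hχm : f.charpoly.Monic := f.charpoly_monic
  have hχd : f.charpoly.natDegree = 2 := by rw [LinearMap.charpoly_natDegree, hrank]
  have hgm : g.Monic := monic_quadratic a b
  have hgd : g.natDegree = 2 := natDegree_quadratic' a b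
  -- `r` has degree `≤ 1`
  have hrd : r.degree ≤ 1 := by
    have h1 : r.degree < f.charpoly.degree := by
      apply degree_sub_lt_left
      · rw [degree_eq_natDegree hχm.ne_zero, degree_eq_natDegree hgm.ne_zero, hχd, hgd]
      · exact hχm.ne_zero
      · rw [hχm.leadingCoeff, hgm.leadingCoeff]
    rw [degree_eq_natDegree hχm.ne_zero, hχd] at h1
    have h2 : r.degree < ((1 + 1 : ℕ) : WithBot ℕ) := by exact_mod_cast h1
    exact Order.lt_succ_iff.mp (by exact_mod_cast h2)
  have hrX : r = C (r.coeff 1) * X + C (r.coeff 0) := eq_X_add_C_of_degree_le_one hrd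
  -- `r` kills `f`
  have hgf : aeval f g = 0 := by
    refine LinearMap.ext fun t => ?_
    rw [hg]
    simp only [map_add, map_sub, map_mul, aeval_X, aeval_C, LinearMap.add_apply,
      LinearMap.sub_apply, LinearMap.zero_apply, Module.algebraMap_end_apply, pow_two,
      Module.End.mul_apply]
    exact hq t
  have hrf : aeval f r = 0 := by
    rw [hr, map_sub, LinearMap.aeval_self_charpoly, hgf, sub_zero]
  have hlin : ∀ t, r.coeff 1 • f t + r.coeff 0 • t = 0 := by
    intro t
    have := congrArg (fun e : Module.End R M => e t) hrf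
    rw [hrX] at this
    simpa only [map_add, map_mul, aeval_X, aeval_C, LinearMap.add_apply, LinearMap.zero_apply,
      Module.algebraMap_end_apply, Module.End.mul_apply] using this
  -- coordinates
  let bas := Module.Free.chooseBasis R M
  have hcard : Fintype.card (Module.Free.ChooseBasisIndex R M) = 2 := by
    rw [← Module.finrank_eq_card_chooseBasisIndex, hrank]
  obtain ⟨i⟩ : Nonempty (Module.Free.ChooseBasisIndex R M) := by
    rw [← Fintype.card_pos_iff, hcard]; norm_num
  by_cases hc1 : r.coeff 1 = 0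
  · -- then `r.coeff 0 = 0` as well
    have h0 : r.coeff 0 = 0 := by
      have := hlin (bas i)
      rw [hc1, zero_smul, zero_add] at this
      have h2 := congrArg (fun v => bas.repr v i) this
      simpa using h2
    have : r = 0 := by rw [hrX, hc1, h0]; simp
    exact sub_eq_zero.mp this
  · exfalso
    apply hns
    refine ⟨bas.repr (f (bas i)) i, fun t => ?_⟩
    set x := bas.repr (f (bas i)) i with hx
    -- `c₀ = - c₁ x`
    have h0 : r.coeff 0 = - (r.coeff 1 * x) := by
      have := hlin (bas i)
      have h2 := congrArg (fun v => bas.repr v i) this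
      simp only [map_add, map_smul, Finsupp.coe_add, Finsupp.coe_smul, Pi.add_apply,
        Pi.smul_apply, smul_eq_mul, Module.Basis.repr_self, Finsupp.single_eq_same, mul_one,
        map_zero, Finsupp.coe_zero, Pi.zero_apply] at h2
      rw [← hx] at h2
      linear_combination h2
    apply bas.repr.injective
    ext j
    have := hlin t
    have h2 := congrArg (fun v => bas.repr v j) this
    simp only [map_add, map_smul, Finsupp.coe_add, Finsupp.coe_smul, Pi.add_apply,
      Pi.smul_apply, smul_eq_mul, map_zero, Finsupp.coe_zero, Pi.zero_apply] at h2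
    rw [h0] at h2
    have h3 : r.coeff 1 * (bas.repr (f t) j - x * bas.repr t j) = 0 := by
      linear_combination h2
    have h4 := (mul_eq_zero.mp h3).resolve_left hc1
    simp only [map_smul, Finsupp.coe_smul, Pi.smul_apply, smul_eq_mul]
    exact sub_eq_zero.mp h4

end Quadratic

/-- **(T-FROB)** from **(FT)** and **(NS)**. -/
theorem tFrob (h1 : FrobQuad) (h2 : FrobNotScalar) : TFrob := by
  intro W lam _ D ℓ hℓ hℓlam hΔ A hA σ hσ
  have hlam : lam.Prime := Fact.out
  have hquad : ∀ t : D.T.V, D.T.ρ σ (D.T.ρ σ t) - ((W.apOfModel ℓ : ℤ) : ℤ_[lam]) • D.T.ρ σ t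
      + ((ℓ : ℕ) : ℤ_[lam]) • t = 0 := by
    intro t
    apply eq_zero_of_forall_π D
    intro n
    rw [map_add, map_sub, π_intCast_smul, π_natCast_smul, D.equivariant, D.equivariant,
      ← natCast_zsmul]
    exact h1 W ℓ hℓ hΔ A hA σ hσ (lam ^ n) (coprime_pow_of_ne hlam hℓ hℓlam n) (D.π n t)
      (pow_nsmul_π D n t)
  have hns : ¬ ∃ s : ℤ_[lam], ∀ t : D.T.V, D.T.ρ σ t = s • t := by
    rintro ⟨s, hs⟩
    obtain ⟨n, hn⟩ := h2 W ℓ hℓ hΔ A hA σ hσ lam hlam (Ne.symm hℓlam)
    obtain ⟨P, hP, hne⟩ := hn ((s.appr n : ℕ) : ℤ)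
    apply hne
    obtain ⟨t, rfl⟩ := D.surj_π n P hP
    obtain ⟨y, hy⟩ := Ideal.mem_span_singleton'.mp (PadicInt.appr_spec n s)
    have hs' : s = ((s.appr n : ℕ) : ℤ_[lam]) + (lam : ℤ_[lam]) ^ n * y := by
      rw [mul_comm, hy]; ring
    rw [← D.equivariant, hs t]
    conv_lhs => rw [hs']
    rw [add_smul, map_add, π_pow_mul_smul, add_zero, π_natCast_smul, natCast_zsmul]
  exact charpoly_eq_of_quadratic D.T.finrank_eq (D.T.ρ σ) _ _ hquad hns

end Fermat.Agent.S58.TLevelFrob
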