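/-
S58-PREP row 377 (split, helper72): the Tate-module consequence **(T-MULT)**.

* `exists_common_zero` : a family of linear forms on `R²` (`R` a domain, `π` a prime with
  `⋂ πⁿR = 0`) which has a primitive approximate common zero modulo every `πⁿ` has a primitive
  common zero.  (No compactness: otherwise a nonzero `2 × 2` minor is divisible by all `πⁿ`.)
* `exists_fixed_primitive` : the same for a set of endomorphisms of a free module of rank two.
* `exists_fixed_of_multFixed` : **(MU)** gives a primitive vector of the Tate module fixed by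
  inertia at a multiplicative prime.
* `charpoly_eq_of_fixed_of_det` : a fixed nonzero vector and determinant one give the
  characteristic polynomial `(X - 1)²`.
* `tMult_of_det` : **(T-MULT)** from **(MU)** and "`det = 1` on inertia at `q ≠ lam`".
-/
import Mathlib
import Fermat.Agent.S58.Interfaces
import Fermat.Agent.S58.TLevelFrob

set_option autoImplicit false

namespace Fermat.Agent.S58.TLevelMult

open WeierstrassCurve Polynomial
open scoped WeierstrassCurve.Affine

/-! ### Linear algebra -/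

section Abstract

/-- A pair which is not identically zero is a power of `π` times a primitive pair. -/
theorem exists_primitive_pair {R : Type*} [CommRing R] {π : R} (hK : ∀ d : R, (∀ n : ℕ, π ^ n ∣ d) → d = 0) (x y : R)
    (hxy : ¬ (x = 0 ∧ y = 0)) :
    ∃ (k : ℕ) (x' y' : R), x = π ^ k * x' ∧ y = π ^ k * y' ∧ ¬ (π ∣ x' ∧ π ∣ y') := by
  classical
  have hex : ∃ n : ℕ, ¬ (π ^ n ∣ x ∧ π ^ n ∣ y) := by
    by_contra hcon
    push Not at hcon
    exact hxy ⟨hK x fun n => (hcon n).1, hK y fun n => (hcon n).2⟩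
  have hn := Nat.find_spec hex
  have hmin := fun m => Nat.find_min hex (m := m)
  set n := Nat.find hex with hn_def
  have hn0 : n ≠ 0 := by
    intro h0
    rw [h0, pow_zero] at hn
    exact hn ⟨one_dvd _, one_dvd _⟩
  obtain ⟨k, hk⟩ := Nat.exists_eq_succ_of_ne_zero hn0
  have hk' := hmin k (by omega)
  rw [not_not] at hk'
  obtain ⟨⟨x', hx'⟩, ⟨y', hy'⟩⟩ := hk'
  refine ⟨k, x', y', hx', hy', ?_⟩
  rintro ⟨⟨u, hu⟩, ⟨v, hv⟩⟩
  apply hn
  rw [hk, pow_succ]
  exact ⟨⟨u, by rw [hx', hu]; ring⟩, ⟨v, by rw [hy', hv]; ring⟩⟩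

variable {R : Type*} [CommRing R] [IsDomain R]

/-- A family of linear forms `a i * x + b i * y` with primitive approximate common zeros modulo
all powers of a prime `π` (with `⋂ πⁿR = 0`) has a primitive common zero. -/
theorem exists_common_zero {π : R} (hπ : Prime π) (hK : ∀ d : R, (∀ n : ℕ, π ^ n ∣ d) → d = 0)
    {ι : Type*} (a b : ι → R)
    (h : ∀ n : ℕ, ∃ x y : R, ¬ (π ∣ x ∧ π ∣ y) ∧ ∀ i, π ^ n ∣ a i * x + b i * y) :
    ∃ x y : R, ¬ (π ∣ x ∧ π ∣ y) ∧ ∀ i, a i * x + b i * y = 0 := by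
  -- first a nonzero common zero
  have hπ0 : π ≠ 0 := hπ.ne_zero
  have key : ∃ x y : R, ¬ (x = 0 ∧ y = 0) ∧ ∀ i, a i * x + b i * y = 0 := by
    by_cases hdet : ∀ i j, a i * b j - a j * b i = 0
    · by_cases h0 : ∀ i, a i = 0 ∧ b i = 0
      · exact ⟨1, 0, fun h => one_ne_zero h.1, fun i => by rw [(h0 i).1, (h0 i).2]; ring⟩
      · push Not at h0
        obtain ⟨i0, hi0⟩ := h0
        refine ⟨b i0, -a i0, ?_, fun i => ?_⟩
        · rintro ⟨h1, h2⟩
          exact hi0 (neg_eq_zero.mp h2) h1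
        · have := hdet i i0
          linear_combination this
    · exfalso
      push Not at hdet
      obtain ⟨i, j, hij⟩ := hdet
      apply hij
      apply hK
      intro n
      obtain ⟨x, y, hxy, hdiv⟩ := h n
      have h1 : π ^ n ∣ (a i * b j - a j * b i) * x := by
        have e : (a i * b j - a j * b i) * x =
            b j * (a i * x + b i * y) - b i * (a j * x + b j * y) := by ring
        rw [e]
        exact dvd_sub (Dvd.dvd.mul_left (hdiv i) _) (Dvd.dvd.mul_left (hdiv j) _)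
      have h2 : π ^ n ∣ (a i * b j - a j * b i) * y := by
        have e : (a i * b j - a j * b i) * y =
            a i * (a j * x + b j * y) - a j * (a i * x + b i * y) := by ring
        rw [e]
        exact dvd_sub (Dvd.dvd.mul_left (hdiv j) _) (Dvd.dvd.mul_left (hdiv i) _)
      by_cases hx : π ∣ x
      · exact hπ.pow_dvd_of_dvd_mul_right n (fun hy => hxy ⟨hx, hy⟩) h2
      · exact hπ.pow_dvd_of_dvd_mul_right n hx h1
  obtain ⟨x, y, hxy, hzero⟩ := key
  obtain ⟨k, x', y', hx', hy', hprim⟩ := exists_primitive_pair hK x y hxy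
  refine ⟨x', y', hprim, fun i => ?_⟩
  have := hzero i
  rw [hx', hy'] at this
  have e : π ^ k * (a i * x' + b i * y') = 0 := by linear_combination this
  exact (mul_eq_zero.mp e).resolve_left (pow_ne_zero k hπ0)

variable {M : Type*} [AddCommGroup M] [Module R M] [Module.Free R M] [Module.Finite R M]

/-- A set of endomorphisms of a free module of rank two having primitive approximate common fixed
vectors modulo all powers of `π` has a primitive common fixed vector. -/
theorem exists_fixed_primitive (hrank : Module.finrank R M = 2) {π : R} (hπ : Prime π)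
    (hK : ∀ d : R, (∀ n : ℕ, π ^ n ∣ d) → d = 0) (S : Set (Module.End R M))
    (h : ∀ n : ℕ, ∃ t : M, (¬ ∃ w, t = π • w) ∧ ∀ f ∈ S, ∃ w, f t - t = π ^ n • w) :
    ∃ t : M, (¬ ∃ w, t = π • w) ∧ ∀ f ∈ S, f t = t := by
  classical
  let bas : Module.Basis (Fin 2) R M := Module.finBasisOfFinrankEq R M hrank
  have hsum : ∀ t : M, t = bas.repr t 0 • bas 0 + bas.repr t 1 • bas 1 := by
    intro t
    conv_lhs => rw [← bas.sum_repr t, Fin.sum_univ_two]
  let a : S × Fin 2 → R := fun i => bas.repr ((i.1 : Module.End R M) (bas 0) - bas 0) i.2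
  let b : S × Fin 2 → R := fun i => bas.repr ((i.1 : Module.End R M) (bas 1) - bas 1) i.2
  have hab : ∀ (x y : R) (i : S × Fin 2),
      bas.repr ((i.1 : Module.End R M) (x • bas 0 + y • bas 1) - (x • bas 0 + y • bas 1)) i.2 =
        a i * x + b i * y := by
    intro x y i
    have e : (i.1 : Module.End R M) (x • bas 0 + y • bas 1) - (x • bas 0 + y • bas 1) =
        x • ((i.1 : Module.End R M) (bas 0) - bas 0) +
          y • ((i.1 : Module.End R M) (bas 1) - bas 1) := by
      rw [map_add, map_smul, map_smul, smul_sub, smul_sub]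
      abel
    rw [e, map_add, map_smul, map_smul, Finsupp.add_apply, Finsupp.smul_apply,
      Finsupp.smul_apply, smul_eq_mul, smul_eq_mul]
    ring
  obtain ⟨x, y, hprim, hzero⟩ := exists_common_zero hπ hK a b (by
    intro n
    obtain ⟨t, ht, hS⟩ := h n
    refine ⟨bas.repr t 0, bas.repr t 1, ?_, fun i => ?_⟩
    · rintro ⟨⟨u, hu⟩, ⟨v, hv⟩⟩
      apply ht
      refine ⟨u • bas 0 + v • bas 1, ?_⟩
      conv_lhs => rw [hsum t, hu, hv]
      rw [smul_add, smul_smul, smul_smul]
    · obtain ⟨w, hw⟩ := hS i.1 i.1.2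
      rw [← hab, ← hsum t, hw, map_smul, Finsupp.smul_apply, smul_eq_mul]
      exact Dvd.intro _ rfl)
  refine ⟨x • bas 0 + y • bas 1, ?_, fun f hf => ?_⟩
  · rintro ⟨w, hw⟩
    apply hprim
    have h0 := congrArg (fun v => bas.repr v 0) hw
    have h1 := congrArg (fun v => bas.repr v 1) hw
    simp only [map_add, map_smul, Finsupp.add_apply, Finsupp.smul_apply, smul_eq_mul,
      Module.Basis.repr_self] at h0 h1
    simp at h0 h1
    exact ⟨⟨_, h0⟩, ⟨_, h1⟩⟩
  · apply eq_of_sub_eq_zero
    apply bas.repr.injective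
    ext j
    have := hab x y (⟨f, hf⟩, j)
    rw [LinearEquiv.map_zero, Finsupp.zero_apply]
    exact this.trans (hzero (⟨f, hf⟩, j))

/-- A fixed nonzero vector and determinant one: the characteristic polynomial is `(X - 1)²`. -/
theorem charpoly_eq_of_fixed_of_det (hrank : Module.finrank R M = 2) (f : Module.End R M)
    (t : M) (ht : t ≠ 0) (hft : f t = t) (hdet : LinearMap.det f = 1) :
    f.charpoly = (X - 1) ^ 2 := by
  classical
  let bas : Module.Basis (Fin 2) R M := Module.finBasisOfFinrankEq R M hrank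
  set A : Matrix (Fin 2) (Fin 2) R := LinearMap.toMatrix bas bas f with hA
  have hdetA : A.det = 1 := by rw [hA, LinearMap.det_toMatrix]; exact hdet
  -- `A - 1` kills the coordinates of `t`
  have hker : ∃ v : Fin 2 → R, v ≠ 0 ∧ (A - 1).mulVec v = 0 := by
    refine ⟨fun i => bas.repr t i, ?_, ?_⟩
    · intro h0
      apply ht
      apply bas.repr.injective
      ext i
      rw [map_zero, Finsupp.zero_apply]
      exact congrFun h0 i
    · rw [Matrix.sub_mulVec, Matrix.one_mulVec, sub_eq_zero, hA]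
      have := LinearMap.toMatrix_mulVec_repr bas bas f t
      rw [this, hft]
  have hdet0 : (A - 1).det = 0 := Matrix.exists_mulVec_eq_zero_iff.mp hker
  have htr : A.trace = 2 := by
    rw [Matrix.det_fin_two] at hdet0 hdetA
    rw [Matrix.trace_fin_two]
    simp only [Matrix.sub_apply, Matrix.one_apply_eq, Matrix.one_apply_ne, ne_eq,
      Fin.reduceEq, not_false_eq_true, sub_zero] at hdet0
    linear_combination hdetA - hdet0
  rw [← LinearMap.charpoly_toMatrix f bas, ← hA, Matrix.charpoly_fin_two, htr, hdetA]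
  simp only [map_ofNat, map_one]
  ring

end Abstract

/-! ### The Tate module -/

section Tate

variable {W : WeierstrassCurve ℤ} {lam : ℕ} [Fact lam.Prime]

theorem eq_zero_of_forall_pow_dvd (d : ℤ_[lam]) (h : ∀ n : ℕ, (lam : ℤ_[lam]) ^ n ∣ d) :
    d = 0 := by
  have hI : Ideal.span {(lam : ℤ_[lam])} ≠ ⊤ := by
    rw [Ne, Ideal.span_singleton_eq_top]
    exact PadicInt.prime_p.not_isUnit
  have hK := Ideal.iInf_pow_eq_bot_of_isLocalRing (Ideal.span {(lam : ℤ_[lam])}) hI
  have hd : d ∈ ⨅ i : ℕ, Ideal.span {(lam : ℤ_[lam])} ^ i := by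
    rw [Ideal.mem_iInf]
    intro n
    rw [Ideal.span_singleton_pow, Ideal.mem_span_singleton]
    exact h n
  rw [hK] at hd
  exact hd

/-- **(MU)** gives a primitive vector of the Tate module fixed by the inertia group of `A`. -/
theorem exists_fixed_of_multFixed (h : MultFixed) (D : TateData W lam) (hΔ : W.Δ ≠ 0) {q : ℕ}
    (hq : q.Prime) (hql : q ≠ lam) (hqΔ : (q : ℤ) ∣ W.Δ) (hc₄ : ¬ (q : ℤ) ∣ W.c₄)
    (A : ValuationSubring Qb) (hA : A.LiesOverPrime q) :
    ∃ t : D.T.V, (¬ ∃ w, t = (lam : ℤ_[lam]) • w) ∧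
      ∀ τ ∈ A.inertiaSubgroupIn ℚ, D.T.ρ τ t = t := by
  have hlam : lam.Prime := Fact.out
  obtain ⟨t, ht, hfix⟩ := exists_fixed_primitive D.T.finrank_eq (PadicInt.prime_p (p := lam))
    eq_zero_of_forall_pow_dvd ((fun τ => D.T.ρ τ) '' (A.inertiaSubgroupIn ℚ : Set GQ)) (by
      intro n
      obtain ⟨P, hP, hPn, hPfix⟩ := h W q hq hΔ hqΔ hc₄ A hA lam hlam (Ne.symm hql) n
      obtain ⟨t, rfl⟩ := D.surj_π (n + 1) P hP
      refine ⟨t, ?_, ?_⟩
      · rintro ⟨w, rfl⟩
        apply hPn
        rw [← TLevelFrob.π_natCast_smul, Nat.cast_pow, smul_smul, ← pow_succ]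
        exact TLevelFrob.π_pow_smul D (n + 1) w
      · rintro _ ⟨τ, hτ, rfl⟩
        have h0 : D.π (n + 1) (D.T.ρ τ t - t) = 0 := by
          rw [map_sub, D.equivariant, hPfix τ hτ, sub_self]
        obtain ⟨w, hw⟩ := (D.ker_π (n + 1) _).mp h0
        exact ⟨(lam : ℤ_[lam]) • w, by rw [hw, smul_smul, ← pow_succ]⟩)
  exact ⟨t, ht, fun τ hτ => hfix _ ⟨τ, hτ, rfl⟩⟩

end Tate

/-- **(T-MULT)** from **(MU)** and the triviality of the determinant on inertia at `q ≠ lam`. -/
theorem tMult_of_det (h : MultFixed)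
    (hdet : ∀ (W : WeierstrassCurve ℤ) (lam : ℕ) [Fact lam.Prime] (D : TateData W lam),
      W.Δ ≠ 0 → ∀ q : ℕ, q.Prime → q ≠ lam → ∀ A : ValuationSubring Qb, A.LiesOverPrime q →
        ∀ τ ∈ A.inertiaSubgroupIn ℚ, LinearMap.det (D.T.ρ τ) = 1) : TMult := by
  intro W lam _ D hΔ q hq hql hqΔ hc₄ A hA τ hτ
  obtain ⟨t, ht, hfix⟩ := exists_fixed_of_multFixed h D hΔ hq hql hqΔ hc₄ A hA
  refine charpoly_eq_of_fixed_of_det D.T.finrank_eq (D.T.ρ τ) t ?_ (hfix τ hτ)
    (hdet W lam D hΔ q hq hql A hA τ hτ)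
  rintro rfl
  exact ht ⟨0, by rw [smul_zero]⟩

end Fermat.Agent.S58.TLevelMult
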