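/-
S58-PREP row 377, part (helper84): **the residual representation of the Tate module is
irreducible when `E[p]` is.**

`residual_irreducible (D : TateData W p) (hΔ : W.Δ ≠ 0) (h : W.ModRepIsIrreducible p) :
  D.T.residual.IsIrreducible`.

Transport along the level map `π 1 : T → E[p]` (onto, kernel `p T`, Galois-equivariant) and the
reduction `T → k ⊗ T`, `t ↦ 1 ⊗ t` (onto, kills `p T`, equivariant): a stable `k`-subspace `U`
of `k ⊗ T` gives the stable subgroup `N = π 1 (red⁻¹ U)` of `E[p]`; `N = ⊥ ⟹ U = ⊥` and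
`N = ⊤ ⟹ U = ⊤`.
-/
import Mathlib
import Fermat.Agent.S58.Interfaces
import Fermat.Agent.Lib.TateLim

set_option autoImplicit false

namespace Fermat.Agent.S58.TLevelRes

open WeierstrassCurve
open scoped TensorProduct WeierstrassCurve.Affine

variable {W : WeierstrassCurve ℤ} {p : ℕ} [Fact p.Prime]

/-- The reduction map `T → k ⊗ T`, `t ↦ 1 ⊗ t`. -/
noncomputable def redT (D : TateData W p) :
    D.T.V →ₗ[ℤ_[p]] (IsLocalRing.ResidueField ℤ_[p] ⊗[ℤ_[p]] D.T.V) :=
  TensorProduct.mk ℤ_[p] (IsLocalRing.ResidueField ℤ_[p]) D.T.V 1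

theorem redT_apply (D : TateData W p) (t : D.T.V) :
    redT D t = (1 : IsLocalRing.ResidueField ℤ_[p]) ⊗ₜ[ℤ_[p]] t := rfl

/-- The reduction map is onto. -/
theorem redT_surjective (D : TateData W p) : Function.Surjective (redT D) := by
  intro x
  induction x using TensorProduct.induction_on with
  | zero => exact ⟨0, map_zero _⟩
  | tmul c t =>
    obtain ⟨a, rfl⟩ := IsLocalRing.residue_surjective c
    refine ⟨a • t, ?_⟩
    rw [redT_apply, TensorProduct.tmul_smul, TensorProduct.smul_tmul', Algebra.smul_def,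
      IsLocalRing.ResidueField.algebraMap_eq, mul_one]
  | add x y hx hy =>
    obtain ⟨a, rfl⟩ := hx
    obtain ⟨b, rfl⟩ := hy
    exact ⟨a + b, map_add _ _ _⟩

/-- The reduction map kills `p T`. -/
theorem redT_smul_p (D : TateData W p) (w : D.T.V) : redT D ((p : ℤ_[p]) • w) = 0 := by
  rw [redT_apply, TensorProduct.tmul_smul, TensorProduct.smul_tmul', Algebra.smul_def,
    IsLocalRing.ResidueField.algebraMap_eq, mul_one]
  have hp : (p : ℤ_[p]) ∈ IsLocalRing.maximalIdeal ℤ_[p] := by
    rw [PadicInt.maximalIdeal_eq_span_p]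
    exact Ideal.mem_span_singleton_self _
  rw [(IsLocalRing.residue_eq_zero_iff _).mpr hp, TensorProduct.zero_tmul]

/-- The reduction map is Galois-equivariant. -/
theorem redT_rho (D : TateData W p) (σ : GQ) (t : D.T.V) :
    redT D (D.T.ρ σ t)
      = (D.T.ρ σ).baseChange (IsLocalRing.ResidueField ℤ_[p]) (redT D t) := by
  rw [redT_apply, redT_apply, LinearMap.baseChange_tmul]

/-- The irreducibility statement on `k ⊗ T` (the carrier of the residual representation,
unfolded). -/
theorem residual_irreducible_aux (D : TateData W p) (h : W.ModRepIsIrreducible p)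
    (U : Submodule (IsLocalRing.ResidueField ℤ_[p])
      (IsLocalRing.ResidueField ℤ_[p] ⊗[ℤ_[p]] D.T.V))
    (hU : ∀ σ : GQ, ∀ x ∈ U,
      (D.T.ρ σ).baseChange (IsLocalRing.ResidueField ℤ_[p]) x ∈ U) :
    U = ⊥ ∨ U = ⊤ := by
  have hK := D.ker_π
  -- the subgroup `N = π 1 (red⁻¹ U)` of `E[p]`
  let N : Submodule (ZMod p)
      (Submodule.torsionBy ℤ ((W.map (Int.castRingHom ℚ)).toAffine⁄Qb).Point (p : ℤ)) :=
    { carrier := {x | ∃ t : D.T.V, redT D t ∈ U ∧ D.π 1 t = (x : EPt W)}
      zero_mem' := ⟨0, by rw [_root_.map_zero]; exact U.zero_mem, by rw [_root_.map_zero]; rfl⟩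
      add_mem' := by
        rintro x y ⟨t, htU, ht⟩ ⟨s, hsU, hs⟩
        exact ⟨t + s, by rw [map_add]; exact U.add_mem htU hsU, by rw [map_add, ht, hs]; rfl⟩
      smul_mem' := by
        rintro c x ⟨t, htU, ht⟩
        refine ⟨c.val • t, ?_, ?_⟩
        · rw [map_nsmul]
          exact U.nsmul_mem htU _
        · rw [map_nsmul, ht]
          conv_rhs => rw [← ZMod.natCast_zmod_val c, Nat.cast_smul_eq_nsmul]
          rfl }
  have hN : WeierstrassCurve.Affine.Point.IsGaloisStable ℚ N := by
    rintro σ x ⟨t, htU, ht⟩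
    refine ⟨D.T.ρ σ t, ?_, ?_⟩
    · rw [redT_rho]
      exact hU σ _ htU
    · rw [D.equivariant, ht]
      rfl
  rcases h.2 N hN with h0 | h1
  · left
    rw [eq_bot_iff]
    intro u hu
    obtain ⟨t, rfl⟩ := redT_surjective D u
    have htor : (p : ℤ) • D.π 1 t = 0 := by
      have := Fermat.Agent.Lib.TateLim.pow_nsmul_map D.π hK 1 t
      rw [pow_one] at this
      rw [natCast_zsmul]
      exact this
    have hmem : (⟨D.π 1 t, (Submodule.mem_torsionBy_iff _ _).mpr htor⟩ :
        Submodule.torsionBy ℤ ((W.map (Int.castRingHom ℚ)).toAffine⁄Qb).Point (p : ℤ)) ∈ N :=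
      ⟨t, hu, rfl⟩
    rw [h0, Submodule.mem_bot] at hmem
    have h0' : D.π 1 t = 0 := congrArg Subtype.val hmem
    obtain ⟨w, hw⟩ := (hK 1 t).mp h0'
    rw [pow_one] at hw
    rw [Submodule.mem_bot, hw]
    exact redT_smul_p D w
  · right
    rw [eq_top_iff]
    intro u _
    obtain ⟨t, rfl⟩ := redT_surjective D u
    have htor : (p : ℤ) • D.π 1 t = 0 := by
      have := Fermat.Agent.Lib.TateLim.pow_nsmul_map D.π hK 1 t
      rw [pow_one] at this
      rw [natCast_zsmul]
      exact this
    have hmem : (⟨D.π 1 t, (Submodule.mem_torsionBy_iff _ _).mpr htor⟩ :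
        Submodule.torsionBy ℤ ((W.map (Int.castRingHom ℚ)).toAffine⁄Qb).Point (p : ℤ)) ∈ N := by
      rw [h1]; exact Submodule.mem_top
    obtain ⟨t', ht'U, ht'⟩ := hmem
    have hsub : D.π 1 (t - t') = 0 := by
      rw [map_sub, ht', sub_self]
    obtain ⟨w, hw⟩ := (hK 1 _).mp hsub
    rw [pow_one] at hw
    have e : redT D t = redT D t' := by
      have := redT_smul_p D w
      rw [← hw, map_sub, sub_eq_zero] at this
      exact this
    rw [e]
    exact ht'U

/-- **The residual representation of the Tate module is irreducible when `E[p]` is.** -/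
theorem residual_irreducible (D : TateData W p) (_hΔ : W.Δ ≠ 0)
    (h : W.ModRepIsIrreducible p) : D.T.residual.IsIrreducible :=
  fun U hU => residual_irreducible_aux D h U hU

end Fermat.Agent.S58.TLevelRes
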