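/-
S58-PREP, row S58-9 (T-LEVEL), helper92: the final wiring of **(T-MULT)** and **(T-RES)**.

* `tMult (hT : TFrob) (hMU : MultFixed) : TMult` — an inertia-fixed primitive vector
  (`TLevelMult`, helper72) and `det = 1` on inertia (`DetCyclo.det_inertia`);
* `tRes_of_absIrred (hT : TFrob) (habs : …) : TRes` — irreducibility of `k ⊗ T`
  (`TLevelRes.residual_irreducible`, helper84), oddness (`DetCyclo.isOdd`) and the generic
  statement "irreducible + odd ⟹ absolutely irreducible" as a hypothesis.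
-/
import Mathlib
import Fermat.Agent.S58.DetCyclo
import Fermat.Agent.S58.TLevelMult
import Fermat.Agent.S58.TLevelRes

set_option autoImplicit false

namespace Fermat.Agent.S58.TLevel

open Fermat.Agent.S58

/-- **(T-MULT)**: unipotent inertia of the Tate module at multiplicative primes `q ≠ lam`. -/
theorem tMult (hT : TFrob) (hMU : MultFixed) : TMult :=
  TLevelMult.tMult_of_det hMU fun _ _ _ D hΔ _ hq hql A hA τ hτ =>
    DetCyclo.det_inertia hT D hΔ hq hql A hA τ hτ

/-- `2` is invertible in the residue field of `ℤ_[p]` for `p` odd. -/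
theorem two_ne_zero_residue (p : ℕ) [Fact p.Prime] (hp2 : p ≠ 2) :
    (2 : IsLocalRing.ResidueField ℤ_[p]) ≠ 0 := by
  have hp : p.Prime := Fact.out
  intro h
  have h1 : IsLocalRing.residue ℤ_[p] (2 : ℤ_[p]) = 0 := by rw [map_ofNat]; exact h
  rw [IsLocalRing.residue_eq_zero_iff, IsLocalRing.mem_maximalIdeal, mem_nonunits_iff,
    PadicInt.not_isUnit_iff] at h1
  have h2 : ‖((2 : ℤ) : ℤ_[p])‖ < 1 := by rw [Int.cast_ofNat]; exact h1
  rw [PadicInt.norm_int_lt_one_iff_dvd] at h2
  have h3 : p ∣ 2 := by exact_mod_cast h2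
  exact hp2 ((Nat.prime_dvd_prime_iff_eq hp Nat.prime_two).mp h3)

/-- **(T-RES)** from the generic statement "irreducible and odd implies absolutely
irreducible" (characteristic `≠ 2`). -/
theorem tRes_of_absIrred (hT : TFrob)
    (habs : ∀ (k : Type) [Field k], (2 : k) ≠ 0 → ∀ ρ : ResidualGaloisRep k,
      ρ.IsIrreducible → ρ.IsOdd → ρ.IsAbsolutelyIrreducible) : TRes := by
  intro W p _ D hΔ hp2 hirr
  have hodd := DetCyclo.isOdd hT D hΔ hp2
  exact ⟨habs _ (two_ne_zero_residue p hp2) D.T.residual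
    (TLevelRes.residual_irreducible D hΔ hirr) hodd, hodd⟩

end Fermat.Agent.S58.TLevel
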