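/-
S58-PREP, row S58-9 (T-LEVEL), helper92: **an odd irreducible residual representation
(characteristic `≠ 2`) is absolutely irreducible.**

`absIrred_of_irred_of_odd (h2 : (2 : k) ≠ 0) (ρ : ResidualGaloisRep k) (hirr : ρ.IsIrreducible)
  (hodd : ρ.IsOdd) : ρ.IsAbsolutelyIrreducible`.

Proof: `f := ρ(c)`, `c` the complex conjugation, satisfies `f ∘ f = 1`, `det f = -1`, so there is
a basis `e₊, e₋` of `V` with `f e₊ = e₊`, `f e₋ = -e₋`.  For a stable `K`-subspace `W` of `K ⊗ V`
the `k`-subspace `U = {v | 1 ⊗ v ∈ W}` is stable, so `U = ⊥` or `U = ⊤`.  If `U = ⊤` then `W = ⊤`;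
if `U = ⊥`, an element `w = α (1 ⊗ e₊) + β (1 ⊗ e₋)` of `W` has `2α (1 ⊗ e₊) = w + f_K w ∈ W` and
`2β (1 ⊗ e₋) = w - f_K w ∈ W`, so `α = β = 0`.

`tRes (hT : TFrob) : TRes` is the resulting final form of **(T-RES)**.
-/
import Mathlib
import Fermat.Agent.S58.TLevel

set_option autoImplicit false

namespace Fermat.Agent.S58.AbsIrred

open Fermat.Agent.S58
open scoped TensorProduct

/-- The unfolded statement: stable subspaces of `K ⊗ V`, `K = AlgebraicClosure k`. -/
theorem absIrred_aux {k : Type} [Field k] (h2 : (2 : k) ≠ 0) (ρ : ResidualGaloisRep k)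
    (hirr : ρ.IsIrreducible) (hodd : ρ.IsOdd)
    (W : Submodule (AlgebraicClosure k) (AlgebraicClosure k ⊗[k] ρ.V))
    (hW : ∀ σ : GQ, ∀ x ∈ W, (ρ.ρ σ).baseChange (AlgebraicClosure k) x ∈ W) :
    W = ⊥ ∨ W = ⊤ := by
  classical
  set f : Module.End k ρ.V := ρ.ρ complexConjugation with hf
  have hff : ∀ v, f (f v) = v := by
    intro v
    have h : f * f = 1 := by rw [hf, ← map_mul, complexConjugation_mul_self, map_one]
    have h' := congrArg (fun g : Module.End k ρ.V => g v) h
    simpa using h'
  have hdet : LinearMap.det f = -1 :=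
    hodd complexConjugation complexConjugation_mul_self DetCyclo.complexConjugation_ne_one
  have h11 : (1 : k) ≠ -1 := by
    intro h
    apply h2
    linear_combination h
  -- eigenvectors for `-1` and `+1`
  obtain ⟨v, hv⟩ : ∃ v, f v ≠ v := by
    by_contra hcon
    have h1 : f = 1 := LinearMap.ext fun x => by_contra fun hx => hcon ⟨x, hx⟩
    rw [h1, map_one] at hdet
    exact h11 hdet
  obtain ⟨v', hv'⟩ : ∃ v', f v' ≠ -v' := by
    by_contra hcon
    have h1 : f = (-1 : k) • (1 : Module.End k ρ.V) := LinearMap.ext fun x => by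
      have hx : f x = -x := by_contra fun hx => hcon ⟨x, hx⟩
      rw [hx, LinearMap.smul_apply, Module.End.one_apply, neg_one_smul]
    rw [h1, LinearMap.det_smul, ρ.finrank_eq, map_one] at hdet
    exact h11 (by linear_combination hdet)
  have hem0 : v - f v ≠ 0 := sub_ne_zero.mpr (Ne.symm hv)
  have hep0 : v' + f v' ≠ 0 := fun h => hv' (eq_neg_of_add_eq_zero_right h)
  have hfem : f (v - f v) = -(v - f v) := by rw [map_sub, hff]; abel
  have hfep : f (v' + f v') = v' + f v' := by rw [map_add, hff]; abel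
  have hli : LinearIndependent k ![v' + f v', v - f v] := by
    rw [LinearIndependent.pair_iff]
    intro s t hst
    have h1 : s • (v' + f v') - t • (v - f v) = 0 := by
      have h := congrArg f hst
      rw [map_add, map_smul, map_smul, hfep, hfem, map_zero, smul_neg] at h
      rw [sub_eq_add_neg]; exact h
    have hs : (2 * s) • (v' + f v') = 0 := by
      have e : (2 * s) • (v' + f v') =
          (s • (v' + f v') + t • (v - f v)) + (s • (v' + f v') - t • (v - f v)) := by
        rw [mul_smul, two_smul]; abel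
      rw [e, hst, h1, add_zero]
    have ht : (2 * t) • (v - f v) = 0 := by
      have e : (2 * t) • (v - f v) =
          (s • (v' + f v') + t • (v - f v)) - (s • (v' + f v') - t • (v - f v)) := by
        rw [mul_smul, two_smul]; abel
      rw [e, hst, h1, sub_zero]
    exact ⟨(mul_eq_zero.mp ((smul_eq_zero.mp hs).resolve_right hep0)).resolve_left h2,
      (mul_eq_zero.mp ((smul_eq_zero.mp ht).resolve_right hem0)).resolve_left h2⟩
  let b : Module.Basis (Fin 2) k ρ.V :=
    basisOfLinearIndependentOfCardEqFinrank hli (by rw [Fintype.card_fin, ρ.finrank_eq])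
  have hb0 : b 0 = v' + f v' := by
    simp [b, coe_basisOfLinearIndependentOfCardEqFinrank]
  have hb1 : b 1 = v - f v := by
    simp [b, coe_basisOfLinearIndependentOfCardEqFinrank]
  -- the `k`-subspace cut out by `W`
  let U : Submodule k ρ.V :=
    Submodule.comap (TensorProduct.mk k (AlgebraicClosure k) ρ.V 1) (W.restrictScalars k)
  have hUmem : ∀ x : ρ.V, x ∈ U ↔ (1 : AlgebraicClosure k) ⊗ₜ[k] x ∈ W := fun x => Iff.rfl
  have hU : ∀ σ : GQ, ∀ x ∈ U, ρ.ρ σ x ∈ U := by
    intro σ x hx
    rw [hUmem] at hx ⊢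
    have h := hW σ _ hx
    rwa [LinearMap.baseChange_tmul] at h
  have h2K : (2 : AlgebraicClosure k) ≠ 0 := by
    have e : (2 : AlgebraicClosure k) = algebraMap k (AlgebraicClosure k) 2 := by
      rw [map_ofNat]
    rw [e]
    exact (map_ne_zero _).mpr h2
  rcases hirr U hU with hbot | htop
  · left
    rw [Submodule.eq_bot_iff]
    intro w hw
    obtain ⟨α, β, hαβ⟩ : ∃ α β : AlgebraicClosure k,
        w = α • ((1 : AlgebraicClosure k) ⊗ₜ[k] (v' + f v')) +
          β • ((1 : AlgebraicClosure k) ⊗ₜ[k] (v - f v)) := by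
      refine ⟨(b.baseChange (AlgebraicClosure k)).repr w 0,
        (b.baseChange (AlgebraicClosure k)).repr w 1, ?_⟩
      conv_lhs => rw [← (b.baseChange (AlgebraicClosure k)).sum_repr w, Fin.sum_univ_two]
      rw [Module.Basis.baseChange_apply, Module.Basis.baseChange_apply, hb0, hb1]
    have hfwW : (f.baseChange (AlgebraicClosure k)) w ∈ W := hW complexConjugation w hw
    have hfw : (f.baseChange (AlgebraicClosure k)) w =
        α • ((1 : AlgebraicClosure k) ⊗ₜ[k] (v' + f v')) -
          β • ((1 : AlgebraicClosure k) ⊗ₜ[k] (v - f v)) := by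
      rw [hαβ, map_add, map_smul, map_smul, LinearMap.baseChange_tmul,
        LinearMap.baseChange_tmul, hfep, hfem, TensorProduct.tmul_neg, smul_neg]
      exact (sub_eq_add_neg _ _).symm
    have hsum : (2 * α) • ((1 : AlgebraicClosure k) ⊗ₜ[k] (v' + f v')) ∈ W := by
      have e : (2 * α) • ((1 : AlgebraicClosure k) ⊗ₜ[k] (v' + f v')) =
          w + (f.baseChange (AlgebraicClosure k)) w := by
        rw [hfw, hαβ, mul_smul, two_smul]; abel
      rw [e]; exact W.add_mem hw hfwW
    have hdiff : (2 * β) • ((1 : AlgebraicClosure k) ⊗ₜ[k] (v - f v)) ∈ W := by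
      have e : (2 * β) • ((1 : AlgebraicClosure k) ⊗ₜ[k] (v - f v)) =
          w - (f.baseChange (AlgebraicClosure k)) w := by
        rw [hfw, hαβ, mul_smul, two_smul]; abel
      rw [e]; exact W.sub_mem hw hfwW
    have hα : α = 0 := by
      by_contra hα0
      have h := W.smul_mem ((2 * α)⁻¹) hsum
      rw [smul_smul, inv_mul_cancel₀ (mul_ne_zero h2K hα0), one_smul] at h
      have hmem : v' + f v' ∈ U := (hUmem _).mpr h
      rw [hbot] at hmem
      exact hep0 ((Submodule.mem_bot k).mp hmem)
    have hβ : β = 0 := by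
      by_contra hβ0
      have h := W.smul_mem ((2 * β)⁻¹) hdiff
      rw [smul_smul, inv_mul_cancel₀ (mul_ne_zero h2K hβ0), one_smul] at h
      have hmem : v - f v ∈ U := (hUmem _).mpr h
      rw [hbot] at hmem
      exact hem0 ((Submodule.mem_bot k).mp hmem)
    rw [hαβ, hα, hβ, zero_smul, zero_smul, add_zero]
  · right
    rw [eq_top_iff]
    rintro x -
    induction x using TensorProduct.induction_on with
    | zero => exact W.zero_mem
    | tmul a y =>
      have hy : (1 : AlgebraicClosure k) ⊗ₜ[k] y ∈ W :=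
        (hUmem y).mp (htop ▸ Submodule.mem_top)
      have e : a ⊗ₜ[k] y = a • ((1 : AlgebraicClosure k) ⊗ₜ[k] y) := by
        rw [TensorProduct.smul_tmul', smul_eq_mul, mul_one]
      rw [e]; exact W.smul_mem a hy
    | add x y hx hy => exact W.add_mem hx hy

/-- **An odd irreducible residual representation in characteristic `≠ 2` is absolutely
irreducible.** -/
theorem absIrred_of_irred_of_odd {k : Type} [Field k] (h2 : (2 : k) ≠ 0)
    (ρ : ResidualGaloisRep k) (hirr : ρ.IsIrreducible) (hodd : ρ.IsOdd) :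
    ρ.IsAbsolutelyIrreducible :=
  fun W hW => absIrred_aux h2 ρ hirr hodd W hW

/-- **(T-RES)**: for an odd prime `p` with `E[p]` irreducible, the residual representation of
the `p`-adic Tate module is absolutely irreducible and odd. -/
theorem tRes (hT : TFrob) : TRes :=
  TLevel.tRes_of_absIrred hT fun _ _ h2 ρ hirr hodd => absIrred_of_irred_of_odd h2 ρ hirr hodd

end Fermat.Agent.S58.AbsIrred
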