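/-
S58-PREP assembly, part 1: small generic lemmas used by the assembly.
-/
import Mathlib
import Fermat.Agent.S58.Interfaces
import Fermat.Agent.ESJ.Rep.ZpAlg

set_option autoImplicit false

open Polynomial

namespace Fermat.Agent.S58.Asm

open Fermat.Agent.S58

/-- A ring homomorphism `ℤ_[lam] →+* O` into a local ring with `lam` in its maximal ideal is
local. -/
theorem isLocalHom_padicInt (lam : ℕ) [Fact lam.Prime] (O : Type) [CommRing O] [IsLocalRing O]
    (h : (lam : O) ∈ IsLocalRing.maximalIdeal O) (φ : ℤ_[lam] →+* O) : IsLocalHom φ := by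
  refine ⟨fun x hx => ?_⟩
  by_contra hx'
  have hmem : x ∈ IsLocalRing.maximalIdeal ℤ_[lam] := (IsLocalRing.mem_maximalIdeal x).mpr hx'
  rw [PadicInt.maximalIdeal_eq_span_p, Ideal.mem_span_singleton] at hmem
  obtain ⟨y, rfl⟩ := hmem
  have : φ ((lam : ℤ_[lam]) * y) ∈ IsLocalRing.maximalIdeal O := by
    rw [map_mul, map_natCast]
    exact Ideal.mul_mem_right _ _ h
  exact (IsLocalRing.mem_maximalIdeal _).mp this hx

/-- The canonical homomorphism from `ℤ_[lam]` to a complete local ring of residue
characteristic `lam`. -/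
theorem exists_padicInt_hom (lam : ℕ) [Fact lam.Prime] (O : Type) [CommRing O] [IsLocalRing O]
    [IsAdicComplete (IsLocalRing.maximalIdeal O) O]
    (h : (lam : O) ∈ IsLocalRing.maximalIdeal O) : ∃ φ : ℤ_[lam] →+* O, IsLocalHom φ :=
  ⟨Fermat.Agent.ESJ.Rep.ZpAlg.padicIntRingHom lam O (IsLocalRing.maximalIdeal O) h,
    isLocalHom_padicInt lam O h _⟩

/-- Characteristic polynomials of a base change. -/
theorem charpoly_baseChangeAlong {A B : Type} [CommRing A] [IsLocalRing A] [CommRing B]
    [IsLocalRing B] (φ : A →+* B) (hφ : IsLocalHom φ) (ρ : GaloisRepAdic A) (σ : GQ) :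
    LinearMap.charpoly ((ρ.baseChangeAlong φ hφ).ρ σ) = (LinearMap.charpoly (ρ.ρ σ)).map φ := by
  let _ : Algebra A B := φ.toAlgebra
  exact LinearMap.charpoly_baseChange (A := B) (ρ.ρ σ)

/-- The characteristic polynomial of the identity of a rank-2 representation. -/
theorem charpoly_eq_of_eq_one {A : Type} [CommRing A] [IsLocalRing A] (ρ : GaloisRepAdic A)
    (σ : GQ) (h : ρ.ρ σ = 1) : LinearMap.charpoly (ρ.ρ σ) = (X - 1) ^ 2 := by
  rw [h, LinearMap.charpoly_one, ρ.finrank_eq]

/-- An algebraic integer `x` of a subring of `ℂ` whose image under a ring homomorphism to a ring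
of characteristic zero is a rational integer `a` is equal to `a`. -/
theorem eq_intCast_of_map_eq {R : Subring ℂ} {O : Type} [CommRing O] [CharZero O]
    (iota : R →+* O) (x : R) (hx : IsIntegral ℤ (x : ℂ)) (a : ℤ) (h : iota x = (a : O)) :
    (x : ℂ) = (a : ℂ) := by
  set m := minpoly ℤ (x : ℂ) with hm
  have h0 : Polynomial.eval₂ (Int.castRingHom R) x m = 0 := by
    apply Subtype.ext
    have h1 : ((Polynomial.eval₂ (Int.castRingHom R) x m : R) : ℂ) =
        Polynomial.eval₂ (Int.castRingHom ℂ) (x : ℂ) m := by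
      have := Polynomial.hom_eval₂ m (Int.castRingHom R) R.subtype x
      rw [show R.subtype.comp (Int.castRingHom R) = Int.castRingHom ℂ from RingHom.ext_int _ _]
        at this
      exact this
    rw [h1]
    have h2 := minpoly.aeval ℤ (x : ℂ)
    rw [Polynomial.aeval_def] at h2
    rw [show algebraMap ℤ ℂ = Int.castRingHom ℂ from rfl] at h2
    simpa using h2
  have h1 : Polynomial.eval₂ (Int.castRingHom O) (a : O) m = 0 := by
    have := Polynomial.hom_eval₂ m (Int.castRingHom R) iota x
    rw [h0, map_zero, show iota.comp (Int.castRingHom R) = Int.castRingHom O from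
      RingHom.ext_int _ _, h] at this
    exact this.symm
  have h2 : m.eval a = 0 := by
    have h3 : Polynomial.eval₂ (Int.castRingHom O) (a : O) m = ((m.eval a : ℤ) : O) := by
      rw [Polynomial.eval₂_at_intCast]
      simp
    rw [h3] at h1
    exact_mod_cast h1
  have hdvd : (X - C a) ∣ m := Polynomial.dvd_iff_isRoot.mpr h2
  obtain ⟨r, hr⟩ := hdvd
  have hirr : Irreducible m := minpoly.irreducible hx
  have hunit : IsUnit r := by
    rcases hirr.isUnit_or_isUnit hr with h' | h'
    · exact absurd h' (Polynomial.not_isUnit_X_sub_C a)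
    · exact h'
  have haev : Polynomial.aeval (x : ℂ) m = 0 := minpoly.aeval ℤ (x : ℂ)
  rw [hr, map_mul] at haev
  have hr0 : Polynomial.aeval (x : ℂ) r ≠ 0 := by
    obtain ⟨u, hu⟩ := Polynomial.isUnit_iff.mp hunit
    rw [← hu.2, Polynomial.aeval_C]
    have hu0 : u ≠ 0 := hu.1.ne_zero
    simpa using hu0
  rcases mul_eq_zero.mp haev with h' | h'
  · have : (x : ℂ) - (a : ℂ) = 0 := by simpa using h'
    exact sub_eq_zero.mp this
  · exact absurd h' hr0

end Fermat.Agent.S58.Asm
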