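/-
S58-PREP assembly, part 2: the comparison of the representation attached to the newform with the
Tate module of the curve (all characteristic polynomials agree), from Frobenius density
(`CharpolyRigid`) and the Frobenius characteristic polynomials of the Tate module (`TFrob`).
-/
import Mathlib
import Fermat.Agent.S58.Interfaces
import Fermat.Agent.S58.AsmDefs
import Fermat.Agent.S58.AsmAux

set_option autoImplicit false

open Polynomial
open CuspForm CuspForm.IsNewform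

namespace Fermat.Agent.S58.Asm

open Fermat.Agent.S58

/-- The value of the eigencharacter at `T_ℓ` (`ℓ ∤ N`), seen in `O''`, is the integer
`a_ℓ(W)`. -/
theorem algebraMap_iota_eq {M : ℕ} [NeZero M] {g : CuspForm (CongruenceSubgroup.Gamma0 M) 2}
    {S : Finset ℕ} (O' : Type) [CommRing O']
    (chig : CuspForm.heckeAlgebra M 2 (↑S : Set ℕ) →+* ℂ)
    (hchig : ∀ (ℓ : ℕ) (hℓ : ℓ.Prime) (hℓM : ¬ ℓ ∣ M) (hℓS : ℓ ∉ (↑S : Set ℕ)),
      chig (CuspForm.heckeAlgebra.T hℓ hℓM hℓS) = ModularFormClass.qCoeff g ℓ)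
    (iota : chig.range →+* O')
    (O'' : Type) [CommRing O''] [Algebra O' O'']
    {ℓ : ℕ} (hℓ : ℓ.Prime) (hℓM : ¬ ℓ ∣ M) (hℓS : ℓ ∉ (↑S : Set ℕ)) (a : ℤ)
    (ha : ModularFormClass.qCoeff g ℓ = (a : ℂ)) :
    algebraMap O' O'' ((iota.comp chig.rangeRestrict) (CuspForm.heckeAlgebra.T hℓ hℓM hℓS)) =
      (a : O'') := by
  have h1 : chig.rangeRestrict (CuspForm.heckeAlgebra.T hℓ hℓM hℓS) = ((a : ℤ) : chig.range) := by
    apply Subtype.ext
    rw [RingHom.coe_rangeRestrict, hchig ℓ hℓ hℓM hℓS, ha]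
    simp
  rw [RingHom.comp_apply, h1, map_intCast, map_intCast]

/-- **The comparison.** A representation over `O''` whose Frobenius characteristic polynomials
outside `S ∪ {lam}` are those prescribed by the eigencharacter of `g` (with `a_ℓ(g) = a_ℓ(W)` for
`ℓ ∤ N`) has the same characteristic polynomials as the Tate module of `W`, everywhere. -/
theorem charpoly_eq_tate (hCR : CharpolyRigid) (hTF : TFrob)
    (W : WeierstrassCurve ℤ) {N : ℕ} (hN0 : N ≠ 0)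
    (hbad : ∀ ℓ : ℕ, ℓ.Prime → (ℓ : ℤ) ∣ W.Δ → ℓ ∣ N)
    {M : ℕ} [NeZero M] (hMN : M ∣ N) {g : CuspForm (CongruenceSubgroup.Gamma0 M) 2}
    (hgW : ∀ ℓ : ℕ, ℓ.Prime → ¬ ℓ ∣ N → ModularFormClass.qCoeff g ℓ = (W.apOfModel ℓ : ℂ))
    (lam : ℕ) [Fact lam.Prime] (D : TateData W lam) (S : Finset ℕ)
    (O' : Type) [CommRing O'] [IsLocalRing O']
    (hlamO' : (lam : O') ∈ IsLocalRing.maximalIdeal O')
    (chig : CuspForm.heckeAlgebra M 2 (↑S : Set ℕ) →+* ℂ)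
    (hchig : ∀ (ℓ : ℕ) (hℓ : ℓ.Prime) (hℓM : ¬ ℓ ∣ M) (hℓS : ℓ ∉ (↑S : Set ℕ)),
      chig (CuspForm.heckeAlgebra.T hℓ hℓM hℓS) = ModularFormClass.qCoeff g ℓ)
    (iota : chig.range →+* O')
    (O'' : Type) [CommRing O''] [IsDomain O''] [IsDiscreteValuationRing O'']
    [IsAdicComplete (IsLocalRing.maximalIdeal O'') O''] [Algebra O' O'']
    [IsLocalHom (algebraMap O' O'')]
    (ρ : GaloisRepAdic O'')
    (hρ : ∀ (ℓ : ℕ) (hℓ : ℓ.Prime) (_hℓlam : ℓ ≠ lam) (hℓM : ¬ ℓ ∣ M) (hℓS : ℓ ∉ (↑S : Set ℕ)),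
      ∀ A : ValuationSubring (AlgebraicClosure ℚ), A.LiesOverPrime ℓ →
        ∀ σ : AlgebraicClosure ℚ ≃ₐ[ℚ] AlgebraicClosure ℚ, A.IsFrobeniusAt σ ℓ →
          LinearMap.charpoly (ρ.ρ σ) =
            X ^ 2 - C (algebraMap O' O'' ((iota.comp chig.rangeRestrict)
              (CuspForm.heckeAlgebra.T hℓ hℓM hℓS))) * X + C ((ℓ : O''))) :
    ∃ φ : ℤ_[lam] →+* O'', IsLocalHom φ ∧
      ∀ σ : GQ, LinearMap.charpoly (ρ.ρ σ) = (LinearMap.charpoly (D.T.ρ σ)).map φ := by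
  have hlamO'' : (lam : O'') ∈ IsLocalRing.maximalIdeal O'' := by
    have h1 : algebraMap O' O'' (lam : O') ∈ IsLocalRing.maximalIdeal O'' := by
      rw [IsLocalRing.mem_maximalIdeal]
      intro hu
      have := (isUnit_map_iff (algebraMap O' O'') (lam : O')).mp hu
      exact (IsLocalRing.mem_maximalIdeal _).mp hlamO' this
    rwa [map_natCast] at h1
  obtain ⟨φ, hφ⟩ := exists_padicInt_hom lam O'' hlamO''
  refine ⟨φ, hφ, ?_⟩
  have key := hCR O'' ρ (D.T.baseChangeAlong φ hφ) (S ∪ N.primeFactors ∪ {lam}) ?_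
  · intro σ
    rw [key σ, charpoly_baseChangeAlong]
  · intro ℓ hℓ hℓS A hA σ hσ
    simp only [Finset.mem_union, Finset.mem_singleton, not_or] at hℓS
    obtain ⟨⟨hℓS, hℓN⟩, hℓlam⟩ := hℓS
    have hℓN' : ¬ ℓ ∣ N := fun h => hℓN (Nat.mem_primeFactors.mpr ⟨hℓ, h, hN0⟩)
    have hℓM : ¬ ℓ ∣ M := fun h => hℓN' (h.trans hMN)
    have hℓS' : ℓ ∉ (↑S : Set ℕ) := by simpa using hℓS
    have hgood : ¬ (ℓ : ℤ) ∣ W.Δ := fun h => hℓN' (hbad ℓ hℓ h)
    rw [hρ ℓ hℓ hℓlam hℓM hℓS' A hA σ hσ, charpoly_baseChangeAlong,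
      hTF W lam D ℓ hℓ hℓlam hgood A hA σ hσ,
      algebraMap_iota_eq O' chig hchig iota O'' hℓ hℓM hℓS' (W.apOfModel ℓ) (hgW ℓ hℓ hℓN')]
    simp [Polynomial.map_sub, Polynomial.map_add, Polynomial.map_mul, Polynomial.map_pow]

end Fermat.Agent.S58.Asm
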