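/-
S58-PREP brick (A): the trivial point count for a Weierstrass curve over a finite field,
`1 ≤ #E(F) ≤ 2 #F + 1`, hence `|a_q(E)| ≤ q`, hence `a_q(E) ≠ ±(q+1)`.
-/
import Mathlib
import Fermat.Prelude.Def_FLTPrelim_Modularity

set_option autoImplicit false

namespace Fermat.Agent.S58.PointCount

open WeierstrassCurve

/-- A monic quadratic has at most two roots in a field (elementary form used below). -/
theorem ncard_quadratic_roots_le {F : Type*} [Field F] (b c : F) :
    {y : F | y ^ 2 + b * y = c}.ncard ≤ 2 := by
  classical
  by_cases hne : {y : F | y ^ 2 + b * y = c}.Nonempty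
  · obtain ⟨y₁, hy₁⟩ := hne
    have hsub : {y : F | y ^ 2 + b * y = c} ⊆ {y₁, -b - y₁} := by
      intro y hy
      simp only [Set.mem_ofPred_eq] at hy hy₁
      simp only [Set.mem_insert_iff, Set.mem_singleton_iff]
      have h : (y - y₁) * (y + y₁ + b) = 0 := by linear_combination hy - hy₁
      rcases mul_eq_zero.mp h with h | h
      · left; linear_combination h
      · right; linear_combination h
    calc {y : F | y ^ 2 + b * y = c}.ncard ≤ ({y₁, -b - y₁} : Set F).ncard :=
          Set.ncard_le_ncard hsub (Set.toFinite _)
      _ ≤ 2 := by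
        refine (Set.ncard_insert_le _ _).trans ?_
        simp
  · rw [Set.not_nonempty_iff_eq_empty] at hne
    rw [hne]; simp

/-- For fixed `x`, at most two `y` satisfy the Weierstrass equation. -/
theorem ncard_equation_fiber_le {F : Type*} [Field F] (W : WeierstrassCurve F) (x : F) :
    {y : F | W.toAffine.Equation x y}.ncard ≤ 2 := by
  have : {y : F | W.toAffine.Equation x y} =
      {y : F | y ^ 2 + (W.a₁ * x + W.a₃) * y = x ^ 3 + W.a₂ * x ^ 2 + W.a₄ * x + W.a₆} := by
    ext y
    simp only [Set.mem_ofPred_eq, WeierstrassCurve.Affine.equation_iff]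
    constructor <;> intro h <;> linear_combination h
  rw [this]
  exact ncard_quadratic_roots_le _ _

/-- The trivial upper bound `#E(F) ≤ 2 #F + 1`. -/
theorem card_le {F : Type*} [Field F] [Finite F] (W : WeierstrassCurve F) :
    W.card ≤ 2 * Nat.card F + 1 := by
  classical
  have := Fintype.ofFinite F
  -- the finite set of affine solutions
  let T : Finset (F × F) := Finset.univ.filter fun p => W.toAffine.Equation p.1 p.2
  have hT : T.card ≤ 2 * Nat.card F := by
    have h1 := Finset.card_le_mul_card_image (f := Prod.fst) T 2 (by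
      intro a _
      have hinj : ((T.filter fun p => p.1 = a).image Prod.snd).card =
          (T.filter fun p => p.1 = a).card := by
        apply Finset.card_image_of_injOn
        intro p hp p' hp' h
        simp only [Finset.coe_filter, Set.mem_ofPred_eq] at hp hp'
        exact Prod.ext (hp.2.trans hp'.2.symm) h
      rw [← hinj]
      have hsub : (((T.filter fun p => p.1 = a).image Prod.snd : Finset F) : Set F) ⊆
          {y : F | W.toAffine.Equation a y} := by
        intro y hy
        simp only [Finset.coe_image, Finset.coe_filter, Set.mem_image, Set.mem_ofPred_eq] at hy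
        obtain ⟨p, ⟨hpT, hpa⟩, rfl⟩ := hy
        have : W.toAffine.Equation p.1 p.2 := by
          simpa [T] using hpT
        simpa [← hpa] using this
      have := Set.ncard_le_ncard hsub (Set.toFinite _)
      rw [Set.ncard_coe_finset] at this
      exact this.trans (ncard_equation_fiber_le W a))
    refine h1.trans (Nat.mul_le_mul_left 2 ?_)
    rw [Nat.card_eq_fintype_card]
    exact Finset.card_le_univ _
  -- inject points into `Option T`
  let φ : W.toAffine.Point → Option T := fun P =>
    match P with
    | .zero => none
    | .some x y h => some ⟨(x, y), by simpa [T] using h.1⟩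
  have hφ : Function.Injective φ := by
    rintro (_ | ⟨x₁, y₁, h₁⟩) (_ | ⟨x₂, y₂, h₂⟩) h <;>
      simp only [φ, Option.some.injEq, Subtype.mk.injEq, Prod.mk.injEq, reduceCtorEq] at h
    · rfl
    · obtain ⟨rfl, rfl⟩ := h; rfl
  have h2 : Nat.card W.toAffine.Point ≤ Nat.card (Option T) := Nat.card_le_card_of_injective φ hφ
  have h3 : Nat.card (Option T) = T.card + 1 := by
    rw [Nat.card_eq_fintype_card, Fintype.card_option, Fintype.card_coe]
  unfold WeierstrassCurve.card
  omega

/-- The trivial lower bound `1 ≤ #E(F)` (the point at infinity). -/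
theorem one_le_card {F : Type*} [CommRing F] [Finite F] (W : WeierstrassCurve F) :
    1 ≤ W.card := by
  unfold WeierstrassCurve.card
  exact Nat.one_le_iff_ne_zero.mpr (Nat.card_ne_zero.mpr ⟨⟨0⟩, inferInstance⟩)

/-- `|a_q(E)| ≤ q` for every prime `q` (trivial point count; no Hasse bound needed). -/
theorem abs_apOfModel_le (W : WeierstrassCurve ℤ) {q : ℕ} (hq : q.Prime) :
    |W.apOfModel q| ≤ q := by
  have : Fact q.Prime := ⟨hq⟩
  have h1 := card_le (W.reductionMod q)
  have h2 := one_le_card (W.reductionMod q)
  have hc : Nat.card (ZMod q) = q := by simp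
  unfold WeierstrassCurve.apOfModel WeierstrassCurve.traceOfFrobenius
  rw [hc] at h1 ⊢
  rw [abs_le]
  constructor <;> omega

/-- `a_q(E) ≠ ±(q+1)` for every prime `q`. -/
theorem apOfModel_ne (W : WeierstrassCurve ℤ) {q : ℕ} (hq : q.Prime) :
    W.apOfModel q ≠ q + 1 ∧ W.apOfModel q ≠ -(q + 1) := by
  have h := abs_le.mp (abs_apOfModel_le W hq)
  constructor <;> intro h' <;> omega

end Fermat.Agent.S58.PointCount
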