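/-
S58-PREP assembly, part 3: the three cases.

* `caseA` : a prime `q ∥ M` with good reduction is impossible (S35 clause 2 + Frobenius on the
  Tate module + the trivial point count);
* `caseC` : a prime `q` with `q² ∥ M` is impossible (S36 + unramified / unipotent inertia);
* `caseD` : `a_q(g) = a_q(W)` for a good prime `q ∣ N`, `q ∤ M` (S35 clause 1 with `q ∉ S`).
-/
import Mathlib
import Fermat.Agent.S58.Interfaces
import Fermat.Agent.S58.AsmDefs
import Fermat.Agent.S58.AsmAux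
import Fermat.Agent.S58.AsmCore
import Fermat.Agent.S58.PointCount
import Fermat.Agent.Lib.FrobeniusExists

set_option autoImplicit false

open Polynomial
open CuspForm CuspForm.IsNewform

namespace Fermat.Agent.S58.Asm

open Fermat.Agent.S58

/-- The standing data of the assembly: the curve, the level `N` of modularity, and the newform `g`
of minimal level `M ∣ N` with the eigensystem of the curve outside `N`. -/
structure Setup (W : WeierstrassCurve ℤ) (N M : ℕ) [NeZero M]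
    (g : CuspForm (CongruenceSubgroup.Gamma0 M) 2) : Prop where
  hN0 : N ≠ 0
  hΔ : W.Δ ≠ 0
  hbad : ∀ ℓ : ℕ, ℓ.Prime → (ℓ : ℤ) ∣ W.Δ → ℓ ∣ N
  hMN : M ∣ N
  hg : g.IsNewform
  hgW : ∀ ℓ : ℕ, ℓ.Prime → ¬ ℓ ∣ N → ModularFormClass.qCoeff g ℓ = (W.apOfModel ℓ : ℂ)

theorem coeff_one_quad_sub {R : Type*} [CommRing R] (c d : R) :
    (X ^ 2 - C c * X + C d : R[X]).coeff 1 = -c := by
  simp [coeff_X_pow, coeff_C]

theorem coeff_one_quad_add {R : Type*} [CommRing R] (c d : R) :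
    (X ^ 2 + C c * X + C d : R[X]).coeff 1 = c := by
  simp [coeff_X_pow, coeff_C]

theorem map_quad {R R' : Type*} [CommRing R] [CommRing R'] (φ : R →+* R') (c d : R) :
    (X ^ 2 - C c * X + C d : R[X]).map φ = X ^ 2 - C (φ c) * X + C (φ d) := by
  simp [Polynomial.map_sub, Polynomial.map_add, Polynomial.map_mul, Polynomial.map_pow]

theorem quad_sub_inj {R : Type*} [CommRing R] {c d c' d' : R}
    (h : (X ^ 2 - C c * X + C d : R[X]) = X ^ 2 - C c' * X + C d') : c = c' := by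
  have h1 := congrArg (fun P : R[X] => P.coeff 1) h
  simp only [coeff_one_quad_sub] at h1
  exact neg_injective h1

theorem quad_sub_add_inj {R : Type*} [CommRing R] {c d c' d' : R}
    (h : (X ^ 2 + C c * X + C d : R[X]) = X ^ 2 - C c' * X + C d') : c = -c' := by
  have h1 := congrArg (fun P : R[X] => P.coeff 1) h
  simp only [coeff_one_quad_sub, coeff_one_quad_add] at h1
  exact h1

/-- A prime bigger than `N`. -/
theorem exists_prime_not_dvd {N : ℕ} (hN0 : N ≠ 0) : ∃ lam : ℕ, lam.Prime ∧ ¬ lam ∣ N := by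
  obtain ⟨lam, hlamN, hlam⟩ := Nat.exists_infinite_primes (N + 1)
  refine ⟨lam, hlam, fun h => ?_⟩
  have := Nat.le_of_dvd (Nat.pos_of_ne_zero hN0) h
  omega

/-- **Case (A).** -/
theorem caseA (h35 : S35Statement) (hTate : TateExists) (hTF : TFrob) (hCR : CharpolyRigid)
    (hChig : ChigExists) (hIota : IotaExists)
    {W : WeierstrassCurve ℤ} {N M : ℕ} [NeZero M]
    {g : CuspForm (CongruenceSubgroup.Gamma0 M) 2} (st : Setup W N M g)
    {q : ℕ} (hq : q.Prime) (hqM : q ∣ M) (hq2 : ¬ q ^ 2 ∣ M) (hgood : ¬ (q : ℤ) ∣ W.Δ) :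
    False := by
  obtain ⟨lam, hlam, hlamN⟩ := exists_prime_not_dvd st.hN0
  have : Fact lam.Prime := ⟨hlam⟩
  have hqN : q ∣ N := hqM.trans st.hMN
  have hqlam : q ≠ lam := fun h => hlamN (h ▸ hqN)
  set S : Finset ℕ := insert lam N.primeFactors with hS
  obtain ⟨chig, hchig, -⟩ := hChig M g st.hg.1 S
  obtain ⟨O', i1, i2, i3, i4, i5, i6, hlamO', ⟨iota⟩⟩ := hIota M S chig lam
  obtain ⟨D⟩ := hTate W st.hΔ lam
  have hlamS : lam ∈ S := by simp [hS]
  have hMS : ∀ q' : ℕ, q'.Prime → q' ∣ M → q' ∈ S := fun q' hq' hq'M => by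
    rw [hS, Finset.mem_insert]
    exact Or.inr (Nat.mem_primeFactors.mpr ⟨hq', hq'M.trans st.hMN, st.hN0⟩)
  obtain ⟨O'', j1, j2, j3, j4, j5, j6, j7, j8, j9, -, ρ, h1, h2⟩ :=
    h35 st.hg lam S O' hlamO' chig hchig iota hlamS hMS
  obtain ⟨φ, -, hcmp⟩ := charpoly_eq_tate hCR hTF W st.hN0 st.hbad st.hMN st.hgW lam D S O'
    hlamO' chig hchig iota O'' ρ (fun ℓ hℓ _ hℓM hℓS => h1 ℓ hℓ hℓM hℓS)
  obtain ⟨A, σ, hA, hσ⟩ := Fermat.Agent.Lib.FrobeniusExists.exists_isFrobeniusAt hq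
  have hc := hcmp σ
  rw [hTF W lam D q hq hqlam hgood A hA σ hσ, map_quad] at hc
  have hne := PointCount.apOfModel_ne W hq
  rcases h2 q hq hqlam hqM hq2 A hA σ hσ with h | h
  · rw [h] at hc
    have h3 := quad_sub_inj hc
    rw [map_intCast] at h3
    have : ((W.apOfModel q : ℤ) : O'') = (((q : ℤ) + 1 : ℤ) : O'') := by
      push_cast
      exact h3.symm
    exact hne.1 (Int.cast_injective this)
  · rw [h] at hc
    have h3 := quad_sub_add_inj hc
    rw [map_intCast] at h3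
    have : ((W.apOfModel q : ℤ) : O'') = ((-((q : ℤ) + 1) : ℤ) : O'') := by
      push_cast
      rw [h3, neg_neg]
    exact hne.2 (Int.cast_injective this)

/-- **Case (C).** -/
theorem caseC (h36 : S36Statement) (hTate : TateExists) (hTF : TFrob) (hTG : TGood)
    (hTM : TMult) (hTR : TRes) (hCR : CharpolyRigid) (hRT : ResidualTransfer)
    (hChig : ChigExists) (hIota : IotaExists)
    {W : WeierstrassCurve ℤ} (hss : W.IsSemistableModel) {N M : ℕ} [NeZero M]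
    {g : CuspForm (CongruenceSubgroup.Gamma0 M) 2} (st : Setup W N M g)
    (p : ℕ) [Fact p.Prime] (hp2 : p ≠ 2) (hirr : W.ModRepIsIrreducible p) (hp2N : ¬ p ^ 2 ∣ N)
    {q : ℕ} (hq : q.Prime) (hfac : M.factorization q = 2) : False := by
  have hM0 : M ≠ 0 := NeZero.ne M
  have hq2M : q ^ 2 ∣ M := (hq.pow_dvd_iff_le_factorization hM0).mpr hfac.ge
  have hqp : q ≠ p := fun h => hp2N (h ▸ hq2M.trans st.hMN)
  set S : Finset ℕ := insert p N.primeFactors with hS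
  obtain ⟨chig, hchig, -⟩ := hChig M g st.hg.1 S
  obtain ⟨O', i1, i2, i3, i4, i5, i6, hlamO', ⟨iota⟩⟩ := hIota M S chig p
  obtain ⟨D⟩ := hTate W st.hΔ p
  have hlamS : p ∈ S := by simp [hS]
  have hMS : ∀ q' : ℕ, q'.Prime → q' ∣ M → q' ∈ S := fun q' hq' hq'M => by
    rw [hS, Finset.mem_insert]
    exact Or.inr (Nat.mem_primeFactors.mpr ⟨hq', hq'M.trans st.hMN, st.hN0⟩)
  obtain ⟨O'', j1, j2, j3, j4, j5, j6, j7, j8, j9, -, ρ, h1, h2⟩ :=
    h36 st.hg p S O' hlamO' hp2 chig hchig iota hlamS hMS (by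
      intro O'' _ _ _ _ _ _ _ _ _ _ ρ hρ
      obtain ⟨φ, hφ, hcmp⟩ := charpoly_eq_tate hCR hTF W st.hN0 st.hbad st.hMN st.hgW p D S O'
        hlamO' chig hchig iota O'' ρ hρ
      exact hRT ℤ_[p] O'' φ hφ D.T ρ hcmp (hTR W p D st.hΔ hp2 hirr))
  apply h2 q hq hqp hfac
  intro P hP τ hτ
  obtain ⟨φ, -, hcmp⟩ := charpoly_eq_tate hCR hTF W st.hN0 st.hbad st.hMN st.hgW p D S O'
    hlamO' chig hchig iota O'' ρ (fun ℓ hℓ _ hℓM hℓS => h1 ℓ hℓ hℓM hℓS)
  rw [hcmp τ]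
  by_cases hd : (q : ℤ) ∣ W.Δ
  · rw [hTM W p D st.hΔ q hq hqp hd (hss q hq hd) P hP τ hτ]
    simp [Polynomial.map_pow, Polynomial.map_sub]
  · rw [charpoly_eq_of_eq_one D.T τ (hTG W p D q hq hqp hd P hP τ hτ)]
    simp [Polynomial.map_pow, Polynomial.map_sub]

/-- **Case (D).** -/
theorem caseD (h35 : S35Statement) (hTate : TateExists) (hTF : TFrob) (hCR : CharpolyRigid)
    (hChig : ChigExists) (hIota : IotaExists)
    {W : WeierstrassCurve ℤ} {N M : ℕ} [NeZero M]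
    {g : CuspForm (CongruenceSubgroup.Gamma0 M) 2} (st : Setup W N M g)
    {q : ℕ} (hq : q.Prime) (hqN : q ∣ N) (hgood : ¬ (q : ℤ) ∣ W.Δ) (hqM : ¬ q ∣ M) :
    ModularFormClass.qCoeff g q = (W.apOfModel q : ℂ) := by
  obtain ⟨lam, hlam, hlamN⟩ := exists_prime_not_dvd st.hN0
  have : Fact lam.Prime := ⟨hlam⟩
  have hqlam : q ≠ lam := fun h => hlamN (h ▸ hqN)
  set S : Finset ℕ := (insert lam N.primeFactors).erase q with hS
  obtain ⟨chig, hchig, hint⟩ := hChig M g st.hg.1 S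
  obtain ⟨O', i1, i2, i3, i4, i5, i6, hlamO', ⟨iota⟩⟩ := hIota M S chig lam
  obtain ⟨D⟩ := hTate W st.hΔ lam
  have hlamS : lam ∈ S := by
    rw [hS, Finset.mem_erase]
    exact ⟨fun h => hqlam h.symm, Finset.mem_insert_self _ _⟩
  have hMS : ∀ q' : ℕ, q'.Prime → q' ∣ M → q' ∈ S := fun q' hq' hq'M => by
    rw [hS, Finset.mem_erase, Finset.mem_insert]
    exact ⟨fun h => hqM (h ▸ hq'M),
      Or.inr (Nat.mem_primeFactors.mpr ⟨hq', hq'M.trans st.hMN, st.hN0⟩)⟩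
  have hqS : q ∉ (↑S : Set ℕ) := by
    rw [hS]
    simp
  obtain ⟨O'', j1, j2, j3, j4, j5, j6, j7, j8, j9, hinj, ρ, h1, -⟩ :=
    h35 st.hg lam S O' hlamO' chig hchig iota hlamS hMS
  obtain ⟨φ, -, hcmp⟩ := charpoly_eq_tate hCR hTF W st.hN0 st.hbad st.hMN st.hgW lam D S O'
    hlamO' chig hchig iota O'' ρ (fun ℓ hℓ _ hℓM hℓS => h1 ℓ hℓ hℓM hℓS)
  obtain ⟨A, σ, hA, hσ⟩ := Fermat.Agent.Lib.FrobeniusExists.exists_isFrobeniusAt hq
  have hc := hcmp σ
  rw [hTF W lam D q hq hqlam hgood A hA σ hσ, map_quad, h1 q hq hqM hqS A hA σ hσ] at hc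
  have hcoef := quad_sub_inj hc
  rw [map_intCast] at hcoef
  set x : chig.range := chig.rangeRestrict (CuspForm.heckeAlgebra.T hq hqM hqS) with hx
  have h3 : algebraMap O' O'' (iota x) = algebraMap O' O'' ((W.apOfModel q : ℤ) : O') := by
    rw [map_intCast]
    exact hcoef
  have h4 : iota x = ((W.apOfModel q : ℤ) : O') := hinj h3
  have h5 : (x : ℂ) = ((W.apOfModel q : ℤ) : ℂ) :=
    eq_intCast_of_map_eq iota x (by
      rw [hx, RingHom.coe_rangeRestrict]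
      exact hint _) _ h4
  rw [← hchig q hq hqM hqS, ← h5, hx, RingHom.coe_rangeRestrict]

end Fermat.Agent.S58.Asm
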