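/-
S58-PREP glue (route #561, steps 0, 1 and the combinatorial endgame of step 6):
* `delta_ne_zero`: the hypotheses of S58 force `W.Δ ≠ 0` and `N ≠ 0`;
* `exists_isNewform_dvd`: below every normalized eigenform there is a Prelude-`IsNewform`
  of a level `M ∣ N` with the same good eigensystem (no Atkin–Lehner theory: minimal level);
* `isModularModelOfLevel_conductorLevel_of_newform`: if the level `M` of a normalized eigenform
  is squarefree with the same primes as `Δ` and its `a_q` agree with `a_q(E)` at all good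
  primes, then `W` is modular of level `conductorLevel`;
* `isModularModelOfLevel_conductorLevel_of_cases`: the case analysis (A)–(D).
-/
import Mathlib
import Fermat.Prelude.Def_CuspForm_Newforms
import Fermat.Prelude.Def_WeierstrassCurve_ConductorLevel

set_option autoImplicit false

namespace Fermat.Agent.S58.NewformGlue

open CuspForm ModularFormClass WeierstrassCurve

/-- Step 0: a cube-free level divisible by all bad primes forces `Δ ≠ 0`. -/
theorem level_ne_zero {N : ℕ} (hN3 : ∀ q : ℕ, q.Prime → ¬ q ^ 3 ∣ N) : N ≠ 0 := by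
  rintro rfl
  exact hN3 2 Nat.prime_two (dvd_zero _)

/-- Step 0: a cube-free level divisible by all bad primes forces `Δ ≠ 0`. -/
theorem delta_ne_zero (W : WeierstrassCurve ℤ) {N : ℕ}
    (hbad : ∀ ℓ : ℕ, ℓ.Prime → (ℓ : ℤ) ∣ W.Δ → ℓ ∣ N)
    (hN3 : ∀ q : ℕ, q.Prime → ¬ q ^ 3 ∣ N) : W.Δ ≠ 0 := by
  intro h0
  have hN : N ≠ 0 := level_ne_zero hN3
  obtain ⟨q, hqN, hq⟩ := Nat.exists_infinite_primes (N + 1)
  have : q ∣ N := hbad q hq (by rw [h0]; exact dvd_zero _)
  have := Nat.le_of_dvd (Nat.pos_of_ne_zero hN) this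
  omega

/-- Step 1 (newform without Atkin–Lehner): a level `M ∣ N`, minimal for divisibility among the
levels carrying the good eigensystem of `f`, carries a Prelude-`IsNewform` with that
eigensystem. -/
theorem exists_isNewform_dvd {N : ℕ} (f : CuspForm (CongruenceSubgroup.Gamma0 N) 2)
    (hf : f.IsNormalizedEigenform) :
    ∃ M : ℕ, M ∣ N ∧ ∃ g : CuspForm (CongruenceSubgroup.Gamma0 M) 2, g.IsNewform ∧
      ∀ ℓ : ℕ, ℓ.Prime → ¬ ℓ ∣ N → qCoeff g ℓ = qCoeff f ℓ := by
  -- the set of admissible levels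
  let T : Set ℕ := {M | M ∣ N ∧ GoodEigensystemOccursAt f M}
  have hT : T.Nonempty := ⟨N, dvd_rfl, GoodEigensystemOccursAt.refl hf⟩
  obtain ⟨M, ⟨hMN, g, hg, hgf⟩, hmin⟩ :=
    WellFounded.has_min (wellFounded_dvdNotUnit (α := ℕ)) T hT
  refine ⟨M, hMN, g, ⟨hg, ?_⟩, hgf⟩
  rintro M' hM'M hne ⟨g', hg', hg'g⟩
  have hM'T : M' ∈ T := by
    refine ⟨hM'M.trans hMN, g', hg', fun ℓ hℓ hℓN => ?_⟩
    rw [hg'g ℓ hℓ (fun h => hℓN (h.trans hMN)), hgf ℓ hℓ hℓN]
  refine hmin M' hM'T ?_
  obtain ⟨x, rfl⟩ := hM'M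
  refine ⟨?_, x, ?_, rfl⟩
  · rintro rfl
    exact hne (by simp)
  · rw [Nat.isUnit_iff]
    rintro rfl
    exact hne (by simp)

/-- A squarefree level with the same primes as `Δ` is the conductor level. -/
theorem eq_conductorLevel (W : WeierstrassCurve ℤ) (hΔ : W.Δ ≠ 0) {M : ℕ}
    (hsq : ∀ q : ℕ, q.Prime → ¬ q ^ 2 ∣ M)
    (hM : ∀ q : ℕ, q.Prime → (q ∣ M ↔ (q : ℤ) ∣ W.Δ)) : M = W.conductorLevel := by
  have hM0 : M ≠ 0 := by
    rintro rfl
    exact hsq 2 Nat.prime_two (dvd_zero _)
  have hMsq : Squarefree M := by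
    rw [Nat.squarefree_iff_prime_squarefree]
    intro q hq hdvd
    exact hsq q hq (by rwa [sq])
  have hcsq : Squarefree W.conductorLevel := W.squarefree_conductorLevel
  refine Nat.dvd_antisymm ?_ ?_
  · -- M ∣ conductorLevel
    rw [← Nat.factorization_le_iff_dvd hM0 W.conductorLevel_pos.ne']
    intro q
    by_cases hq : q.Prime
    · by_cases hqM : q ∣ M
      · have h1 : M.factorization q ≤ 1 := by
          by_contra hcon
          push Not at hcon
          exact hsq q hq ((hq.pow_dvd_iff_le_factorization hM0).mpr hcon)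
        have h2 : q ∣ W.conductorLevel :=
          (W.prime_dvd_conductorLevel_iff hΔ hq).mpr ((hM q hq).mp hqM)
        have h3 : 1 ≤ W.conductorLevel.factorization q :=
          (hq.dvd_iff_one_le_factorization W.conductorLevel_pos.ne').mp h2
        exact h1.trans h3
      · rw [Nat.factorization_eq_zero_of_not_dvd hqM]; exact Nat.zero_le _
    · rw [Nat.factorization_eq_zero_of_not_prime _ hq]; exact Nat.zero_le _
  · -- conductorLevel ∣ M
    rw [← Nat.factorization_le_iff_dvd W.conductorLevel_pos.ne' hM0]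
    intro q
    by_cases hq : q.Prime
    · by_cases hqc : q ∣ W.conductorLevel
      · have h1 : W.conductorLevel.factorization q ≤ 1 := by
          by_contra hcon
          push Not at hcon
          have : q ^ 2 ∣ W.conductorLevel :=
            (hq.pow_dvd_iff_le_factorization W.conductorLevel_pos.ne').mpr hcon
          rw [sq] at this
          exact hq.not_isUnit (hcsq q this)
        have h2 : q ∣ M := (hM q hq).mpr ((W.prime_dvd_conductorLevel_iff hΔ hq).mp hqc)
        have h3 : 1 ≤ M.factorization q := (hq.dvd_iff_one_le_factorization hM0).mp h2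
        exact h1.trans h3
      · rw [Nat.factorization_eq_zero_of_not_dvd hqc]; exact Nat.zero_le _
    · rw [Nat.factorization_eq_zero_of_not_prime _ hq]; exact Nat.zero_le _

/-- The endgame: a normalized eigenform of squarefree level with the primes of `Δ` whose
coefficients agree with `a_q(E)` at all good primes is a witness at level `conductorLevel`. -/
theorem isModularModelOfLevel_conductorLevel_of_newform (W : WeierstrassCurve ℤ)
    (hΔ : W.Δ ≠ 0) {M : ℕ} (g : CuspForm (CongruenceSubgroup.Gamma0 M) 2)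
    (hg : g.IsNormalizedEigenform)
    (hsq : ∀ q : ℕ, q.Prime → ¬ q ^ 2 ∣ M)
    (hM : ∀ q : ℕ, q.Prime → (q ∣ M ↔ (q : ℤ) ∣ W.Δ))
    (hag : ∀ q : ℕ, q.Prime → ¬ (q : ℤ) ∣ W.Δ → qCoeff g q = (W.apOfModel q : ℂ)) :
    W.IsModularModelOfLevel W.conductorLevel := by
  have hMc : M = W.conductorLevel := eq_conductorLevel W hΔ hsq hM
  subst hMc
  exact ⟨g, hg, fun p hp hgood _ => hag p hp hgood⟩

/-- The case analysis of route #561 step 6, in abstract form: for a level `M ∣ N`
(`N` cube-free and divisible by the bad primes) carrying a normalized eigenform `g`,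
if the cases (A) `q ∥ M`, `q ∤ Δ`; (B) `q ∤ M`, `q ∣ Δ`; (C) `q² ∣ M` are impossible and
(D) `q ∤ M`, `q ∤ Δ` gives `a_q(g) = a_q(E)`, then `W` is modular of level `conductorLevel`. -/
theorem isModularModelOfLevel_conductorLevel_of_cases (W : WeierstrassCurve ℤ)
    (hΔ : W.Δ ≠ 0) {M : ℕ} (g : CuspForm (CongruenceSubgroup.Gamma0 M) 2)
    (hg : g.IsNormalizedEigenform)
    (hA : ∀ q : ℕ, q.Prime → q ∣ M → ¬ q ^ 2 ∣ M → ¬ (q : ℤ) ∣ W.Δ → False)
    (hB : ∀ q : ℕ, q.Prime → ¬ q ∣ M → (q : ℤ) ∣ W.Δ → False)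
    (hC : ∀ q : ℕ, q.Prime → q ^ 2 ∣ M → False)
    (hD : ∀ q : ℕ, q.Prime → ¬ q ∣ M → ¬ (q : ℤ) ∣ W.Δ →
      qCoeff g q = (W.apOfModel q : ℂ)) :
    W.IsModularModelOfLevel W.conductorLevel := by
  refine isModularModelOfLevel_conductorLevel_of_newform W hΔ g hg (fun q hq => hC q hq)
    (fun q hq => ⟨fun hqM => ?_, fun hqΔ => ?_⟩) (fun q hq hqΔ => ?_)
  · by_contra hqΔ
    exact hA q hq hqM (fun h => hC q hq h) hqΔ
  · by_contra hqM
    exact hB q hq hqM hqΔ
  · refine hD q hq (fun hqM => ?_) hqΔ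
    exact hA q hq hqM (fun h => hC q hq h) hqΔ

end Fermat.Agent.S58.NewformGlue
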