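/-
S58-PREP assembly, part 4 (final): `s58_of` — the frozen statement S58 from the frozen statements
S35 and S36 and the bricks of `S58/Interfaces.lean`.
-/
import Mathlib
import Fermat.Agent.S58.Interfaces
import Fermat.Agent.S58.AsmDefs
import Fermat.Agent.S58.AsmCases
import Fermat.Agent.S58.NewformGlue

set_option autoImplicit false

open Polynomial
open CuspForm CuspForm.IsNewform

namespace Fermat.Agent.S58.Asm

open Fermat.Agent.S58

/-- Iterated `q`-stabilisation: a normalized eigenform of level `M ∣ C`, `C` squarefree, gives a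
normalized eigenform of level `C` with the same coefficients at the primes not dividing `C`. -/
theorem level_raise (hStab : Stabilize) :
    ∀ (k : ℕ) (C M : ℕ) [NeZero M] (g : CuspForm (CongruenceSubgroup.Gamma0 M) 2),
      g.IsNormalizedEigenform → M ∣ C → Squarefree C → C / M ≤ k →
      ∃ g' : CuspForm (CongruenceSubgroup.Gamma0 C) 2, g'.IsNormalizedEigenform ∧
        ∀ ℓ : ℕ, ℓ.Prime → ¬ ℓ ∣ C →
          ModularFormClass.qCoeff g' ℓ = ModularFormClass.qCoeff g ℓ := by
  intro k
  induction k with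
  | zero =>
    intro C M _ g hg hMC hC hk
    have hC0 : C ≠ 0 := hC.ne_zero
    have hM0 : M ≠ 0 := NeZero.ne M
    have hpos : 0 < C / M := Nat.div_pos (Nat.le_of_dvd (Nat.pos_of_ne_zero hC0) hMC)
      (Nat.pos_of_ne_zero hM0)
    omega
  | succ k ih =>
    intro C M _ g hg hMC hC hk
    have hC0 : C ≠ 0 := hC.ne_zero
    have hM0 : M ≠ 0 := NeZero.ne M
    by_cases hCM : C / M = 1
    · have hCeq : M = C := by
        have := Nat.div_mul_cancel hMC
        rw [hCM, one_mul] at this
        exact this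
      subst hCeq
      exact ⟨g, hg, fun _ _ _ => rfl⟩
    · obtain ⟨q, hq, hqd⟩ := Nat.exists_prime_and_dvd hCM
      obtain ⟨c, hc⟩ := hqd
      have hCMq : C = M * q * c := by
        have := Nat.div_mul_cancel hMC
        rw [hc] at this
        rw [← this]
        ring
      have hqM : ¬ q ∣ M := by
        rintro ⟨m, rfl⟩
        have h2 : q * q ∣ C := ⟨m * c, by rw [hCMq]; ring⟩
        exact hq.not_isUnit (hC q h2)
      obtain ⟨g₁, hg₁, hg₁g⟩ := hStab M g hg q hq hqM
      have : NeZero (M * q) := ⟨mul_ne_zero hM0 hq.ne_zero⟩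
      have hMqC : M * q ∣ C := ⟨c, hCMq⟩
      have hk' : C / (M * q) ≤ k := by
        have h1 : C / (M * q) = c := by
          rw [hCMq]
          exact Nat.mul_div_cancel_left c (Nat.pos_of_ne_zero (mul_ne_zero hM0 hq.ne_zero))
        have h2 : C / M = q * c := hc
        have hc0 : 0 < c := by
          rcases Nat.eq_zero_or_pos c with h | h
          · rw [h, mul_zero] at hCMq
            exact absurd hCMq hC0
          · exact h
        have h3 : c < q * c := by
          have := hq.two_le
          nlinarith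
        omega
      obtain ⟨g', hg', hg'g⟩ := ih C (M * q) g₁ hg₁ hMqC hC hk'
      refine ⟨g', hg', fun ℓ hℓ hℓC => ?_⟩
      rw [hg'g ℓ hℓ hℓC]
      exact hg₁g ℓ hℓ (fun h => hℓC (h ▸ (Dvd.intro_left M rfl).trans hMqC))

/-- **S58 from S35, S36 and the S58-PREP bricks.** -/
theorem s58_of (h35 : S35Statement) (h36 : S36Statement)
    (hTate : TateExists) (hTF : TFrob) (hTG : TGood) (hTM : TMult) (hTR : TRes)
    (hCR : CharpolyRigid) (hRT : ResidualTransfer)
    (hNew : NewformExtract) (hChig : ChigExists) (hIota : IotaExists) (hStab : Stabilize) :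
    S58Statement := by
  intro W hss N p _ hp2 hirr hp2N hN hbad hN3
  have hN0 : N ≠ 0 := NewformGlue.level_ne_zero hN3
  have hΔ : W.Δ ≠ 0 := NewformGlue.delta_ne_zero W hbad hN3
  have : NeZero N := ⟨hN0⟩
  obtain ⟨f, hf, hfW⟩ := hN
  obtain ⟨M, hMne, g, hMN, hg, hgf⟩ := hNew N f hf
  have hM0 : M ≠ 0 := NeZero.ne M
  have st : Setup W N M g :=
    { hN0 := hN0
      hΔ := hΔ
      hbad := hbad
      hMN := hMN
      hg := hg
      hgW := fun ℓ hℓ hℓN => by
        rw [hgf ℓ hℓ hℓN]
        exact hfW ℓ hℓ (fun h => hℓN (hbad ℓ hℓ h)) hℓN }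
  -- cases (A) and (C): every prime of `M` is bad and divides `M` exactly once
  have hprimes : ∀ q : ℕ, q.Prime → q ∣ M → (q : ℤ) ∣ W.Δ ∧ ¬ q ^ 2 ∣ M := by
    intro q hq hqM
    have h2 : ¬ q ^ 2 ∣ M := by
      intro h
      have h3 : ¬ q ^ 3 ∣ M := fun h' => hN3 q hq (h'.trans hMN)
      have hfac : M.factorization q = 2 := by
        have a := (hq.pow_dvd_iff_le_factorization hM0).mp h
        have b : ¬ 3 ≤ M.factorization q := fun hh =>
          h3 ((hq.pow_dvd_iff_le_factorization hM0).mpr hh)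
        omega
      exact caseC h36 hTate hTF hTG hTM hTR hCR hRT hChig hIota hss st p hp2 hirr hp2N hq hfac
    refine ⟨?_, h2⟩
    by_contra hgood
    exact caseA h35 hTate hTF hCR hChig hIota st hq hqM h2 hgood
  have hsq : Squarefree M := by
    rw [Nat.squarefree_iff_prime_squarefree]
    intro q hq h
    exact (hprimes q hq (dvd_of_mul_left_dvd h)).2 (by rwa [sq])
  have hMC : M ∣ W.conductorLevel := by
    rw [← Nat.prod_primeFactors_of_squarefree hsq]
    apply Finset.prod_primes_dvd
    · intro a ha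
      exact (Nat.prime_of_mem_primeFactors ha).prime
    · intro a ha
      have hap := Nat.prime_of_mem_primeFactors ha
      exact (W.prime_dvd_conductorLevel_iff hΔ hap).mpr
        (hprimes a hap (Nat.dvd_of_mem_primeFactors ha)).1
  obtain ⟨g', hg', hg'g⟩ := level_raise hStab (W.conductorLevel / M) W.conductorLevel M g hg.1
    hMC W.squarefree_conductorLevel le_rfl
  refine ⟨g', hg', fun ℓ hℓ hgood hℓC => ?_⟩
  rw [hg'g ℓ hℓ hℓC]
  by_cases hℓN : ℓ ∣ N
  · exact caseD h35 hTate hTF hCR hChig hIota st hℓ hℓN hgood (fun h => hℓC (h.trans hMC))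
  · exact st.hgW ℓ hℓ hℓN

end Fermat.Agent.S58.Asm
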