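/-
S58-PREP (architect helper58): interface of the crux (FT) = "Frobenius on an elliptic curve over
`𝔽_ℓ` satisfies `φ² - a φ + ℓ = 0` with `a = ℓ + 1 - #E(𝔽_ℓ)`, and `#ker (φ - m) ≤ 2 deg (φ - m)`".

* `frobPt` : the Frobenius endomorphism of the points over an extension field;
* `QuadBar`, `KerBoundBar` : the two statements over an algebraically closed field;
* `DegData` : the abstract "degree" package produced by the function-field layer and consumed
  by the quadratic-form algebra.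
-/
import Mathlib
import Fermat.Prelude.Def_FLTPrelim_Modularity

set_option autoImplicit false

namespace Fermat.Agent.S58

open WeierstrassCurve
open scoped WeierstrassCurve.Affine

section Frob

variable (ℓ : ℕ) [Fact ℓ.Prime] (W : WeierstrassCurve (ZMod ℓ))
  (K : Type*) [Field K] [Algebra (ZMod ℓ) K] [DecidableEq K]

/-- The Frobenius endomorphism `(x, y) ↦ (x ^ ℓ, y ^ ℓ)` of the points over `K ⊇ 𝔽_ℓ`. -/
noncomputable def frobPt : (W.toAffine⁄K).Point →+ (W.toAffine⁄K).Point :=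
  Affine.Point.map (W' := W.toAffine) (FiniteField.frobeniusAlgHom (ZMod ℓ) K)

/-- **(QR-bar)** `φ² - a φ + ℓ = 0` on the points over `K`. -/
def QuadBar : Prop :=
  ∀ R : (W.toAffine⁄K).Point,
    frobPt ℓ W K (frobPt ℓ W K R) - W.traceOfFrobenius • frobPt ℓ W K R + (ℓ : ℤ) • R = 0

/-- **(KB-bar)** `#ker (φ - m) ≤ 2 (m² - a m + ℓ)` for every integer `m`. -/
def KerBoundBar : Prop :=
  ∀ m : ℤ, {R : (W.toAffine⁄K).Point | frobPt ℓ W K R = m • R}.Finite ∧
    (({R : (W.toAffine⁄K).Point | frobPt ℓ W K R = m • R}.ncard : ℤ) ≤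
      2 * (m ^ 2 - W.traceOfFrobenius * m + ℓ))

end Frob

/-- The abstract degree package: a group `G` (the anti-invariant points of `E` over its function
field), a "generic point" `P0`, a "Frobenius" `φ` and a degree `d` satisfying the parallelogram
law, `d (φ A) = ℓ d A` and multiplicativity for `φ + 1` applied to the point `(φ + 1) P0`. -/
structure DegData (ℓ : ℕ) : Type 1 where
  G : Type
  [instG : AddCommGroup G]
  d : G → ℤ
  P0 : G
  φ : G →+ G
  d_nonneg : ∀ A, 0 ≤ d A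
  d_zero : d 0 = 0
  par : ∀ A B, d (A + B) + d (A - B) = 2 * d A + 2 * d B
  d_P0 : d P0 = 1
  d_φ : ∀ A, d (φ A) = ℓ * d A
  d_comp : d (φ (φ P0 + P0) + (φ P0 + P0)) = d (φ P0 + P0) ^ 2

attribute [instance] DegData.instG

/-- The "trace" of an abstract degree package. -/
def DegData.tr {ℓ : ℕ} (D : DegData ℓ) : ℤ := D.d (D.φ D.P0 + D.P0) - ℓ - 1

/-- **(FT-ALG)** the quadratic-form algebra: in a degree package, `d (φ² - tr φ + ℓ) P0 = 0`,
`d (φ - m) P0 = m² - tr m + ℓ`, and `tr² ≤ 4 ℓ`. -/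
def DegAlgebra : Prop :=
  ∀ (ℓ : ℕ) (D : DegData ℓ),
    D.d (D.φ (D.φ D.P0) - D.tr • D.φ D.P0 + (ℓ : ℤ) • D.P0) = 0 ∧
    (∀ m : ℤ, D.d (D.φ D.P0 - m • D.P0) = m ^ 2 - D.tr * m + ℓ) ∧
    D.tr ^ 2 ≤ 4 * ℓ

end Fermat.Agent.S58
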