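/-
S58-PREP: the elliptic-curve bricks `FrobQuad`, `FrobNotScalar` (hence `TFrob`, `TGood`) as
unconditional theorems: row 374 (`Red/Inst.lean`, helper61) fed with row 373
(`FT/QuadCount.lean`: `quadBar`, `kerBoundBar`), then row 377's `TLevelFrob.lean` (helper72).
-/
import Fermat.Agent.S58.FT.QuadCount
import Fermat.Agent.S58.Red.Inst
import Fermat.Agent.S58.TLevelFrob

set_option autoImplicit false

namespace Fermat.Agent.S58.FrobFinal

/-- **(FT)** `σ² - a_ℓ σ + ℓ = 0` on the prime-to-`ℓ` torsion, for every Frobenius lift `σ` at a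
good prime `ℓ` (all `ℓ`, including `2` and `3`). -/
theorem frobQuad : FrobQuad :=
  Red.frobQuad_of (fun ℓ _ W K _ _ _ _ hΔ => QuadCount.quadBar ℓ W K hΔ)

/-- **(NS)** a Frobenius lift at a good prime is not a scalar on `E[lam ^ n]` for `n` large. -/
theorem frobNotScalar : FrobNotScalar :=
  Red.frobNotScalar_of (fun ℓ _ W K _ _ _ _ hΔ => QuadCount.kerBoundBar ℓ W K hΔ)

/-- **(GU)** (re-export of `Red.goodUnram`). -/
theorem goodUnram : GoodUnram := Red.goodUnram

/-- **(T-FROB)** the characteristic polynomial of Frobenius on the Tate module. -/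
theorem tFrob : TFrob := TLevelFrob.tFrob frobQuad frobNotScalar

/-- **(T-GOOD)** the Tate module is unramified at good primes. -/
theorem tGood : TGood := TLevelFrob.tGood goodUnram

end Fermat.Agent.S58.FrobFinal
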