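/-
S58-PREP row 379 (MOD), brick (IOTA): `iotaExists : IotaExists` — the image of a character of a
Hecke algebra (a finite `ℤ`-module by S22) embeds in a finite extension of `ℤ_[lam]`.
-/
import Fermat.Agent.S58.Interfaces
import Fermat.Agent.ESJ.Rep.LiftChar
import Fermat.Agent.S22

set_option autoImplicit false

namespace Fermat.Agent.S58.Mod

open Fermat.Agent.S58 Fermat.Agent.ESJ.Rep

/-- The range of a character of a Hecke algebra is a finite `ℤ`-module. -/
theorem finite_range_chig {M : ℕ} [NeZero M] (S : Set ℕ)
    (chig : CuspForm.heckeAlgebra M 2 S →+* ℂ) : Module.Finite ℤ chig.range := by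
  have : Module.Finite ℤ (CuspForm.heckeAlgebra M 2 S) := Fermat.Agent.S22.result M 2 S
  exact Module.Finite.of_surjective chig.rangeRestrict.toIntAlgHom.toLinearMap
    chig.rangeRestrict_surjective

/-- A ring homomorphism from the range of a character of a Hecke algebra to a finite extension
`O'` of `ℤ_[lam]` (complete discrete valuation ring of characteristic zero with finite residue
field), together with the structure map `ℤ_[lam] → O'`. -/
theorem exists_iota_padic {M : ℕ} [NeZero M] (S : Set ℕ)
    (chig : CuspForm.heckeAlgebra M 2 S →+* ℂ) (lam : ℕ) [Fact lam.Prime] :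
    ∃ (O' : Type) (_ : CommRing O') (_ : IsDomain O') (_ : IsDiscreteValuationRing O')
      (_ : IsAdicComplete (IsLocalRing.maximalIdeal O') O')
      (_ : Finite (IsLocalRing.ResidueField O')) (_ : CharZero O')
      (_ : Algebra ℤ_[lam] O') (_ : Module.Finite ℤ_[lam] O')
      (_ : IsLocalHom (algebraMap ℤ_[lam] O')),
      Function.Injective (algebraMap ℤ_[lam] O') ∧
      (lam : O') ∈ IsLocalRing.maximalIdeal O' ∧ Nonempty (chig.range →+* O') := by
  have hfin : Module.Finite ℤ chig.range := finite_range_chig S chig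
  have hinj : Function.Injective (Int.castRingHom chig.range) := by
    intro a b hab
    have h := congrArg (fun x : chig.range => (x : ℂ)) hab
    simp only [eq_intCast, SubringClass.coe_intCast] at h
    exact_mod_cast h
  obtain ⟨O', i1, i2, i3, i4, i5, i6, i7, i8, i9, hinj', χ', -⟩ :=
    exists_extension_of_ringHom (A := ℤ) (B := chig.range)
      (Int.castRingHom chig.range) hinj ℤ_[lam] (Int.castRingHom ℤ_[lam])
  refine ⟨O', i1, i2, i3, i4, i5, i6, i7, i8, i9, hinj', ?_, ⟨χ'⟩⟩
  have hlam : (lam : ℤ_[lam]) ∈ IsLocalRing.maximalIdeal ℤ_[lam] := by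
    rw [PadicInt.maximalIdeal_eq_span_p]
    exact Ideal.subset_span rfl
  have h1 : algebraMap ℤ_[lam] O' (lam : ℤ_[lam]) ∈ IsLocalRing.maximalIdeal O' := by
    rw [IsLocalRing.mem_maximalIdeal, mem_nonunits_iff]
    intro hu
    have := (isUnit_map_iff (algebraMap ℤ_[lam] O') (lam : ℤ_[lam])).mp hu
    exact hlam this
  rwa [map_natCast] at h1

/-- **(IOTA)** the image of a character of a Hecke algebra embeds in a complete discrete
valuation ring of residue characteristic `lam`. -/
theorem iotaExists : IotaExists := by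
  intro M _ S chig lam _
  obtain ⟨O', i1, i2, i3, i4, i5, i6, -, -, -, -, hlam, hι⟩ :=
    exists_iota_padic (↑S : Set ℕ) chig lam
  exact ⟨O', i1, i2, i3, i4, i5, i6, hlam, hι⟩

end Fermat.Agent.S58.Mod
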