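/-
S58-PREP row 379 (MOD), brick (NEW): `newformExtract : NewformExtract`.
-/
import Fermat.Agent.S58.Interfaces
import Fermat.Agent.S58.NewformGlue

set_option autoImplicit false

namespace Fermat.Agent.S58.Mod

open Fermat.Agent.S58

/-- **(NEW)** the minimal level of an eigensystem carries a Prelude newform. -/
theorem newformExtract : NewformExtract := by
  intro N _ f hf
  obtain ⟨M, hMN, g, hg, hgf⟩ := NewformGlue.exists_isNewform_dvd f hf
  have hM : NeZero M := ⟨fun h => NeZero.ne N (by rw [h] at hMN; exact zero_dvd_iff.mp hMN)⟩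
  exact ⟨M, hM, g, hMN, hg, hgf⟩

end Fermat.Agent.S58.Mod
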