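/-
S58-PREP row 379 (MOD), brick (STAB): `stabilize : Stabilize` — the `q`-stabilisation of a
normalized eigenform `g` of level `M` at a prime `q ∤ M`:

  `g' := α⁻¹ • (U_q g₀ - β • g₀)`,  `g₀` = `g` seen at level `M q`,  `α + β = a_q(g)`, `α β = q`,

a normalized eigenform of level `M q` with `a_n(g') = α^r a_m(g)` for `n = q^r m`, `q ∤ m`; in
particular `a_ℓ(g') = a_ℓ(g)` for every prime `ℓ ≠ q`.
-/
import Fermat.Agent.S58.Interfaces
import Fermat.Agent.S49.Forms

set_option autoImplicit false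

namespace Fermat.Agent.S58.Mod

open Fermat.Agent.S58 CongruenceSubgroup ModularFormClass UpperHalfPlane
open scoped MatrixGroups

/-- Restriction of a cusp form to a smaller subgroup (same underlying function). -/
noncomputable def restrictCusp {Γ Γ' : Subgroup (GL (Fin 2) ℝ)} {k : ℤ} (h : Γ' ≤ Γ)
    (f : CuspForm Γ k) : CuspForm Γ' k where
  toFun := f
  slash_action_eq' γ hγ := SlashInvariantFormClass.slash_action_eq f γ (h hγ)
  holo' := CuspFormClass.holo f
  zero_at_cusps' hc := CuspFormClass.zero_at_cusps f (hc.mono h)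

@[simp] theorem coe_restrictCusp {Γ Γ' : Subgroup (GL (Fin 2) ℝ)} {k : ℤ} (h : Γ' ≤ Γ)
    (f : CuspForm Γ k) : (⇑(restrictCusp h f) : ℍ → ℂ) = ⇑f := rfl

/-- `Γ₀(M q) ≤ Γ₀(M)`. -/
theorem Gamma0_mul_le (M q : ℕ) : Gamma0 (M * q) ≤ Gamma0 M := by
  intro γ hγ
  rw [Gamma0_mem] at hγ ⊢
  rw [ZMod.intCast_zmod_eq_zero_iff_dvd] at hγ ⊢
  exact (Int.natCast_dvd_natCast.mpr (dvd_mul_right M q)).trans hγ

/-- The level-raising inclusion `S₂(Γ₀(M)) → S₂(Γ₀(M q))`. -/
noncomputable def raiseLevel (M q : ℕ) {k : ℤ} (f : CuspForm (Gamma0 M) k) :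
    CuspForm (Gamma0 (M * q)) k :=
  restrictCusp (Subgroup.map_mono (Gamma0_mul_le M q)) f

@[simp] theorem coe_raiseLevel (M q : ℕ) {k : ℤ} (f : CuspForm (Gamma0 M) k) :
    (⇑(raiseLevel M q f) : ℍ → ℂ) = ⇑f := rfl

/-- **(STAB)** `q`-stabilisation: a normalized eigenform of level `M` and a prime `q ∤ M` give a
normalized eigenform of level `M * q` with the same coefficients at all primes `≠ q`. -/
theorem stabilize : Stabilize := by
  intro M _ g hg q hq hqM
  classical
  set a : ℕ → ℂ := fun n => qCoeff (⇑g) n with ha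
  have ha1 : a 1 = 1 := hg.qCoeff_one
  have ha0 : a 0 = 0 := Fermat.Agent.S49.qCoeff_zero_eq g
  -- the roots `α`, `β` of `X² - a_q X + q`
  obtain ⟨s, hs⟩ := IsAlgClosed.exists_eq_mul_self (a q ^ 2 - 4 * (q : ℂ))
  set β : ℂ := (a q + s) / 2 with hβ
  set α : ℂ := a q - β with hα
  have hsum : α + β = a q := by rw [hα]; ring
  have hprod : α * β = q := by
    rw [hα, hβ]
    have : (a q - (a q + s) / 2) * ((a q + s) / 2) = (a q ^ 2 - s * s) / 4 := by ring
    rw [this, ← hs]; ring
  have hq0 : (q : ℂ) ≠ 0 := Nat.cast_ne_zero.mpr hq.ne_zero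
  have hα0 : α ≠ 0 := by
    intro h0
    rw [h0, zero_mul] at hprod
    exact hq0 hprod.symm
  have : NeZero (M * q) := ⟨Nat.mul_ne_zero (NeZero.ne M) hq.ne_zero⟩
  have hqMq : q ∣ M * q := Dvd.intro_left M rfl
  set g₀ : CuspForm (Gamma0 (M * q)) 2 := raiseLevel M q g with hg₀
  set g' : CuspForm (Gamma0 (M * q)) 2 :=
    α⁻¹ • (CuspForm.heckeULin 2 hqMq g₀ - β • g₀) with hg'
  -- the coefficients of `g'`
  have hb : ∀ n : ℕ, qCoeff (⇑g') n = α⁻¹ * (a (n * q) - β * a n) := by
    intro n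
    have h1 := Fermat.Agent.S49.qLin_apply (N := M * q) (k := 2) n g'
    rw [← h1, hg', map_smul, map_sub, map_smul, Fermat.Agent.S49.qLin_apply,
      Fermat.Agent.S49.qLin_apply, Fermat.Agent.S49.qCoeff_heckeU hq hqMq g₀ n]
    simp only [smul_eq_mul, hg₀, coe_raiseLevel, ha]
  -- `a_{q^{r+1}} - β a_{q^r} = α^{r+1}`
  have hc : ∀ r : ℕ, a (q ^ (r + 1)) - β * a (q ^ r) = α ^ (r + 1) := by
    intro r
    induction r with
    | zero =>
      simp only [zero_add, pow_one, pow_zero, ha1, mul_one]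
      rw [← hsum]; ring
    | succ r ih =>
      have h2 := hg.qCoeff_prime_pow_of_not_dvd q r hq hqM
      have h2' : a (q ^ (r + 2)) = a q * a (q ^ (r + 1)) - q * a (q ^ r) := h2
      rw [show r + 1 + 1 = r + 2 from rfl, h2', pow_succ α (r + 1), ← ih, ← hsum, ← hprod]
      ring
  -- closed form
  have hform : ∀ (r m : ℕ), ¬ q ∣ m → qCoeff (⇑g') (q ^ r * m) = α ^ r * a m := by
    intro r m hm
    have hcop : ∀ j : ℕ, (q ^ j).Coprime m := fun j =>
      Nat.Coprime.pow_left j ((Nat.Prime.coprime_iff_not_dvd hq).2 hm)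
    rw [hb]
    have e1 : q ^ r * m * q = q ^ (r + 1) * m := by ring
    have h3 : a (q ^ (r + 1) * m) = a (q ^ (r + 1)) * a m :=
      hg.qCoeff_mul_of_coprime _ _ (hcop (r + 1))
    have h4 : a (q ^ r * m) = a (q ^ r) * a m := hg.qCoeff_mul_of_coprime _ _ (hcop r)
    rw [e1, h3, h4]
    have := hc r
    have e2 : a (q ^ (r + 1)) * a m - β * (a (q ^ r) * a m) =
        (a (q ^ (r + 1)) - β * a (q ^ r)) * a m := by ring
    rw [e2, this, pow_succ]
    field_simp
  have hb0 : qCoeff (⇑g') 0 = 0 := by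
    rw [hb]; simp [ha0]
  have hqpow : ∀ j : ℕ, qCoeff (⇑g') (q ^ j) = α ^ j := by
    intro j
    have := hform j 1 (fun h => hq.one_lt.ne' (Nat.dvd_one.mp h))
    rwa [mul_one, ha1, mul_one] at this
  have hother : ∀ n : ℕ, ¬ q ∣ n → qCoeff (⇑g') n = a n := by
    intro n hn
    have := hform 0 n hn
    simpa using this
  have hppow : ∀ (p : ℕ), p.Prime → p ≠ q → ∀ j : ℕ, qCoeff (⇑g') (p ^ j) = a (p ^ j) := by
    intro p hp hpq j
    apply hother
    intro h
    exact hpq ((Nat.prime_dvd_prime_iff_eq hq hp).mp (hq.dvd_of_dvd_pow h)).symm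
  refine ⟨g', ⟨?_, ?_, ?_, ?_⟩, ?_⟩
  · -- a'_1 = 1
    have := hqpow 0
    simpa using this
  · -- multiplicativity
    intro m n hmn
    rcases Nat.eq_zero_or_pos m with rfl | hm
    · have hn1 : n = 1 := by simpa using hmn
      subst hn1
      simp [hb0]
    rcases Nat.eq_zero_or_pos n with rfl | hn
    · have hm1 : m = 1 := by simpa using hmn
      subst hm1
      simp [hb0]
    obtain ⟨r, m', hm', rfl⟩ : ∃ r m', ¬ q ∣ m' ∧ m = q ^ r * m' :=
      Nat.exists_eq_pow_mul_and_not_dvd hm.ne' q hq.ne_one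
    obtain ⟨s', n', hn', rfl⟩ : ∃ s' n', ¬ q ∣ n' ∧ n = q ^ s' * n' :=
      Nat.exists_eq_pow_mul_and_not_dvd hn.ne' q hq.ne_one
    have hcop' : m'.Coprime n' :=
      Nat.Coprime.coprime_dvd_left (Dvd.intro_left _ rfl)
        (Nat.Coprime.coprime_dvd_right (Dvd.intro_left _ rfl) hmn)
    have hmn' : ¬ q ∣ m' * n' := by
      intro h
      rcases (Nat.Prime.dvd_mul hq).mp h with h | h
      · exact hm' h
      · exact hn' h
    have e : q ^ r * m' * (q ^ s' * n') = q ^ (r + s') * (m' * n') := by ring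
    rw [e, hform _ _ hmn', hform _ _ hm', hform _ _ hn']
    have : a (m' * n') = a m' * a n' := hg.qCoeff_mul_of_coprime _ _ hcop'
    rw [this, pow_add]
    ring
  · -- primes not dividing the level
    intro p r hp hpMq
    have hpq : p ≠ q := fun h => hpMq (h ▸ hqMq)
    have hpM : ¬ p ∣ M := fun h => hpMq (Dvd.dvd.mul_right h q)
    rw [hppow p hp hpq, hppow p hp hpq, hppow p hp hpq]
    have h1 : qCoeff (⇑g') p = a p := by
      have := hppow p hp hpq 1
      rwa [pow_one] at this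
    rw [h1]
    exact hg.qCoeff_prime_pow_of_not_dvd p r hp hpM
  · -- primes dividing the level
    intro p r hp hpMq
    by_cases hpq : p = q
    · subst hpq
      rw [hqpow, hqpow]
      have h1 : qCoeff (⇑g') p = α := by
        have := hqpow 1
        rwa [pow_one, pow_one] at this
      rw [h1]
      ring
    · have hpM : p ∣ M := by
        rcases (Nat.Prime.dvd_mul hp).mp hpMq with h | h
        · exact h
        · exact absurd ((Nat.prime_dvd_prime_iff_eq hp hq).mp h) hpq
      rw [hppow p hp hpq, hppow p hp hpq]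
      have h1 : qCoeff (⇑g') p = a p := by
        have := hppow p hp hpq 1
        rwa [pow_one] at this
      rw [h1]
      exact hg.qCoeff_prime_pow_of_dvd p r hp hpM
  · -- the coefficients at primes `≠ q`
    intro ℓ hℓ hℓq
    have := hppow ℓ hℓ hℓq 1
    rwa [pow_one] at this

/-- Iterated stabilisation: a normalized eigenform of level `M ∣ C`, `C` squarefree, gives a
normalized eigenform of level `C` with the same coefficients at all primes `ℓ` with `ℓ ∣ M` or
`ℓ ∤ C`. -/
theorem exists_eigenform_of_dvd_squarefree (hstab : Stabilize) {C : ℕ} (hC : Squarefree C) :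
    ∀ (M : ℕ), M ∣ C → ∀ g : CuspForm (Gamma0 M) 2, g.IsNormalizedEigenform →
      ∃ g' : CuspForm (Gamma0 C) 2, g'.IsNormalizedEigenform ∧
        ∀ ℓ : ℕ, ℓ.Prime → (ℓ ∣ M ∨ ¬ ℓ ∣ C) →
          ModularFormClass.qCoeff g' ℓ = ModularFormClass.qCoeff g ℓ := by
  have hC0 : C ≠ 0 := hC.ne_zero
  intro M
  induction hk : C / M using Nat.strong_induction_on generalizing M with
  | _ k ih =>
    intro hMC g hg
    have hM0 : M ≠ 0 := fun h => hC0 (by rw [h] at hMC; exact zero_dvd_iff.mp hMC)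
    by_cases hMeq : M = C
    · subst hMeq
      exact ⟨g, hg, fun ℓ _ _ => rfl⟩
    · obtain ⟨c, rfl⟩ := hMC
      have hc1 : c ≠ 1 := fun h => hMeq (by rw [h, mul_one])
      obtain ⟨q, hq, hqc⟩ := Nat.exists_prime_and_dvd hc1
      have hqM : ¬ q ∣ M := by
        intro hqM
        have hsq : q * q ∣ M * c := mul_dvd_mul hqM hqc
        exact hq.not_isUnit (hC q hsq)
      have : NeZero M := ⟨hM0⟩
      obtain ⟨g₁, hg₁, hg₁g⟩ := hstab M g hg q hq hqM
      obtain ⟨d, rfl⟩ := hqc
      have hdiv : M * q ∣ M * (q * d) := ⟨d, by ring⟩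
      have hlt : M * (q * d) / (M * q) < k := by
        rw [← hk]
        have hMpos : 0 < M := Nat.pos_of_ne_zero hM0
        have hdpos : 0 < d := by
          rcases Nat.eq_zero_or_pos d with h | h
          · exact absurd (by rw [h]; ring) hC0
          · exact h
        have e1 : M * (q * d) / (M * q) = d := by
          rw [show M * (q * d) = (M * q) * d by ring]
          exact Nat.mul_div_cancel_left d (Nat.mul_pos hMpos hq.pos)
        have e2 : M * (q * d) / M = q * d := Nat.mul_div_cancel_left _ hMpos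
        rw [e1, e2]
        calc d = 1 * d := (one_mul d).symm
          _ < q * d := Nat.mul_lt_mul_of_pos_right hq.one_lt hdpos
      obtain ⟨g', hg', hg'g⟩ := ih _ hlt (M * q) rfl hdiv g₁ hg₁
      refine ⟨g', hg', fun ℓ hℓ hcond => ?_⟩
      have hℓq : ℓ ≠ q := by
        rintro rfl
        rcases hcond with h | h
        · exact hqM h
        · exact h ⟨M * d, by ring⟩
      rw [hg'g ℓ hℓ (hcond.imp (fun h => Dvd.dvd.mul_right h q) id), hg₁g ℓ hℓ hℓq]

end Fermat.Agent.S58.Mod
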