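/-
S58-10 (architect helper58), brick (RES-TR): `ResidualTransfer`.

`Fermat.Agent.S58.ResTr.residualTransfer : ResidualTransfer` — absolute irreducibility and
oddness of the residual representation only depend on the characteristic polynomials (also along
a local homomorphism `ψ` of coefficient rings).

Argument: if the residual representation of `ρ₂` were absolutely reducible, the operators
`ρ̄₂ g` would be simultaneously upper triangular over the algebraic closure, hence
`tr (ρ̄₂(x y z)) = tr (ρ̄₂(y x z))` for all `x y z`.  Traces are read off the characteristic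
polynomials, so `tr ((ρ₁ x ρ₁ y - ρ₁ y ρ₁ x) ρ₁ z)` lies in the maximal ideal for all `x y z`.
By Burnside + Nakayama (`Lib/GalRep/TraceRigid.lean`) the `ρ₁ g` span the whole matrix algebra,
so `tr ((A B - B A) N)` lies in the maximal ideal for all matrices `A B N`, which is absurd.

(The brick (CMP) `charpolyRigid : CharpolyRigid` is in `S58/Rigid.lean`, by helper94.)
-/
import Mathlib
import Fermat.Agent.S58.Interfaces
import Fermat.Agent.Frob.Rigidity
import Fermat.Agent.Lib.GalRep.TraceRigid

set_option autoImplicit false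

namespace Fermat.Agent.S58.ResTr

open IsLocalRing Polynomial

/-! ### Triangular operators on a plane -/

section Plane

variable {K V : Type*} [Field K] [AddCommGroup V] [Module K V]

/-- In a basis `![w, v]` with `w ∈ W`, `v ∉ W`, the second coordinate of a vector of `W`
vanishes. -/
theorem repr_one_eq_zero_of_mem (b : Module.Basis (Fin 2) K V) (W : Submodule K V)
    (h0 : b 0 ∈ W) (h1 : b 1 ∉ W) {x : V} (hx : x ∈ W) : b.repr x 1 = 0 := by
  by_contra hne
  apply h1
  have hsum : x = b.repr x 0 • b 0 + b.repr x 1 • b 1 := by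
    conv_lhs => rw [← b.sum_repr x, Fin.sum_univ_two]
  have h2 : b.repr x 1 • b 1 ∈ W := by
    have h3 : b.repr x 1 • b 1 = x - b.repr x 0 • b 0 := by
      rw [eq_sub_iff_add_eq, add_comm]; exact hsum.symm
    rw [h3]
    exact W.sub_mem hx (W.smul_mem _ h0)
  have h4 : b 1 = (b.repr x 1)⁻¹ • (b.repr x 1 • b 1) := by
    rw [smul_smul, inv_mul_cancel₀ hne, one_smul]
  rw [h4]
  exact W.smul_mem _ h2

/-- Operators on a plane preserving a common line: the trace of a product does not see the order
of the first two factors. -/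
theorem trace_mul_mul_comm_of_invariant (hV : Module.finrank K V = 2) (W : Submodule K V)
    (hbot : W ≠ ⊥) (htop : W ≠ ⊤) (f g h : Module.End K V)
    (hf : ∀ x ∈ W, f x ∈ W) (hg : ∀ x ∈ W, g x ∈ W) (hh : ∀ x ∈ W, h x ∈ W) :
    LinearMap.trace K V (f * g * h) = LinearMap.trace K V (g * f * h) := by
  classical
  obtain ⟨w, hwW, hw0⟩ := (Submodule.ne_bot_iff W).mp hbot
  obtain ⟨v, hvW⟩ : ∃ v : V, v ∉ W := by
    by_contra hcon
    exact htop (eq_top_iff.mpr fun x _ => not_not.mp fun hx => hcon ⟨x, hx⟩)
  have hli : LinearIndependent K ![w, v] := by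
    rw [LinearIndependent.pair_iff]
    intro s t hst
    have ht : t = 0 := by
      by_contra ht
      apply hvW
      have h1 : t • v = -(s • w) := eq_neg_of_add_eq_zero_right hst
      have h2 : v = t⁻¹ • (t • v) := by rw [smul_smul, inv_mul_cancel₀ ht, one_smul]
      rw [h2, h1]
      exact W.smul_mem _ (W.neg_mem (W.smul_mem _ hwW))
    refine ⟨?_, ht⟩
    rw [ht, zero_smul, add_zero] at hst
    exact (smul_eq_zero.mp hst).resolve_right hw0
  let b : Module.Basis (Fin 2) K V :=
    basisOfLinearIndependentOfCardEqFinrank hli (by rw [hV, Fintype.card_fin])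
  have hb : ⇑b = ![w, v] := coe_basisOfLinearIndependentOfCardEqFinrank hli _
  have hb0 : b 0 ∈ W := by rw [hb]; exact hwW
  have hb1 : b 1 ∉ W := by rw [hb]; exact hvW
  have htri : ∀ u : Module.End K V, (∀ x ∈ W, u x ∈ W) → LinearMap.toMatrix b b u 1 0 = 0 := by
    intro u hu
    rw [LinearMap.toMatrix_apply]
    exact repr_one_eq_zero_of_mem b W hb0 hb1 (hu _ hb0)
  have hF := htri f hf
  have hG := htri g hg
  have hH := htri h hh
  rw [LinearMap.trace_eq_matrix_trace K b, LinearMap.trace_eq_matrix_trace K b,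
    LinearMap.toMatrix_mul, LinearMap.toMatrix_mul, LinearMap.toMatrix_mul, LinearMap.toMatrix_mul]
  generalize LinearMap.toMatrix b b f = F at hF
  generalize LinearMap.toMatrix b b g = G at hG
  generalize LinearMap.toMatrix b b h = H at hH
  simp only [Matrix.trace_fin_two, Matrix.mul_apply, Fin.sum_univ_two, hF, hG, hH]
  ring

end Plane

/-! ### Traces and determinants along `ψ` -/

section Transfer

variable {O₁ O₂ : Type} [CommRing O₁] [IsLocalRing O₁] [CommRing O₂] [IsLocalRing O₂]

/-- Traces and determinants are read off the characteristic polynomial. -/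
theorem trace_det_of_charpoly_map (ψ : O₁ →+* O₂) (ρ₁ : GaloisRepAdic O₁) (ρ₂ : GaloisRepAdic O₂)
    (σ : GQ)
    (hchar : LinearMap.charpoly (ρ₂.ρ σ) = (LinearMap.charpoly (ρ₁.ρ σ)).map ψ) :
    LinearMap.trace O₂ ρ₂.V (ρ₂.ρ σ) = ψ (LinearMap.trace O₁ ρ₁.V (ρ₁.ρ σ)) ∧
      LinearMap.det (ρ₂.ρ σ) = ψ (LinearMap.det (ρ₁.ρ σ)) := by
  classical
  let b₁ : Module.Basis (Fin 2) O₁ ρ₁.V := Module.finBasisOfFinrankEq O₁ ρ₁.V ρ₁.finrank_eq
  let b₂ : Module.Basis (Fin 2) O₂ ρ₂.V := Module.finBasisOfFinrankEq O₂ ρ₂.V ρ₂.finrank_eq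
  have h1 : (LinearMap.toMatrix b₂ b₂ (ρ₂.ρ σ)).charpoly =
      ((LinearMap.toMatrix b₁ b₁ (ρ₁.ρ σ)).map ψ).charpoly := by
    rw [Matrix.charpoly_map, LinearMap.charpoly_toMatrix, LinearMap.charpoly_toMatrix]
    exact hchar
  obtain ⟨ht, hd⟩ := Fermat.Agent.Frob.rg_trace_det_of_charpoly_eq h1
  constructor
  · rw [LinearMap.trace_eq_matrix_trace O₂ b₂, LinearMap.trace_eq_matrix_trace O₁ b₁, ht]
    simp [Matrix.trace_fin_two]
  · rw [← LinearMap.det_toMatrix b₂, ← LinearMap.det_toMatrix b₁, hd, RingHom.map_det,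
      RingHom.mapMatrix_apply]

end Transfer

/-! ### (RES-TR) -/

/-- **(RES-TR)** absolute irreducibility and oddness of the residual representation only depend
on the characteristic polynomials. -/
theorem residualTransfer : ResidualTransfer := by
  intro O₁ O₂ _ _ _ _ _ _ ψ hψ ρ₁ ρ₂ hchar ⟨habs, hodd⟩
  classical
  have htd := fun σ : GQ => trace_det_of_charpoly_map ψ ρ₁ ρ₂ σ (hchar σ)
  refine ⟨?_, ?_⟩
  · -- absolute irreducibility
    intro W hW
    by_contra hcon
    rw [not_or] at hcon
    obtain ⟨hbot, htop⟩ := hcon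
    let b₁ : Module.Basis (Fin 2) O₁ ρ₁.V := Module.finBasisOfFinrankEq O₁ ρ₁.V ρ₁.finrank_eq
    let M₁ : GQ → Matrix (Fin 2) (Fin 2) O₁ := fun g => LinearMap.toMatrix b₁ b₁ (ρ₁.ρ g)
    have hspan : Submodule.span O₁ (Set.range M₁) = ⊤ :=
      Fermat.Agent.Lib.GalRep.span_range_toMatrix_eq_top_of_residual_absIrr ρ₁ habs b₁
    -- the trace of `ρ̄₂ ⊗ k̄` in terms of `ρ₁`
    have htr : ∀ g : GQ,
        LinearMap.trace (AlgebraicClosure (ResidueField O₂))
            (ρ₂.residual.baseChange (AlgebraicClosure (ResidueField O₂))).V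
            ((ρ₂.residual.baseChange (AlgebraicClosure (ResidueField O₂))).ρ g) =
          algebraMap (ResidueField O₂) (AlgebraicClosure (ResidueField O₂))
            (ResidueField.map ψ (residue O₁ (LinearMap.trace O₁ ρ₁.V (ρ₁.ρ g)))) := by
      intro g
      have e1 : (ρ₂.residual.baseChange (AlgebraicClosure (ResidueField O₂))).ρ g =
          ((ρ₂.ρ g).baseChange (ResidueField O₂)).baseChange
            (AlgebraicClosure (ResidueField O₂)) := rfl
      rw [e1]
      erw [LinearMap.trace_baseChange, LinearMap.trace_baseChange]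
      rw [(htd g).1, ResidueField.map_residue]
      rfl
    -- the commutator traces of `ρ₁` lie in the maximal ideal
    have key : ∀ x y z : GQ,
        Matrix.trace ((M₁ x * M₁ y - M₁ y * M₁ x) * M₁ z) ∈ maximalIdeal O₁ := by
      intro x y z
      have h1 := trace_mul_mul_comm_of_invariant
        (ρ₂.residual.baseChange (AlgebraicClosure (ResidueField O₂))).finrank_eq W hbot htop
        ((ρ₂.residual.baseChange (AlgebraicClosure (ResidueField O₂))).ρ x)
        ((ρ₂.residual.baseChange (AlgebraicClosure (ResidueField O₂))).ρ y)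
        ((ρ₂.residual.baseChange (AlgebraicClosure (ResidueField O₂))).ρ z)
        (hW x) (hW y) (hW z)
      rw [← map_mul, ← map_mul, ← map_mul, ← map_mul, htr, htr] at h1
      have h2 := (ResidueField.map ψ).injective
        ((algebraMap (ResidueField O₂) (AlgebraicClosure (ResidueField O₂))).injective h1)
      rw [← sub_eq_zero, ← map_sub, residue_eq_zero_iff] at h2
      have h3 : Matrix.trace ((M₁ x * M₁ y - M₁ y * M₁ x) * M₁ z) =
          LinearMap.trace O₁ ρ₁.V (ρ₁.ρ (x * y * z)) -
            LinearMap.trace O₁ ρ₁.V (ρ₁.ρ (y * x * z)) := by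
        have hx : ∀ a b c : GQ, ρ₁.ρ (a * b * c) = ρ₁.ρ a * ρ₁.ρ b * ρ₁.ρ c := fun a b c => by
          rw [map_mul, map_mul]
        rw [LinearMap.trace_eq_matrix_trace O₁ b₁, LinearMap.trace_eq_matrix_trace O₁ b₁,
          hx, hx, LinearMap.toMatrix_mul, LinearMap.toMatrix_mul,
          LinearMap.toMatrix_mul, LinearMap.toMatrix_mul, sub_mul, Matrix.trace_sub]
      rw [h3]
      exact h2
    -- extend to the whole matrix algebra, one slot at a time
    have mem_span : ∀ A : Matrix (Fin 2) (Fin 2) O₁, A ∈ Submodule.span O₁ (Set.range M₁) := by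
      intro A; rw [hspan]; trivial
    have k1 : ∀ (x y : GQ) (N : Matrix (Fin 2) (Fin 2) O₁),
        Matrix.trace ((M₁ x * M₁ y - M₁ y * M₁ x) * N) ∈ maximalIdeal O₁ := by
      intro x y N
      refine Submodule.span_induction (p := fun N _ =>
        Matrix.trace ((M₁ x * M₁ y - M₁ y * M₁ x) * N) ∈ maximalIdeal O₁) ?_ ?_ ?_ ?_ (mem_span N)
      · rintro _ ⟨z, rfl⟩
        exact key x y z
      · rw [mul_zero, Matrix.trace_zero]
        exact Ideal.zero_mem _
      · intro N N' _ _ h h'
        rw [mul_add, Matrix.trace_add]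
        exact Ideal.add_mem _ h h'
      · intro c N _ h
        rw [Matrix.mul_smul, Matrix.trace_smul]
        exact Ideal.mul_mem_left _ _ h
    have k2 : ∀ (x : GQ) (B N : Matrix (Fin 2) (Fin 2) O₁),
        Matrix.trace ((M₁ x * B - B * M₁ x) * N) ∈ maximalIdeal O₁ := by
      intro x B
      refine Submodule.span_induction (p := fun B _ => ∀ N : Matrix (Fin 2) (Fin 2) O₁,
        Matrix.trace ((M₁ x * B - B * M₁ x) * N) ∈ maximalIdeal O₁) ?_ ?_ ?_ ?_ (mem_span B)
      · rintro _ ⟨y, rfl⟩ N
        exact k1 x y N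
      · intro N
        rw [mul_zero, zero_mul, sub_zero, zero_mul, Matrix.trace_zero]
        exact Ideal.zero_mem _
      · intro B B' _ _ h h' N
        have e : (M₁ x * (B + B') - (B + B') * M₁ x) * N =
            (M₁ x * B - B * M₁ x) * N + (M₁ x * B' - B' * M₁ x) * N := by
          noncomm_ring
        rw [e, Matrix.trace_add]
        exact Ideal.add_mem _ (h N) (h' N)
      · intro c B _ h N
        have e : (M₁ x * (c • B) - (c • B) * M₁ x) * N = c • ((M₁ x * B - B * M₁ x) * N) := by
          rw [Matrix.mul_smul, Matrix.smul_mul, ← smul_sub, Matrix.smul_mul]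
        rw [e, Matrix.trace_smul]
        exact Ideal.mul_mem_left _ _ (h N)
    have k3 : ∀ (A B N : Matrix (Fin 2) (Fin 2) O₁),
        Matrix.trace ((A * B - B * A) * N) ∈ maximalIdeal O₁ := by
      intro A
      refine Submodule.span_induction (p := fun A _ => ∀ B N : Matrix (Fin 2) (Fin 2) O₁,
        Matrix.trace ((A * B - B * A) * N) ∈ maximalIdeal O₁) ?_ ?_ ?_ ?_ (mem_span A)
      · rintro _ ⟨x, rfl⟩ B N
        exact k2 x B N
      · intro B N
        rw [mul_zero, zero_mul, sub_zero, zero_mul, Matrix.trace_zero]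
        exact Ideal.zero_mem _
      · intro A A' _ _ h h' B N
        have e : ((A + A') * B - B * (A + A')) * N =
            (A * B - B * A) * N + (A' * B - B * A') * N := by
          noncomm_ring
        rw [e, Matrix.trace_add]
        exact Ideal.add_mem _ (h B N) (h' B N)
      · intro c A _ h B N
        have e : ((c • A) * B - B * (c • A)) * N = c • ((A * B - B * A) * N) := by
          rw [Matrix.mul_smul, Matrix.smul_mul, ← smul_sub, Matrix.smul_mul]
        rw [e, Matrix.trace_smul]
        exact Ideal.mul_mem_left _ _ (h B N)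
    -- a commutator with trace-pairing `1`
    have hone := k3 (Matrix.single 0 1 1) (Matrix.single 1 0 1) (Matrix.single 0 0 1)
    have hval : Matrix.trace ((Matrix.single (0 : Fin 2) (1 : Fin 2) (1 : O₁) *
        Matrix.single (1 : Fin 2) (0 : Fin 2) (1 : O₁) -
        Matrix.single (1 : Fin 2) (0 : Fin 2) (1 : O₁) *
          Matrix.single (0 : Fin 2) (1 : Fin 2) (1 : O₁)) *
        Matrix.single (0 : Fin 2) (0 : Fin 2) (1 : O₁)) = 1 := by
      simp [Matrix.trace_fin_two, Matrix.mul_apply, Matrix.single_apply]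
    rw [hval] at hone
    exact (maximalIdeal.isMaximal O₁).ne_top ((Ideal.eq_top_iff_one _).mpr hone)
  · -- oddness
    intro c hc hc1
    have h1 : LinearMap.det ((ρ₁.ρ c).baseChange (ResidueField O₁)) = -1 := hodd c hc hc1
    rw [LinearMap.det_baseChange] at h1
    change LinearMap.det ((ρ₂.ρ c).baseChange (ResidueField O₂)) = -1
    rw [LinearMap.det_baseChange, (htd c).2]
    change residue O₂ (ψ (LinearMap.det (ρ₁.ρ c))) = -1
    rw [← ResidueField.map_residue]
    change ResidueField.map ψ (algebraMap O₁ (ResidueField O₁) (LinearMap.det (ρ₁.ρ c))) = -1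
    rw [h1, map_neg, map_one]

end Fermat.Agent.S58.ResTr
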