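/-
S58-PREP, brick (CMP) (helper94): `CharpolyRigid`.

Two adic Galois representations over a discrete valuation ring whose Frobenius characteristic
polynomials agree outside a finite set of primes have the same characteristic polynomial at
EVERY element of `Gal(ℚ̄/ℚ)`: Frobenius density (`Frob.exists_frobenius_generating`) +
adic continuity (`Frob.charpoly_eq_of_frobenius_of`) + Krull's intersection theorem.
-/
import Mathlib
import Fermat.Agent.S58.Interfaces
import Fermat.Agent.Frob.Main
import Fermat.Agent.Frob.Rigidity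
import Fermat.Agent.Lib.GalRep.TraceRigid

set_option autoImplicit false

namespace Fermat.Agent.S58

/-- The Frobenius density theorem in the form consumed by `Frob/Rigidity.lean`. -/
theorem frobGen : Fermat.Agent.Frob.FrobGen :=
  fun F _ S g => Fermat.Agent.Frob.exists_frobenius_generating F S g

/-- **(CMP)**: characteristic polynomials of two adic representations over a discrete valuation
ring agree everywhere as soon as they agree at the Frobenius elements outside a finite set. -/
theorem charpolyRigid : CharpolyRigid := by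
  intro O _ _ _ ρ₁ ρ₂ S h σ
  exact Fermat.Agent.Frob.charpoly_eq_of_frobenius_of frobGen
    (Fermat.Agent.Lib.GalRep.iInf_maximalIdeal_pow_eq_bot O) ρ₁ ρ₂ S h σ

/-- Variant of **(CMP)** over any Noetherian local ring. -/
theorem charpoly_eq_of_frobenius {R : Type} [CommRing R] [IsLocalRing R] [IsNoetherianRing R]
    (ρ₁ ρ₂ : GaloisRepAdic R) (S : Finset ℕ)
    (h : ∀ ℓ : ℕ, ℓ.Prime → ℓ ∉ S → ∀ A : ValuationSubring Qb, A.LiesOverPrime ℓ →
      ∀ σ : GQ, A.IsFrobeniusAt σ ℓ →
        LinearMap.charpoly (ρ₁.ρ σ) = LinearMap.charpoly (ρ₂.ρ σ)) (σ : GQ) :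
    LinearMap.charpoly (ρ₁.ρ σ) = LinearMap.charpoly (ρ₂.ρ σ) :=
  Fermat.Agent.Frob.charpoly_eq_of_frobenius_of frobGen
    (Fermat.Agent.Lib.GalRep.iInf_maximalIdeal_pow_eq_bot R) ρ₁ ρ₂ S h σ

end Fermat.Agent.S58
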