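/-
S58-PREP row 376 (helper84): **the Tate module** — `tateExists : TateExists`.

For an integral Weierstrass model `W` with `Δ ≠ 0` and a prime `lam`, the `lam`-adic Tate module
of `E = W_ℚ` as a `GaloisRepAdic ℤ_[lam]` on `Fin 2 → ℤ_[lam]` with its level maps
`π n : T → E[lam ^ n] ⊆ E(ℚ̄)`.

* Part 1 (`exists_compatible_basis`, Mathlib only): an abelian group `J` with
  `#J[p ^ n] = p ^ (2 n)` for all `n` has compatible generators `P n`, `Q n` of the `J[p ^ n]`.
* Part 2 (`levelMap`, `levelMap_eq_zero_iff`, `levelMap_surj`, `levelMap_compat`): the level maps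
  `π n t = (t 0 mod p ^ n) • P n + (t 1 mod p ^ n) • Q n` on `Fin 2 → ℤ_[p]`.
* Part 3 (`exists_rep`): a group acting additively on `J` acts `ℤ_[p]`-linearly on
  `Fin 2 → ℤ_[p]`, compatibly with the level maps (`Lib.TateLim.exists_lift`).
* Part 4: the instance for `E(ℚ̄)` (`Lib.ECBiquad.card_torsionBy_int`), continuity from the field
  of definition of `P n`, `Q n`.
-/
import Mathlib
import Fermat.Agent.S58.Interfaces
import Fermat.Agent.Lib.TateLim
import Fermat.Agent.Lib.ECBiquad.Main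
import Fermat.Agent.Lib.GalQbar

set_option autoImplicit false

namespace Fermat.Agent.S58.Tate

/-! ### Part 1: compatible generators of the `p`-power torsion -/

section Abstract

variable {J : Type*} [AddCommGroup J]

/-- The `p ^ n`-torsion subgroup. -/
def tor (J : Type*) [AddCommGroup J] (p n : ℕ) : AddSubgroup J :=
  (nsmulAddMonoidHom (p ^ n) : J →+ J).ker

theorem mem_tor {p n : ℕ} {x : J} : x ∈ tor J p n ↔ p ^ n • x = 0 := by
  rw [tor, AddMonoidHom.mem_ker, nsmulAddMonoidHom_apply]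

/-- Multiplication by `p` from `J[p ^ (n + 1)]` to `J[p ^ n]`. -/
def mulP (J : Type*) [AddCommGroup J] (p n : ℕ) : tor J p (n + 1) →+ tor J p n where
  toFun x := ⟨p • (x : J), by
    have := mem_tor.mp x.2
    rw [mem_tor, ← mul_nsmul, mul_comm, ← pow_succ]
    exact this⟩
  map_zero' := by ext; simp
  map_add' x y := by ext; simp

@[simp] theorem coe_mulP {p n : ℕ} (x : tor J p (n + 1)) : ((mulP J p n x : tor J p n) : J) =
    p • (x : J) := rfl

/-- The kernel of `mulP` is `J[p]`. -/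
def kerMulPEquiv (p n : ℕ) : (mulP J p n).ker ≃ tor J p 1 where
  toFun x := ⟨((x : tor J p (n + 1)) : J), by
    have h := x.2
    rw [AddMonoidHom.mem_ker] at h
    have h' := congrArg (Subtype.val) h
    rw [coe_mulP] at h'
    rw [mem_tor, pow_one]
    exact h'⟩
  invFun y := ⟨⟨(y : J), by
    have h := mem_tor.mp y.2
    rw [pow_one] at h
    rw [mem_tor, pow_succ, mul_nsmul', h, smul_zero]⟩, by
    have h := mem_tor.mp y.2
    rw [pow_one] at h
    rw [AddMonoidHom.mem_ker]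
    ext
    rw [coe_mulP]
    exact h⟩
  left_inv x := by ext; rfl
  right_inv y := by ext; rfl

/-- **Divisibility inside the torsion**: `p : J[p ^ (n + 1)] → J[p ^ n]` is onto. -/
theorem exists_lift_tor (p : ℕ) (hp : p.Prime)
    (hcard : ∀ n : ℕ, Nat.card (tor J p n) = p ^ (2 * n)) (n : ℕ) (x : J) (hx : p ^ n • x = 0) :
    ∃ y : J, p ^ (n + 1) • y = 0 ∧ p • y = x := by
  have hfin : ∀ m, Finite (tor J p m) := fun m =>
    Nat.finite_of_card_ne_zero (by rw [hcard]; exact pow_ne_zero _ hp.ne_zero)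
  have hker : Nat.card (mulP J p n).ker = p ^ 2 := by
    rw [Nat.card_congr (kerMulPEquiv p n), hcard 1]
  have hquot : Nat.card (tor J p (n + 1) ⧸ (mulP J p n).ker) = Nat.card (mulP J p n).range :=
    Nat.card_congr (QuotientAddGroup.quotientKerEquivRange (mulP J p n)).toEquiv
  have hmul := AddSubgroup.card_eq_card_quotient_mul_card_addSubgroup (mulP J p n).ker
  rw [hcard (n + 1), hquot, hker] at hmul
  have hrange : Nat.card (mulP J p n).range = p ^ (2 * n) := by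
    have h2 : 0 < p ^ 2 := pow_pos hp.pos 2
    have e : p ^ (2 * (n + 1)) = p ^ (2 * n) * p ^ 2 := by ring
    rw [e] at hmul
    exact (Nat.eq_of_mul_eq_mul_right h2 hmul).symm
  have := hfin n
  have htop : (mulP J p n).range = ⊤ :=
    AddSubgroup.eq_top_of_card_eq _ (by rw [hrange, hcard n])
  have hmem : (⟨x, mem_tor.mpr hx⟩ : tor J p n) ∈ (mulP J p n).range := by
    rw [htop]; exact AddSubgroup.mem_top _
  obtain ⟨y, hy⟩ := hmem
  refine ⟨(y : J), mem_tor.mp y.2, ?_⟩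
  have := congrArg Subtype.val hy
  rwa [coe_mulP] at this

/-- A compatible sequence of `p`-power division points above a point of order `p`. -/
theorem exists_seq (p : ℕ)
    (lift : ∀ (n : ℕ) (x : J), p ^ n • x = 0 → ∃ y : J, p ^ (n + 1) • y = 0 ∧ p • y = x)
    (P₁ : J) (h₁ : p • P₁ = 0) :
    ∃ s : ℕ → J, s 1 = P₁ ∧ (∀ n, p ^ n • s n = 0) ∧ ∀ n, p • s (n + 1) = s n := by
  let t : (n : ℕ) → {x : J // p ^ (n + 1) • x = 0} := fun n =>
    Nat.rec (motive := fun n => {x : J // p ^ (n + 1) • x = 0})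
      ⟨P₁, by
        show p ^ 1 • P₁ = 0
        rw [pow_one]; exact h₁⟩
      (fun n x => ⟨(lift (n + 1) x.1 x.2).choose, (lift (n + 1) x.1 x.2).choose_spec.1⟩) n
  have ht : ∀ n, p • (t (n + 1)).1 = (t n).1 := fun n =>
    (lift (n + 1) (t n).1 (t n).2).choose_spec.2
  refine ⟨fun n => Nat.casesOn n 0 (fun m => (t m).1), rfl, ?_, ?_⟩
  · intro n
    cases n with
    | zero => simp
    | succ m => exact (t m).2
  · intro n
    cases n with
    | zero => exact h₁
    | succ m => exact ht m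

/-- A basis of `J[p]` when `#J[p] = p²`. -/
theorem exists_base (p : ℕ) (hp : p.Prime) (hcard : Nat.card (tor J p 1) = p ^ 2) :
    ∃ P₁ Q₁ : J, p • P₁ = 0 ∧ p • Q₁ = 0 ∧
      ∀ a b : ℤ, a • P₁ + b • Q₁ = 0 → (p : ℤ) ∣ a ∧ (p : ℤ) ∣ b := by
  have hfin : Finite (tor J p 1) :=
    Nat.finite_of_card_ne_zero (by rw [hcard]; exact pow_ne_zero _ hp.ne_zero)
  have hnt : Nontrivial (tor J p 1) := by
    rw [← Finite.one_lt_card_iff_nontrivial, hcard]
    exact Nat.one_lt_pow (by norm_num) hp.one_lt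
  obtain ⟨P, hP0⟩ := exists_ne (0 : tor J p 1)
  have hP : p • (P : J) = 0 := by simpa using mem_tor.mp P.2
  have hP0' : (P : J) ≠ 0 := fun h => hP0 (Subtype.ext h)
  -- the multiples of `P` do not exhaust `J[p]`
  have hord : addOrderOf (P : J) ∣ p := addOrderOf_dvd_of_nsmul_eq_zero hP
  have hordpos : 0 < addOrderOf (P : J) := Nat.pos_of_dvd_of_pos hord hp.pos
  have hcz : Nat.card (AddSubgroup.zmultiples (P : J)) = addOrderOf (P : J) :=
    Nat.card_zmultiples _
  have : Finite (AddSubgroup.zmultiples (P : J)) :=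
    Nat.finite_of_card_ne_zero (by rw [hcz]; exact hordpos.ne')
  have hnle : ¬ tor J p 1 ≤ AddSubgroup.zmultiples (P : J) := by
    intro hle
    have := AddSubgroup.card_le_of_le hle
    rw [hcard, hcz] at this
    have h1 : addOrderOf (P : J) ≤ p := Nat.le_of_dvd hp.pos hord
    have h2 : p < p ^ 2 := by
      have := hp.one_lt
      nlinarith
    omega
  obtain ⟨Q, hQmem, hQnot⟩ := SetLike.not_le_iff_exists.mp hnle
  have hQ : p • Q = 0 := by simpa using mem_tor.mp hQmem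
  -- a point killed by `p` and by an integer prime to `p` is zero
  have key : ∀ (x : J) (c : ℤ), p • x = 0 → c • x = 0 → ¬ (p : ℤ) ∣ c → x = 0 := by
    intro x c hx hc hpc
    have hcop : IsCoprime c (p : ℤ) :=
      ((Nat.prime_iff_prime_int.mp hp).coprime_iff_not_dvd.mpr hpc).symm
    obtain ⟨u, v, huv⟩ := hcop
    have : (u * c + v * (p : ℤ)) • x = 0 := by
      rw [add_smul, mul_smul, mul_smul, hc, natCast_zsmul, hx, smul_zero, smul_zero, add_zero]
    rwa [huv, one_smul] at this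
  refine ⟨P, Q, hP, hQ, fun a b hab => ?_⟩
  have hb : (p : ℤ) ∣ b := by
    by_contra hpb
    apply hQnot
    -- `Q` is a multiple of `P`
    have hcop : IsCoprime b (p : ℤ) :=
      ((Nat.prime_iff_prime_int.mp hp).coprime_iff_not_dvd.mpr hpb).symm
    obtain ⟨u, v, huv⟩ := hcop
    have hbQ : b • Q = (-a) • (P : J) := by
      rw [neg_smul]
      exact eq_neg_of_add_eq_zero_right hab
    have hQe : Q = (u * -a) • (P : J) := by
      have : (u * b + v * (p : ℤ)) • Q = (u * -a) • (P : J) := by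
        rw [add_smul, mul_smul, mul_smul, hbQ, natCast_zsmul, hQ, smul_zero, add_zero, mul_smul]
      rwa [huv, one_smul] at this
    rw [hQe]
    exact AddSubgroup.zsmul_mem _ (AddSubgroup.mem_zmultiples _) _
  refine ⟨?_, hb⟩
  by_contra hpa
  apply hP0'
  obtain ⟨c, rfl⟩ := hb
  have hbQ : ((p : ℤ) * c) • Q = 0 := by
    rw [mul_comm, mul_smul, natCast_zsmul, hQ, smul_zero]
  rw [hbQ, add_zero] at hab
  exact key _ a hP hab hpa

/-- **Compatible generators of the `p`-power torsion** of an abelian group with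
`#J[p ^ n] = p ^ (2 n)`. -/
theorem exists_compatible_basis (p : ℕ) (hp : p.Prime)
    (hcard : ∀ n : ℕ, Nat.card (tor J p n) = p ^ (2 * n)) :
    ∃ P Q : ℕ → J, (∀ n, p ^ n • P n = 0) ∧ (∀ n, p ^ n • Q n = 0) ∧
      (∀ n, p • P (n + 1) = P n) ∧ (∀ n, p • Q (n + 1) = Q n) ∧
      (∀ n (a b : ℤ), a • P n + b • Q n = 0 → (p ^ n : ℤ) ∣ a ∧ (p ^ n : ℤ) ∣ b) ∧
      (∀ n (x : J), p ^ n • x = 0 → ∃ a b : ℤ, x = a • P n + b • Q n) := by
  obtain ⟨P₁, Q₁, hP₁, hQ₁, hbase⟩ := exists_base p hp (by rw [hcard 1])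
  obtain ⟨P, hP1, hP, hPc⟩ := exists_seq p (exists_lift_tor p hp hcard) P₁ hP₁
  obtain ⟨Q, hQ1, hQ, hQc⟩ := exists_seq p (exists_lift_tor p hp hcard) Q₁ hQ₁
  have hpowP : ∀ n, p ^ n • P (n + 1) = P 1 := by
    intro n
    induction n with
    | zero => simp
    | succ n ih => rw [pow_succ, mul_nsmul', hPc, ih]
  have hpowQ : ∀ n, p ^ n • Q (n + 1) = Q 1 := by
    intro n
    induction n with
    | zero => simp
    | succ n ih => rw [pow_succ, mul_nsmul', hQc, ih]
  have hind : ∀ n (a b : ℤ), a • P n + b • Q n = 0 → (p ^ n : ℤ) ∣ a ∧ (p ^ n : ℤ) ∣ b := by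
    intro n
    induction n with
    | zero => intro a b _; simp
    | succ n ih =>
      intro a b hab
      have h1 : a • P 1 + b • Q 1 = 0 := by
        have := congrArg (fun x => p ^ n • x) hab
        simp only [smul_add, smul_zero] at this
        rwa [smul_comm (p ^ n) a, smul_comm (p ^ n) b, hpowP, hpowQ] at this
      rw [hP1, hQ1] at h1
      obtain ⟨⟨a', rfl⟩, ⟨b', rfl⟩⟩ := hbase a b h1
      have h2 : a' • P n + b' • Q n = 0 := by
        rw [← hPc n, ← hQc n, ← natCast_zsmul (P (n + 1)) p, ← natCast_zsmul (Q (n + 1)) p,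
          ← mul_smul, ← mul_smul, mul_comm a', mul_comm b']
        exact hab
      obtain ⟨ha, hb⟩ := ih a' b' h2
      rw [pow_succ, mul_comm]
      exact ⟨mul_dvd_mul_left _ ha, mul_dvd_mul_left _ hb⟩
  have hsurj : ∀ n (x : J), p ^ n • x = 0 → ∃ a b : ℤ, x = a • P n + b • Q n := by
    intro n x hx
    have hfin : Finite (tor J p n) :=
      Nat.finite_of_card_ne_zero (by rw [hcard]; exact pow_ne_zero _ hp.ne_zero)
    let F : Fin (p ^ n) × Fin (p ^ n) → tor J p n := fun ij =>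
      ⟨(ij.1 : ℕ) • P n + (ij.2 : ℕ) • Q n, by
        rw [mem_tor, smul_add, smul_comm, hP n, smul_comm (p ^ n), hQ n, smul_zero, smul_zero,
          add_zero]⟩
    have hmod : ∀ i i' : Fin (p ^ n), (p ^ n : ℤ) ∣ ((i : ℕ) : ℤ) - ((i' : ℕ) : ℤ) → i = i' := by
      intro i i' hi
      have : ((i' : ℕ) : ℤ) ≡ ((i : ℕ) : ℤ) [ZMOD ((p ^ n : ℕ) : ℤ)] := by
        rw [Int.modEq_iff_dvd]; push_cast; exact hi
      exact Fin.ext ((Int.natCast_modEq_iff.mp this).eq_of_lt_of_lt i'.2 i.2).symm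
    have hinj : Function.Injective F := by
      rintro ⟨i, j⟩ ⟨i', j'⟩ h
      have h' : (i : ℕ) • P n + (j : ℕ) • Q n = (i' : ℕ) • P n + (j' : ℕ) • Q n :=
        congrArg Subtype.val h
      have h0 : (((i : ℕ) : ℤ) - ((i' : ℕ) : ℤ)) • P n + (((j : ℕ) : ℤ) - ((j' : ℕ) : ℤ)) • Q n
          = 0 := by
        rw [sub_smul, sub_smul, natCast_zsmul, natCast_zsmul, natCast_zsmul, natCast_zsmul]
        have e : (i : ℕ) • P n - (i' : ℕ) • P n + ((j : ℕ) • Q n - (j' : ℕ) • Q n)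
            = ((i : ℕ) • P n + (j : ℕ) • Q n) - ((i' : ℕ) • P n + (j' : ℕ) • Q n) := by abel
        rw [e, h', sub_self]
      obtain ⟨hi, hj⟩ := hind n _ _ h0
      exact Prod.ext (hmod i i' hi) (hmod j j' hj)
    have hbij := hinj.bijective_of_nat_card_le (by
      rw [Nat.card_prod, Nat.card_fin, hcard n]
      exact le_of_eq (by ring))
    obtain ⟨⟨i, j⟩, hij⟩ := hbij.2 ⟨x, mem_tor.mpr hx⟩
    refine ⟨((i : ℕ) : ℤ), ((j : ℕ) : ℤ), ?_⟩
    have := congrArg Subtype.val hij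
    rw [natCast_zsmul, natCast_zsmul]
    exact this.symm
  exact ⟨P, Q, hP, hQ, hPc, hQc, hind, hsurj⟩

end Abstract

/-! ### Part 2: the level maps on `Fin 2 → ℤ_[p]` -/

section LevelMaps

variable {J : Type*} [AddCommGroup J] {p : ℕ} [Fact p.Prime]

/-- On a `p ^ n`-torsion element, `a.appr n` acts as any integer congruent to `a` mod `p ^ n`. -/
theorem appr_nsmul {n : ℕ} {x : J} (hx : p ^ n • x = 0) (a : ℤ_[p]) (z : ℤ)
    (h : (p : ℤ_[p]) ^ n ∣ a - (z : ℤ_[p])) : a.appr n • x = z • x := by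
  have h1 : (p : ℤ_[p]) ^ n ∣ a - ((a.appr n : ℕ) : ℤ_[p]) :=
    Ideal.mem_span_singleton.mp (PadicInt.appr_spec n a)
  have h2 : (p : ℤ_[p]) ^ n ∣ ((((a.appr n : ℕ) : ℤ) - z : ℤ) : ℤ_[p]) := by
    have e : ((((a.appr n : ℕ) : ℤ) - z : ℤ) : ℤ_[p])
        = (a - (z : ℤ_[p])) - (a - ((a.appr n : ℕ) : ℤ_[p])) := by
      push_cast; ring
    rw [e]; exact dvd_sub h h1
  rw [PadicInt.pow_p_dvd_int_iff] at h2
  obtain ⟨c, hc⟩ := h2
  have h3 : (((a.appr n : ℕ) : ℤ) - z) • x = 0 := by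
    rw [hc, mul_comm, mul_smul, ← Nat.cast_pow, natCast_zsmul, hx, smul_zero]
  rw [sub_smul, natCast_zsmul, sub_eq_zero] at h3
  exact h3

/-- **The level map** `t ↦ (t 0 mod p ^ n) • P n + (t 1 mod p ^ n) • Q n`. -/
noncomputable def levelMap (P Q : ℕ → J) (hP : ∀ n, p ^ n • P n = 0) (hQ : ∀ n, p ^ n • Q n = 0) (n : ℕ) :
    (Fin 2 → ℤ_[p]) →+ J :=
  AddMonoidHom.mk' (fun t => (t 0).appr n • P n + (t 1).appr n • Q n) (by
    intro s t
    have e : ∀ x : J, p ^ n • x = 0 → ∀ a b : ℤ_[p],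
        (a + b).appr n • x = a.appr n • x + b.appr n • x := by
      intro x hx a b
      rw [appr_nsmul hx (a + b) (((a.appr n : ℕ) : ℤ) + ((b.appr n : ℕ) : ℤ)) ?_, add_smul,
        natCast_zsmul, natCast_zsmul]
      have h1 := Ideal.mem_span_singleton.mp (PadicInt.appr_spec n a)
      have h2 := Ideal.mem_span_singleton.mp (PadicInt.appr_spec n b)
      have e' : a + b - ((((a.appr n : ℕ) : ℤ) + ((b.appr n : ℕ) : ℤ) : ℤ) : ℤ_[p])
          = (a - ((a.appr n : ℕ) : ℤ_[p])) + (b - ((b.appr n : ℕ) : ℤ_[p])) := by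
        push_cast; ring
      rw [e']; exact dvd_add h1 h2
    simp only [Pi.add_apply]
    rw [e _ (hP n), e _ (hQ n)]
    abel)

theorem levelMap_apply (P Q : ℕ → J) (hP : ∀ n, p ^ n • P n = 0) (hQ : ∀ n, p ^ n • Q n = 0)
    (n : ℕ) (t : Fin 2 → ℤ_[p]) :
    levelMap P Q hP hQ n t = (t 0).appr n • P n + (t 1).appr n • Q n := rfl

/-- (K): the kernel of the level map is `p ^ n • T`. -/
theorem levelMap_eq_zero_iff (P Q : ℕ → J) (hP : ∀ n, p ^ n • P n = 0)
    (hQ : ∀ n, p ^ n • Q n = 0)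
    (hind : ∀ n (a b : ℤ), a • P n + b • Q n = 0 → (p ^ n : ℤ) ∣ a ∧ (p ^ n : ℤ) ∣ b)
    (n : ℕ) (t : Fin 2 → ℤ_[p]) :
    levelMap P Q hP hQ n t = 0 ↔ ∃ w : Fin 2 → ℤ_[p], t = (p : ℤ_[p]) ^ n • w := by
  constructor
  · intro h
    rw [levelMap_apply, ← natCast_zsmul, ← natCast_zsmul (Q n)] at h
    obtain ⟨h0, h1⟩ := hind n _ _ h
    have key : ∀ a : ℤ_[p], (p ^ n : ℤ) ∣ ((a.appr n : ℕ) : ℤ) → (p : ℤ_[p]) ^ n ∣ a := by
      intro a ha
      have h1 := Ideal.mem_span_singleton.mp (PadicInt.appr_spec n a)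
      have h2 : (p : ℤ_[p]) ^ n ∣ (((a.appr n : ℕ) : ℤ) : ℤ_[p]) :=
        (PadicInt.pow_p_dvd_int_iff n _).mpr ha
      have e : a = (a - ((a.appr n : ℕ) : ℤ_[p])) + (((a.appr n : ℕ) : ℤ) : ℤ_[p]) := by
        push_cast; ring
      rw [e]; exact dvd_add h1 h2
    obtain ⟨w0, hw0⟩ := key _ h0
    obtain ⟨w1, hw1⟩ := key _ h1
    refine ⟨![w0, w1], ?_⟩
    ext i
    fin_cases i
    · simpa using hw0
    · simpa using hw1
  · rintro ⟨w, rfl⟩
    rw [levelMap_apply]
    have e : ∀ x : J, p ^ n • x = 0 → ∀ a : ℤ_[p], ((p : ℤ_[p]) ^ n * a).appr n • x = 0 := by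
      intro x hx a
      rw [appr_nsmul hx _ 0 (by simp), zero_smul]
    simp only [Pi.smul_apply, smul_eq_mul]
    rw [e _ (hP n), e _ (hQ n), add_zero]

/-- (S): the level map is onto `J[p ^ n]`. -/
theorem levelMap_surj (P Q : ℕ → J) (hP : ∀ n, p ^ n • P n = 0) (hQ : ∀ n, p ^ n • Q n = 0)
    (hsurj : ∀ n (x : J), p ^ n • x = 0 → ∃ a b : ℤ, x = a • P n + b • Q n)
    (n : ℕ) (x : J) (hx : p ^ n • x = 0) : ∃ t, levelMap P Q hP hQ n t = x := by
  obtain ⟨a, b, rfl⟩ := hsurj n x hx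
  refine ⟨![(a : ℤ_[p]), (b : ℤ_[p])], ?_⟩
  rw [levelMap_apply]
  have e0 : (![(a : ℤ_[p]), (b : ℤ_[p])] : Fin 2 → ℤ_[p]) 0 = a := rfl
  have e1 : (![(a : ℤ_[p]), (b : ℤ_[p])] : Fin 2 → ℤ_[p]) 1 = b := rfl
  rw [e0, e1, appr_nsmul (hP n) _ a (by simp), appr_nsmul (hQ n) _ b (by simp)]

/-- (C): compatibility of the level maps. -/
theorem levelMap_compat (P Q : ℕ → J) (hP : ∀ n, p ^ n • P n = 0) (hQ : ∀ n, p ^ n • Q n = 0)
    (hPc : ∀ n, p • P (n + 1) = P n) (hQc : ∀ n, p • Q (n + 1) = Q n)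
    (n : ℕ) (t : Fin 2 → ℤ_[p]) :
    p • levelMap P Q hP hQ (n + 1) t = levelMap P Q hP hQ n t := by
  have e : ∀ R : ℕ → J, (∀ n, p ^ n • R n = 0) → (∀ n, p • R (n + 1) = R n) → ∀ a : ℤ_[p],
      p • (a.appr (n + 1) • R (n + 1)) = a.appr n • R n := by
    intro R hR hRc a
    rw [smul_comm, hRc, appr_nsmul (hR n) a (((a.appr (n + 1) : ℕ)) : ℤ) ?_, natCast_zsmul]
    rw [Int.cast_natCast]
    exact dvd_trans (pow_dvd_pow _ (Nat.le_succ n))
      (Ideal.mem_span_singleton.mp (PadicInt.appr_spec (n + 1) a))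
  rw [levelMap_apply, levelMap_apply, smul_add, e P hP hPc, e Q hQ hQc]

end LevelMaps

/-! ### Part 3: the representation -/

section Rep

variable {J : Type*} [AddCommGroup J] {G : Type*} [Group G] [DistribMulAction G J]
  {p : ℕ} [Fact p.Prime]

/-- A group acting additively on `J` acts linearly on `Fin 2 → ℤ_[p]`, compatibly with level
maps satisfying (K), (C), (S). -/
theorem exists_rep (π : ℕ → (Fin 2 → ℤ_[p]) →+ J)
    (hK : ∀ n t, π n t = 0 ↔ ∃ w : Fin 2 → ℤ_[p], t = (p : ℤ_[p]) ^ n • w)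
    (hC : ∀ n t, p • π (n + 1) t = π n t)
    (hS : ∀ n (x : J), p ^ n • x = 0 → ∃ t, π n t = x) :
    ∃ ρ : G →* Module.End ℤ_[p] (Fin 2 → ℤ_[p]), ∀ σ n t, π n (ρ σ t) = σ • π n t := by
  have hφ : ∀ (σ : G) n t, ∃ s, π n s = DistribSMul.toAddMonoidHom J σ (π n t) := by
    intro σ n t
    apply hS
    rw [← map_nsmul, Fermat.Agent.Lib.TateLim.pow_nsmul_map π hK, map_zero]
  have hex := fun σ : G => Fermat.Agent.Lib.TateLim.exists_lift π hK hC
    (DistribSMul.toAddMonoidHom J σ) (hφ σ)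
  choose Φ hΦ using hex
  have hΦ' : ∀ σ n t, π n (Φ σ t) = σ • π n t := hΦ
  refine ⟨{ toFun := Φ, map_one' := ?_, map_mul' := ?_ }, hΦ'⟩
  · apply Fermat.Agent.Lib.TateLim.linearMap_ext π hK
    intro n t
    rw [hΦ', one_smul]
    rfl
  · intro σ τ
    apply Fermat.Agent.Lib.TateLim.linearMap_ext π hK
    intro n t
    rw [hΦ', mul_smul, Module.End.mul_apply, hΦ', hΦ']

end Rep

/-! ### Part 4: the Tate module of an elliptic curve over `ℚ` -/

section EC

open WeierstrassCurve WeierstrassCurve.Affine WeierstrassCurve.Affine.Point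

/-- A finite extension of `ℚ` over which a given point of `E(ℚ̄)` is defined. -/
theorem exists_field_fixing (W : WeierstrassCurve ℤ) (P : EPt W) :
    ∃ L : IntermediateField ℚ Qb, FiniteDimensional ℚ L ∧
      ∀ σ : GQ, (∀ x ∈ L, σ x = x) → σ • P = P := by
  have := Fermat.Agent.Lib.GalQbar.isAlgebraic_rat
  rcases P with _ | ⟨x, y, h⟩
  · exact ⟨⊥, inferInstance, fun σ _ => rfl⟩
  · refine ⟨IntermediateField.adjoin ℚ ({x, y} : Set Qb), ?_, fun σ hσ => ?_⟩
    · apply IntermediateField.finiteDimensional_adjoin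
      intro z _
      exact (Algebra.IsAlgebraic.isAlgebraic z).isIntegral
    · have hx : σ x = x := hσ x (IntermediateField.subset_adjoin ℚ _ (by simp))
      have hy : σ y = y := hσ y (IntermediateField.subset_adjoin ℚ _ (by simp))
      rw [algEquiv_smul_def, Point.map_some]
      have hx' : σ.toAlgHom x = x := hx
      have hy' : σ.toAlgHom y = y := hy
      simp only [hx', hy']

/-- `#E[lam ^ n] = lam ^ (2 n)`. -/
theorem card_tor (W : WeierstrassCurve ℤ) (hΔ : W.Δ ≠ 0) (lam : ℕ) (hlam : lam.Prime) (n : ℕ) :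
    Nat.card (tor (EPt W) lam n) = lam ^ (2 * n) := by
  have h := Fermat.Agent.Lib.ECBiquad.card_torsionBy_int W hΔ (n := lam ^ n)
    (pow_ne_zero n hlam.ne_zero)
  rw [pow_mul', ← h]
  refine Nat.card_congr (Equiv.subtypeEquivRight (fun x => ?_))
  rw [mem_tor, Submodule.mem_torsionBy_iff, natCast_zsmul]

/-- **(TATE)** the Tate datum exists. -/
theorem tateExists : TateExists := by
  intro W hΔ lam hlam
  have hp : lam.Prime := hlam.out
  obtain ⟨P, Q, hP, hQ, hPc, hQc, hind, hsurj⟩ :=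
    exists_compatible_basis (J := EPt W) lam hp (card_tor W hΔ lam hp)
  have hK := levelMap_eq_zero_iff (p := lam) P Q hP hQ hind
  have hC := levelMap_compat (p := lam) P Q hP hQ hPc hQc
  have hS := levelMap_surj (p := lam) P Q hP hQ hsurj
  obtain ⟨ρ, hρ⟩ := exists_rep (G := GQ) (levelMap (p := lam) P Q hP hQ) hK hC hS
  have hcont : GaloisActionIsAdicContinuous ℤ_[lam] ρ := by
    intro n
    obtain ⟨L₁, hL₁, h₁⟩ := exists_field_fixing W (P n)
    obtain ⟨L₂, hL₂, h₂⟩ := exists_field_fixing W (Q n)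
    refine ⟨L₁ ⊔ L₂, IntermediateField.finiteDimensional_sup L₁ L₂, fun σ hσ v => ?_⟩
    have hσP : σ • P n = P n := h₁ σ (fun x hx => hσ x ((le_sup_left : L₁ ≤ L₁ ⊔ L₂) hx))
    have hσQ : σ • Q n = Q n := h₂ σ (fun x hx => hσ x ((le_sup_right : L₂ ≤ L₁ ⊔ L₂) hx))
    have h0 : levelMap (p := lam) P Q hP hQ n (ρ σ v - v) = 0 := by
      rw [map_sub, hρ, sub_eq_zero, levelMap_apply, smul_add, smul_comm σ,
        smul_comm σ ((v 1).appr n), hσP, hσQ]
    obtain ⟨w, hw⟩ := (hK n _).mp h0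
    rw [hw, PadicInt.maximalIdeal_eq_span_p, Ideal.span_singleton_pow]
    exact Submodule.smul_mem_smul (Ideal.mem_span_singleton_self _) Submodule.mem_top
  exact ⟨{ T := { V := Fin 2 → ℤ_[lam]
                  finrank_eq := by simp
                  ρ := ρ
                  isAdicContinuous := hcont }
           π := levelMap (p := lam) P Q hP hQ
           ker_π := hK
           surj_π := hS
           equivariant := fun σ n t => hρ σ n t }⟩

end EC

end Fermat.Agent.S58.Tate
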