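/-
S58-PREP, final wiring (architect helper58): the frozen statement S58 from the frozen statements
S35 and S36 alone — every brick of `S58/Interfaces.lean` is a theorem.

* `Final.tMult : TMult`, `Final.tRes : TRes`;
* `Final.s58_of_s35_s36 : S35Statement → S36Statement → S58Statement`;
* `Final.s58_of_tRes`, `Final.s58_of_absIrred` : earlier conditional forms (kept).
-/
import Mathlib
import Fermat.Agent.S58.Asm
import Fermat.Agent.S58.Tate
import Fermat.Agent.S58.Rigid
import Fermat.Agent.S58.ResTransfer
import Fermat.Agent.S58.ModNew
import Fermat.Agent.S58.ModChig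
import Fermat.Agent.S58.ModIota
import Fermat.Agent.S58.ModStab
import Fermat.Agent.S58.FrobFinal
import Fermat.Agent.S58.Mult.Main
import Fermat.Agent.S58.TLevel
import Fermat.Agent.S58.AbsIrred

set_option autoImplicit false

namespace Fermat.Agent.S58.Final

open Fermat.Agent.S58

/-- **(T-MULT)** as a theorem. -/
theorem tMult : TMult := TLevel.tMult FrobFinal.tFrob Mult.multFixed

/-- **(T-RES)** as a theorem. -/
theorem tRes : TRes := AbsIrred.tRes FrobFinal.tFrob

/-- The frozen statement S58 from the frozen statements S35, S36 and **(T-RES)**. -/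
theorem s58_of_tRes (h35 : S35Statement) (h36 : S36Statement) (hTRes : TRes) : S58Statement :=
  Asm.s58_of h35 h36 Tate.tateExists FrobFinal.tFrob FrobFinal.tGood tMult hTRes
    charpolyRigid ResTr.residualTransfer Mod.newformExtract Mod.chigExists Mod.iotaExists
    Mod.stabilize

/-- The frozen statement S58 from the frozen statements S35, S36 and the generic statement
"irreducible and odd implies absolutely irreducible". -/
theorem s58_of_absIrred (h35 : S35Statement) (h36 : S36Statement)
    (habs : ∀ (k : Type) [Field k], (2 : k) ≠ 0 → ∀ ρ : ResidualGaloisRep k,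
      ρ.IsIrreducible → ρ.IsOdd → ρ.IsAbsolutelyIrreducible) : S58Statement :=
  s58_of_tRes h35 h36 (TLevel.tRes_of_absIrred FrobFinal.tFrob habs)

/-- **The frozen statement S58 from the frozen statements S35 and S36.** -/
theorem s58_of_s35_s36 (h35 : S35Statement) (h36 : S36Statement) : S58Statement :=
  s58_of_tRes h35 h36 tRes

end Fermat.Agent.S58.Final
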