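/-
The mod `p` Galois representation `E[p]` of an elliptic curve over `ℚ` (integral model `W`,
`Δ ≠ 0`) on the Prelude's carrier `Submodule.torsionBy ℤ (EPt W) p` with the Prelude's
`galoisRepModuleEnd`: its characteristic polynomials are the reductions of those of the Tate
module.  Consequences (from S58-PREP: `TFrob`, `det = cyclotomic`):

* `finrank_torsion` : `E[p]` is two-dimensional over `ZMod p`;
* `charpoly_eq_map` : `charpoly (ρE g) = (charpoly (D.T.ρ g)).map toZMod` for every `g`;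
* `charpoly_frob`, `trace_frob`, `det_frob` : at a Frobenius lift at a good prime `ℓ ≠ p`,
  `charpoly = X² - a_ℓ X + ℓ`, `trace = a_ℓ`, `det = ℓ` (`a_ℓ = W.apOfModel ℓ`);
* `det_eq` : `det (ρE g)` is the mod `p` cyclotomic character;
* `det_involution` : `det (ρE c) = -1` for a non-trivial involution `c` (`p` odd);
* `cayley` : `g² - tr(g) g + det(g) = 0` on `E[p]`.
-/
import Mathlib
import Fermat.Agent.S58.Final

set_option autoImplicit false

namespace Fermat.Agent.S58.EpRep

open Polynomial WeierstrassCurve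
open scoped WeierstrassCurve.Affine

section Transfer

variable {p : ℕ} [Fact p.Prime]

/-- An additive map from a `ℤ_[p]`-module to a `ZMod p`-module killing `p T` is semilinear. -/
theorem map_smul_toZMod {T V : Type*} [AddCommGroup T] [Module ℤ_[p] T]
    [AddCommGroup V] [Module (ZMod p) V] (π : T →+ V)
    (hker : ∀ w : T, π ((p : ℤ_[p]) • w) = 0) (c : ℤ_[p]) (t : T) :
    π (c • t) = PadicInt.toZMod c • π t := by
  have hmem : c - ((PadicInt.toZMod c).val : ℤ_[p]) ∈ IsLocalRing.maximalIdeal ℤ_[p] := by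
    have h := PadicInt.toZMod_spec c
    have hcast : ((ZMod.cast (PadicInt.toZMod c) : ℤ_[p])) = ((PadicInt.toZMod c).val : ℤ_[p]) := by
      rw [ZMod.natCast_val]
    rw [hcast] at h
    exact h
  rw [PadicInt.maximalIdeal_eq_span_p, Ideal.mem_span_singleton] at hmem
  obtain ⟨c', hc'⟩ := hmem
  have hc : c = (p : ℤ_[p]) * c' + ((PadicInt.toZMod c).val : ℤ_[p]) := by
    rw [← hc']; ring
  have h1 : π (c • t) = π (((PadicInt.toZMod c).val : ℤ_[p]) • t) := by
    conv_lhs => rw [hc]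
    rw [add_smul, map_add, mul_smul, hker, zero_add]
  rw [h1, Nat.cast_smul_eq_nsmul, map_nsmul, ← Nat.cast_smul_eq_nsmul (ZMod p),
    ZMod.natCast_zmod_val]

/-- **Transfer of characteristic polynomials** along `T → T / p T ≅ V`. -/
theorem charpoly_transfer {T V : Type} [AddCommGroup T] [Module ℤ_[p] T]
    [Module.Free ℤ_[p] T] [Module.Finite ℤ_[p] T] (hT : Module.finrank ℤ_[p] T = 2)
    [AddCommGroup V] [Module (ZMod p) V] [Module.Finite (ZMod p) V]
    (hV : Module.finrank (ZMod p) V = 2)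
    (π : T →+ V) (hπ : Function.Surjective π) (hker : ∀ w : T, π ((p : ℤ_[p]) • w) = 0)
    (f : Module.End ℤ_[p] T) (g : Module.End (ZMod p) V) (hfg : ∀ t, π (f t) = g (π t)) :
    g.charpoly = f.charpoly.map (PadicInt.toZMod (p := p)) := by
  classical
  have hsemi := map_smul_toZMod π hker
  let b : Module.Basis (Fin 2) ℤ_[p] T := Module.finBasisOfFinrankEq ℤ_[p] T hT
  have hspan : ⊤ ≤ Submodule.span (ZMod p) (Set.range fun i => π (b i)) := by
    intro x _
    obtain ⟨t, rfl⟩ := hπ x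
    rw [← b.sum_repr t, map_sum]
    refine Submodule.sum_mem _ fun i _ => ?_
    rw [hsemi]
    exact Submodule.smul_mem _ _ (Submodule.subset_span ⟨i, rfl⟩)
  have hV' : Module.finrank (ZMod p) V = Fintype.card (Fin 2) := by rw [hV]; rfl
  let bv : Module.Basis (Fin 2) (ZMod p) V :=
    basisOfTopLeSpanOfCardEqFinrank (fun i => π (b i)) hspan hV'.symm
  have hbv : ∀ i, bv i = π (b i) := fun i => by
    simp only [bv, coe_basisOfTopLeSpanOfCardEqFinrank]
  have hmat : LinearMap.toMatrix bv bv g =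
      (LinearMap.toMatrix b b f).map (PadicInt.toZMod (p := p)) := by
    ext i j
    rw [LinearMap.toMatrix_apply, Matrix.map_apply]
    have h1 : g (bv j) = ∑ k, PadicInt.toZMod (LinearMap.toMatrix b b f k j) • bv k := by
      rw [hbv, ← hfg, ← b.sum_repr (f (b j)), map_sum]
      refine Finset.sum_congr rfl fun k _ => ?_
      rw [hsemi, hbv, LinearMap.toMatrix_apply]
    rw [h1, bv.repr_sum_self]
  rw [← LinearMap.charpoly_toMatrix g bv, hmat, Matrix.charpoly_map,
    LinearMap.charpoly_toMatrix f b]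

end Transfer

variable {W : WeierstrassCurve ℤ} {p : ℕ} [Fact p.Prime]

/-- `E[p]`, the Prelude's carrier. -/
abbrev Ep (W : WeierstrassCurve ℤ) (p : ℕ) : Type := Submodule.torsionBy ℤ (EPt W) p

/-- The mod `p` representation, the Prelude's `galoisRepModuleEnd`. -/
noncomputable abbrev rhoE (W : WeierstrassCurve ℤ) (p : ℕ) :
    GQ →* Module.End (ZMod p) (Ep W p) :=
  WeierstrassCurve.Affine.Point.galoisRepModuleEnd (K := Qb) ℚ (EQ W).toAffine p

omit [Fact p.Prime] in
theorem rhoE_apply (g : GQ) (x : Ep W p) : rhoE W p g x = g • x := rfl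

/-- The level-one map of a Tate datum, with values in `E[p]`. -/
noncomputable def piE (D : TateData W p) : D.T.V →+ Ep W p :=
  AddMonoidHom.mk' (fun t => ⟨D.π 1 t, by
    rw [Submodule.mem_torsionBy_iff, Nat.cast_smul_eq_nsmul]
    have := TLevelFrob.pow_nsmul_π D 1 t
    rwa [pow_one] at this⟩) (fun a b => Subtype.ext (by
      show D.π 1 (a + b) = D.π 1 a + D.π 1 b
      exact map_add _ _ _))

theorem piE_coe (D : TateData W p) (t : D.T.V) : ((piE D t : Ep W p) : EPt W) = D.π 1 t := rfl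

theorem piE_surjective (D : TateData W p) : Function.Surjective (piE D) := by
  intro x
  have hx : p ^ 1 • (x : EPt W) = 0 := by
    have := x.2
    rw [Submodule.mem_torsionBy_iff, Nat.cast_smul_eq_nsmul] at this
    rwa [pow_one]
  obtain ⟨t, ht⟩ := D.surj_π 1 (x : EPt W) hx
  exact ⟨t, Subtype.ext ht⟩

theorem piE_smul_p (D : TateData W p) (w : D.T.V) : piE D ((p : ℤ_[p]) • w) = 0 := by
  apply Subtype.ext
  rw [piE_coe]
  have := TLevelFrob.π_pow_smul D 1 w
  rwa [pow_one] at this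

theorem piE_rho (D : TateData W p) (g : GQ) (t : D.T.V) :
    piE D (D.T.ρ g t) = rhoE W p g (piE D t) := by
  apply Subtype.ext
  rw [piE_coe, D.equivariant g 1 t]
  rfl

/-- `E[p]` is two-dimensional over `ZMod p`. -/
theorem finrank_torsion (hΔ : W.Δ ≠ 0) : Module.finrank (ZMod p) (Ep W p) = 2 := by
  have hp : p.Prime := Fact.out
  have hcard : Nat.card (Ep W p) = p ^ 2 := by
    have h := Tate.card_tor W hΔ p hp 1
    rw [mul_one] at h
    rw [← h]
    refine Nat.card_congr ⟨fun x => ⟨(x : EPt W), ?_⟩, fun x => ⟨(x : EPt W), ?_⟩, fun _ => rfl,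
      fun _ => rfl⟩
    · rw [Tate.mem_tor, pow_one]
      have := x.2
      rwa [Submodule.mem_torsionBy_iff, Nat.cast_smul_eq_nsmul] at this
    · have := x.2
      rw [Tate.mem_tor, pow_one] at this
      rw [Submodule.mem_torsionBy_iff, Nat.cast_smul_eq_nsmul]
      exact this
  have hfin : Finite (Ep W p) :=
    Nat.finite_of_card_ne_zero (hcard ▸ pow_ne_zero 2 hp.pos.ne')
  have h := Module.natCard_eq_pow_finrank (K := ZMod p) (V := Ep W p)
  rw [hcard, Nat.card_zmod] at h
  exact (Nat.pow_right_injective hp.two_le h).symm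

/-- `E[p]` is a finite `ZMod p`-module (use as `haveI := finite_torsion hΔ`). -/
theorem finite_torsion (hΔ : W.Δ ≠ 0) : Module.Finite (ZMod p) (Ep W p) :=
  Module.finite_of_finrank_eq_succ (finrank_torsion hΔ)

/-- **Transfer**: the characteristic polynomial of `g` on `E[p]` is the reduction of that on the
Tate module. -/
theorem charpoly_eq_map [Module.Finite (ZMod p) (Ep W p)] (hΔ : W.Δ ≠ 0) (D : TateData W p)
    (g : GQ) :
    LinearMap.charpoly (rhoE W p g) =
      (LinearMap.charpoly (D.T.ρ g)).map (PadicInt.toZMod (p := p)) :=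
  charpoly_transfer D.T.finrank_eq (finrank_torsion hΔ) (piE D) (piE_surjective D)
    (piE_smul_p D) (D.T.ρ g) (rhoE W p g) (piE_rho D g)

/-- **The characteristic polynomial of Frobenius on `E[p]`** at a good prime `ℓ ≠ p`. -/
theorem charpoly_frob [Module.Finite (ZMod p) (Ep W p)] (hΔ : W.Δ ≠ 0) {ℓ : ℕ} (hℓ : ℓ.Prime)
    (hℓp : ℓ ≠ p)
    (hgood : ¬ (ℓ : ℤ) ∣ W.Δ) (A : ValuationSubring Qb) (hA : A.LiesOverPrime ℓ) (σ : GQ)
    (hσ : A.IsFrobeniusAt σ ℓ) :
    LinearMap.charpoly (rhoE W p σ) =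
      X ^ 2 - C ((W.apOfModel ℓ : ℤ) : ZMod p) * X + C ((ℓ : ℕ) : ZMod p) := by
  obtain ⟨D⟩ := Tate.tateExists W hΔ p
  rw [charpoly_eq_map hΔ D σ, FrobFinal.tFrob W p D ℓ hℓ hℓp hgood A hA σ hσ]
  rw [Polynomial.map_add, Polynomial.map_sub, Polynomial.map_mul, Polynomial.map_pow,
    Polynomial.map_X, Polynomial.map_C, Polynomial.map_C, map_intCast, map_natCast]

/-- Trace and determinant from a quadratic characteristic polynomial. -/
theorem trace_det_of_charpoly {k V : Type*} [Field k] [AddCommGroup V] [Module k V]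
    [Module.Finite k V] (hV : Module.finrank k V = 2) (f : Module.End k V) (a b : k)
    (h : f.charpoly = X ^ 2 - C a * X + C b) :
    LinearMap.trace k V f = a ∧ LinearMap.det f = b := by
  classical
  let bs : Module.Basis (Fin 2) k V := Module.finBasisOfFinrankEq k V hV
  rw [← LinearMap.charpoly_toMatrix f bs] at h
  have hM := Matrix.charpoly_fin_two (LinearMap.toMatrix bs bs f)
  rw [h] at hM
  have h1 := congrArg (fun q : k[X] => q.coeff 1) hM
  have h0 := congrArg (fun q : k[X] => q.coeff 0) hM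
  simp only [coeff_add, coeff_sub, coeff_C_mul, coeff_X_one, coeff_X_zero, coeff_C_zero,
    coeff_X_pow, mul_one, mul_zero] at h1 h0
  norm_num [coeff_C] at h1 h0
  refine ⟨?_, ?_⟩
  · rw [LinearMap.trace_eq_matrix_trace k bs f]
    exact h1.symm
  · exact h0.symm

/-- **Trace of Frobenius on `E[p]`** at a good prime `ℓ ≠ p`: it is `a_ℓ mod p`. -/
theorem trace_frob (hΔ : W.Δ ≠ 0) {ℓ : ℕ} (hℓ : ℓ.Prime) (hℓp : ℓ ≠ p)
    (hgood : ¬ (ℓ : ℤ) ∣ W.Δ) (A : ValuationSubring Qb) (hA : A.LiesOverPrime ℓ) (σ : GQ)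
    (hσ : A.IsFrobeniusAt σ ℓ) :
    LinearMap.trace (ZMod p) (Ep W p) (rhoE W p σ) = ((W.apOfModel ℓ : ℤ) : ZMod p) := by
  have := finite_torsion (p := p) hΔ
  exact (trace_det_of_charpoly (finrank_torsion hΔ) _ _ _
    (charpoly_frob hΔ hℓ hℓp hgood A hA σ hσ)).1

/-- **Determinant of Frobenius on `E[p]`** at a good prime `ℓ ≠ p`: it is `ℓ mod p`. -/
theorem det_frob (hΔ : W.Δ ≠ 0) {ℓ : ℕ} (hℓ : ℓ.Prime) (hℓp : ℓ ≠ p)
    (hgood : ¬ (ℓ : ℤ) ∣ W.Δ) (A : ValuationSubring Qb) (hA : A.LiesOverPrime ℓ) (σ : GQ)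
    (hσ : A.IsFrobeniusAt σ ℓ) :
    LinearMap.det (rhoE W p σ) = ((ℓ : ℕ) : ZMod p) := by
  have := finite_torsion (p := p) hΔ
  exact (trace_det_of_charpoly (finrank_torsion hΔ) _ _ _
    (charpoly_frob hΔ hℓ hℓp hgood A hA σ hσ)).2

/-- The determinant on `E[p]` is the reduction of the determinant on the Tate module. -/
theorem det_eq_toZMod (hΔ : W.Δ ≠ 0) (D : TateData W p) (g : GQ) :
    LinearMap.det (rhoE W p g) = PadicInt.toZMod (LinearMap.det (D.T.ρ g)) := by
  classical
  have := finite_torsion (p := p) hΔ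
  have h := charpoly_eq_map hΔ D g
  have h1 := LinearMap.det_eq_sign_charpoly_coeff (rhoE W p g)
  have h2 := LinearMap.det_eq_sign_charpoly_coeff (D.T.ρ g)
  rw [finrank_torsion hΔ] at h1
  rw [D.T.finrank_eq] at h2
  rw [h1, h2, h, Polynomial.coeff_map]
  simp

/-- **The determinant of `E[p]` is the mod `p` cyclotomic character.** -/
theorem det_eq (hΔ : W.Δ ≠ 0) (g : GQ) :
    LinearMap.det (rhoE W p g) =
      PadicInt.toZMod ((Fermat.Agent.ESJ.Rep.cyclo p g : ℤ_[p]ˣ) : ℤ_[p]) := by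
  obtain ⟨D⟩ := Tate.tateExists W hΔ p
  rw [det_eq_toZMod hΔ D g, DetCyclo.det_tate FrobFinal.tFrob D hΔ g]

/-- The determinant of a non-trivial involution on `E[p]` is `-1` (`p` odd). -/
theorem det_involution (hΔ : W.Δ ≠ 0) (hp2 : p ≠ 2) (c : GQ) (hc : c * c = 1) (hc1 : c ≠ 1) :
    LinearMap.det (rhoE W p c) = -1 := by
  obtain ⟨D⟩ := Tate.tateExists W hΔ p
  rw [det_eq_toZMod hΔ D c, DetCyclo.det_involution FrobFinal.tFrob D hΔ hp2 c hc hc1, map_neg,
    map_one]

/-- Cayley–Hamilton on `E[p]`: `g² - tr(g) g + det(g) = 0`. -/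
theorem cayley (hΔ : W.Δ ≠ 0) (g : GQ) (x : Ep W p) :
    rhoE W p g (rhoE W p g x) - LinearMap.trace (ZMod p) (Ep W p) (rhoE W p g) • rhoE W p g x +
      LinearMap.det (rhoE W p g) • x = 0 := by
  classical
  have hV := finrank_torsion (p := p) hΔ
  have : Module.Finite (ZMod p) (Ep W p) := finite_torsion hΔ
  let bs : Module.Basis (Fin 2) (ZMod p) (Ep W p) := Module.finBasisOfFinrankEq _ _ hV
  set f := rhoE W p g with hf
  have hCH := LinearMap.aeval_self_charpoly f
  rw [← LinearMap.charpoly_toMatrix f bs, Matrix.charpoly_fin_two,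
    ← LinearMap.trace_eq_matrix_trace (ZMod p) bs f, LinearMap.det_toMatrix bs f] at hCH
  have hx := congrArg (fun h : Module.End (ZMod p) (Ep W p) => h x) hCH
  simp only [map_add, map_sub, map_mul, aeval_X, aeval_C, LinearMap.add_apply,
    LinearMap.sub_apply, LinearMap.zero_apply, Module.End.mul_apply, Module.algebraMap_end_apply,
    pow_two] at hx
  exact hx

end Fermat.Agent.S58.EpRep
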