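import Mathlib

/-!
# S58-PREP: a continuous invariant function vanishing at the cusps attains its maximum

`exists_forall_le_of_subgroup_invariant` : a continuous function `P ≥ 0` on the upper half plane
which is invariant under a finite-index subgroup `Γ ≤ SL(2, ℤ)` and tends to `0` at every cusp
(`P (g • τ) → 0` as `im τ → ∞`, for every `g ∈ SL(2, ℤ)`) attains its maximum.

(Compactness of the truncated fundamental domain of `SL(2, ℤ)` and finiteness of `SL(2, ℤ) ⧸ Γ`.)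
-/

set_option autoImplicit false

open UpperHalfPlane Filter Topology
open scoped MatrixGroups Modular

namespace Fermat.Agent.S58.HeckeBound

/-- A continuous nonnegative function on `ℍ`, invariant under a finite-index subgroup of
`SL(2, ℤ)` and tending to `0` at all cusps, attains its maximum. -/
theorem exists_forall_le_of_subgroup_invariant {P : ℍ → ℝ} (hc : Continuous P)
    {Γ : Subgroup SL(2, ℤ)} [Γ.FiniteIndex] (hinv : ∀ g ∈ Γ, ∀ τ, P (g • τ) = P τ)
    (hzero : ∀ g : SL(2, ℤ), Tendsto (fun τ => P (g • τ)) atImInfty (𝓝 0))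
    (hnn : ∀ τ, 0 ≤ P τ) : ∃ z₀, ∀ τ, P τ ≤ P z₀ := by
  by_cases hpos : ∃ τ₁, 0 < P τ₁
  swap
  · push Not at hpos
    exact ⟨UpperHalfPlane.I, fun τ => (hpos τ).trans (hnn _)⟩
  obtain ⟨τ₁, hτ₁⟩ := hpos
  -- the function on the quotient
  let P' : ℍ → SL(2, ℤ) ⧸ Γ → ℝ := fun τ =>
    Quotient.lift (fun g : SL(2, ℤ) => P (g⁻¹ • τ)) fun g h hgh => by
      obtain ⟨j, hj, hj'⟩ : ∃ j ∈ Γ, h = g * j := by
        rw [← Quotient.eq_iff_equiv, Quotient.eq, QuotientGroup.leftRel_apply] at hgh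
        exact ⟨g⁻¹ * h, hgh, (mul_inv_cancel_left g h).symm⟩
      show P (g⁻¹ • τ) = P (h⁻¹ • τ)
      rw [hj', mul_inv_rev, mul_smul, hinv j⁻¹ (inv_mem hj)]
  have hP'mk : ∀ (τ : ℍ) (g : SL(2, ℤ)), P' τ (QuotientGroup.mk g) = P (g⁻¹ • τ) :=
    fun τ g => rfl
  have hP'cont : ∀ γ : SL(2, ℤ) ⧸ Γ, Continuous (fun τ => P' τ γ) := by
    intro γ
    induction γ using QuotientGroup.induction_on with
    | H g =>
      show Continuous fun τ => P (g⁻¹ • τ)
      simp only [ModularGroup.sl_moeb]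
      fun_prop
  have hP'zero : ∀ γ : SL(2, ℤ) ⧸ Γ, Tendsto (fun τ => P' τ γ) atImInfty (𝓝 0) := by
    intro γ
    induction γ using QuotientGroup.induction_on with
    | H g => exact hzero g⁻¹
  have hP'smul : ∀ (τ : ℍ) (g : SL(2, ℤ)), P' (g • τ) (QuotientGroup.mk g) = P τ := by
    intro τ g
    rw [hP'mk, inv_smul_smul]
  have : Fintype (SL(2, ℤ) ⧸ Γ) := Subgroup.fintypeQuotientOfFiniteIndex
  -- beyond height `y`, every translate is smaller than `P τ₁`
  have hev : ∀ᶠ τ in atImInfty, ∀ γ : SL(2, ℤ) ⧸ Γ, P' τ γ < P τ₁ :=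
    Filter.eventually_all.2 fun γ => (hP'zero γ).eventually_lt_const hτ₁
  obtain ⟨y, hy⟩ := (atImInfty_mem _).1 hev
  set K := ModularGroup.truncatedFundamentalDomain y with hK
  have hKc : IsCompact K := ModularGroup.isCompact_truncatedFundamentalDomain y
  -- `K` is nonempty
  obtain ⟨g₁, hg₁⟩ := ModularGroup.exists_smul_mem_fd τ₁
  have hw₁ : g₁ • τ₁ ∈ K := by
    refine ⟨hg₁, ?_⟩
    by_contra hlt
    push Not at hlt
    have h1 := hy (g₁ • τ₁) hlt.le (QuotientGroup.mk g₁)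
    rw [hP'smul] at h1
    exact lt_irrefl _ h1
  have hKne : K.Nonempty := ⟨_, hw₁⟩
  -- maxima on `K` of the translates
  have hmax : ∀ γ : SL(2, ℤ) ⧸ Γ, ∃ x ∈ K, ∀ τ ∈ K, P' τ γ ≤ P' x γ := by
    intro γ
    obtain ⟨x, hx, hxmax⟩ := hKc.exists_isMaxOn hKne (hP'cont γ).continuousOn
    exact ⟨x, hx, fun τ hτ => hxmax hτ⟩
  choose x hxK hxmax using hmax
  obtain ⟨γ₀, -, hγ₀⟩ := Finset.exists_max_image (Finset.univ : Finset (SL(2, ℤ) ⧸ Γ))
    (fun γ => P' (x γ) γ) ⟨QuotientGroup.mk 1, Finset.mem_univ _⟩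
  obtain ⟨g₀, rfl⟩ := QuotientGroup.mk_surjective γ₀
  refine ⟨g₀⁻¹ • x (QuotientGroup.mk g₀), fun τ => ?_⟩
  rw [← hP'mk]
  obtain ⟨g, hg⟩ := ModularGroup.exists_smul_mem_fd τ
  rw [← hP'smul τ g]
  by_cases hh : y ≤ (g • τ).im
  · have h1 := hy (g • τ) hh (QuotientGroup.mk g)
    have h2 : P τ₁ ≤ P' (x (QuotientGroup.mk g₁)) (QuotientGroup.mk g₁) := by
      rw [← hP'smul τ₁ g₁]
      exact hxmax _ _ hw₁
    exact h1.le.trans (h2.trans (hγ₀ _ (Finset.mem_univ _)))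
  · push Not at hh
    have hmem : g • τ ∈ K := ⟨hg, hh.le⟩
    exact (hxmax _ _ hmem).trans (hγ₀ _ (Finset.mem_univ _))

end Fermat.Agent.S58.HeckeBound
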