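import Mathlib
import Fermat.Prelude.Def_ModularForm_HeckeOperator
import Fermat.Prelude.Def_FLTPrelim_Modularity
import Fermat.Agent.S58.MaxAttained

/-!
# S58-PREP: the strict Hecke bound `|a_q| < q + 1` for weight-2 cusp forms (function level)

`norm_lt_of_heckeT_eq_smul` : let `f ≠ 0` be a cusp form of weight `2` on `Γ₀(N)` and `q ≥ 2`.
If `T_q f = a • f` (as functions on the upper half plane; `T_q` = the Prelude operator
`ModularForm.heckeT 2 q`, the sum of the `q + 1` slashes), then `‖a‖ < q + 1`.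

Proof: `F(z) = ‖f z‖ · im z` is `Γ₀(N)`-invariant and tends to `0` at every cusp, so it attains
its maximum `m > 0` at some `z₀` (`MaxAttained`).  The `q + 1` terms of `T_q` give
`‖a‖ F(z) ≤ F(q z) + ∑_{b < q} F((z + b) / q)`; if `‖a‖ ≥ q + 1` this forces `F(q z) = m`
whenever `F(z) = m`, hence `F(q ^ k z₀) = m` for all `k`, contradicting `F → 0` at `i∞`.
-/

set_option autoImplicit false

open UpperHalfPlane Filter Topology ModularForm CongruenceSubgroup
open scoped MatrixGroups Modular ComplexConjugate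

noncomputable section

namespace Fermat.Agent.S58.HeckeBound

/-- `F(τ) = ‖f τ‖ · im τ`. -/
def pet (f : ℍ → ℂ) (τ : ℍ) : ℝ := ‖f τ‖ * τ.im

theorem pet_nonneg (f : ℍ → ℂ) (τ : ℍ) : 0 ≤ pet f τ :=
  mul_nonneg (norm_nonneg _) τ.im_pos.le

theorem pet_sq (f : ℍ → ℂ) (τ : ℍ) : pet f τ ^ 2 = ‖petersson 2 f f τ‖ := by
  unfold pet petersson
  rw [norm_mul, norm_mul, Complex.norm_conj, norm_zpow, Complex.norm_real,
    Real.norm_of_nonneg τ.im_pos.le]
  norm_cast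
  ring

theorem pet_le_of_sq_le {f : ℍ → ℂ} {τ z : ℍ}
    (h : ‖petersson 2 f f τ‖ ≤ ‖petersson 2 f f z‖) : pet f τ ≤ pet f z := by
  rw [← pet_sq, ← pet_sq] at h
  exact (sq_le_sq₀ (pet_nonneg f τ) (pet_nonneg f z)).1 h

variable {N : ℕ} [NeZero N]

open ConjAct Pointwise in
/-- The Petersson function of a cusp form on `Γ₀(N)` tends to `0` at every cusp. -/
theorem tendsto_petersson_smul (f : CuspForm (Gamma0 N) 2) (g : SL(2, ℤ)) :
    Tendsto (fun τ : ℍ => ‖petersson 2 f f (g • τ)‖) atImInfty (𝓝 0) := by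
  rw [← tendsto_zero_iff_norm_tendsto_zero]
  simp_rw [← UpperHalfPlane.petersson_slash_SL]
  have : ((toConjAct (g : GL (Fin 2) ℝ)⁻¹) •
      ((Gamma0 N : Subgroup SL(2, ℤ)) : Subgroup (GL (Fin 2) ℝ))).IsArithmetic := by
    simpa [(show Rat.castHom ℝ = algebraMap ℚ ℝ by rfl), map_inv,
      Matrix.SpecialLinearGroup.map_mapGL]
      using! Subgroup.IsArithmetic.conj
        ((Gamma0 N : Subgroup SL(2, ℤ)) : Subgroup (GL (Fin 2) ℝ))
        (Matrix.SpecialLinearGroup.mapGL ℚ g)⁻¹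
  exact (CuspFormClass.zero_at_infty <| CuspForm.translate f g).petersson_isZeroAtImInfty_left 2 _
    (ModularForm.translate f g)

/-- `F = ‖f‖ · im` attains its maximum, for a cusp form `f` of weight `2` on `Γ₀(N)`. -/
theorem exists_forall_pet_le (f : CuspForm (Gamma0 N) 2) : ∃ z₀ : ℍ, ∀ τ, pet f τ ≤ pet f z₀ := by
  obtain ⟨z₀, hz₀⟩ := exists_forall_le_of_subgroup_invariant
    (P := fun τ : ℍ => ‖petersson 2 f f τ‖) (Γ := Gamma0 N)
    (by fun_prop)
    (fun g hg τ => SlashInvariantFormClass.norm_petersson_smul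
      (Γ := ((Gamma0 N : Subgroup SL(2, ℤ)) : Subgroup (GL (Fin 2) ℝ)))
      (Subgroup.mem_map_of_mem _ hg))
    (fun g => tendsto_petersson_smul f g) (fun τ => norm_nonneg _)
  exact ⟨z₀, fun τ => pet_le_of_sq_le (hz₀ τ)⟩

/-! ### The Hecke inequality -/

omit [NeZero N] in
theorem im_heckeMatrix_smul {q : ℕ} (hq : q ≠ 0) (j : ℕ) (τ : ℍ) :
    (heckeMatrix q j • τ).im = τ.im / q := by
  have h := congrArg Complex.im (coe_heckeMatrix_smul hq j τ)
  rw [UpperHalfPlane.coe_im] at h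
  rw [h]
  simp [Complex.div_natCast_im]

omit [NeZero N] in
theorem im_heckeDiagMatrix_smul {q : ℕ} (hq : q ≠ 0) (τ : ℍ) :
    (heckeDiagMatrix q • τ).im = q * τ.im := by
  have h := congrArg Complex.im (coe_heckeDiagMatrix_smul hq τ)
  rw [UpperHalfPlane.coe_im] at h
  rw [h]
  simp

omit [NeZero N] in
/-- `‖a‖ F(z) ≤ ∑_{b < q} F((z + b) / q) + F(q z)` for a `T_q`-eigenfunction of weight `2`. -/
theorem norm_mul_pet_le {f : ℍ → ℂ} {q : ℕ} (hq : q ≠ 0) {a : ℂ}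
    (h : ModularForm.heckeT 2 q f = a • f) (τ : ℍ) :
    ‖a‖ * pet f τ ≤
      ∑ j ∈ Finset.range q, pet f (heckeMatrix q j • τ) + pet f (heckeDiagMatrix q • τ) := by
  have h1 := congrFun h τ
  rw [heckeT_eq_heckeU_add, Pi.add_apply, heckeU_apply 2 hq, slash_heckeDiagMatrix_apply 2 hq,
    Pi.smul_apply, smul_eq_mul] at h1
  have hq0 : (0 : ℝ) < q := by exact_mod_cast Nat.pos_of_ne_zero hq
  have hq0' : (q : ℝ) ≠ 0 := hq0.ne'
  have him := τ.im_pos
  have e1 : ‖(q : ℂ)⁻¹ * ∑ j ∈ Finset.range q, f (heckeMatrix q j • τ)‖ ≤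
      (q : ℝ)⁻¹ * ∑ j ∈ Finset.range q, ‖f (heckeMatrix q j • τ)‖ := by
    rw [norm_mul, norm_inv, Complex.norm_natCast]
    exact mul_le_mul_of_nonneg_left (norm_sum_le _ _) (inv_nonneg.2 hq0.le)
  have e2 : ‖(q : ℂ) ^ ((2 : ℤ) - 1) * f (heckeDiagMatrix q • τ)‖ =
      q * ‖f (heckeDiagMatrix q • τ)‖ := by
    rw [norm_mul]
    norm_num
  calc ‖a‖ * pet f τ = ‖a * f τ‖ * τ.im := by
        unfold pet
        rw [norm_mul]
        ring
    _ = ‖(q : ℂ)⁻¹ * ∑ j ∈ Finset.range q, f (heckeMatrix q j • τ) +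
          (q : ℂ) ^ ((2 : ℤ) - 1) * f (heckeDiagMatrix q • τ)‖ * τ.im := by rw [h1]
    _ ≤ ((q : ℝ)⁻¹ * ∑ j ∈ Finset.range q, ‖f (heckeMatrix q j • τ)‖ +
          q * ‖f (heckeDiagMatrix q • τ)‖) * τ.im := by
        apply mul_le_mul_of_nonneg_right _ him.le
        exact (norm_add_le _ _).trans (add_le_add e1 e2.le)
    _ = ∑ j ∈ Finset.range q, pet f (heckeMatrix q j • τ) + pet f (heckeDiagMatrix q • τ) := by
        unfold pet
        simp_rw [im_heckeMatrix_smul hq, im_heckeDiagMatrix_smul hq]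
        rw [add_mul, Finset.mul_sum, Finset.sum_mul]
        congr 1
        · apply Finset.sum_congr rfl
          intro j _
          field_simp
        · ring

/-! ### The strict bound -/

/-- **The strict Hecke bound**: an eigenvalue `a` of `T_q` (`q ≥ 2`) on a nonzero cusp form of
weight `2` on `Γ₀(N)` satisfies `‖a‖ < q + 1`. -/
theorem norm_lt_of_heckeT_eq_smul (f : CuspForm (Gamma0 N) 2) (hf : f ≠ 0) {q : ℕ} (hq : 2 ≤ q)
    (a : ℂ) (h : ModularForm.heckeT 2 q ⇑f = a • ⇑f) : ‖a‖ < q + 1 := by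
  by_contra hcon
  push Not at hcon
  have hq0 : q ≠ 0 := by omega
  obtain ⟨z₀, hz₀⟩ := exists_forall_pet_le f
  -- the maximum is positive
  have hm : 0 < pet (⇑f) z₀ := by
    obtain ⟨τ, hτ⟩ : ∃ τ, f τ ≠ 0 := by
      by_contra hall
      push Not at hall
      exact hf (DFunLike.ext _ _ (fun τ => by simpa using hall τ))
    exact lt_of_lt_of_le (mul_pos (norm_pos_iff.2 hτ) τ.im_pos) (hz₀ τ)
  -- the set of maximum points is stable under `z ↦ q z`
  have hstep : ∀ z : ℍ, pet (⇑f) z = pet (⇑f) z₀ →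
      pet (⇑f) (heckeDiagMatrix q • z) = pet (⇑f) z₀ := by
    intro z hz
    have h1 := norm_mul_pet_le hq0 h z
    have h2 : ∑ j ∈ Finset.range q, pet (⇑f) (heckeMatrix q j • z) ≤ q * pet (⇑f) z₀ := by
      calc ∑ j ∈ Finset.range q, pet (⇑f) (heckeMatrix q j • z)
          ≤ ∑ j ∈ Finset.range q, pet (⇑f) z₀ := Finset.sum_le_sum fun j _ => hz₀ _
        _ = q * pet (⇑f) z₀ := by simp
    have h3 : ((q : ℝ) + 1) * pet (⇑f) z₀ ≤ ‖a‖ * pet (⇑f) z := by
      rw [hz]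
      exact mul_le_mul_of_nonneg_right hcon hm.le
    have h4 : pet (⇑f) z₀ ≤ pet (⇑f) (heckeDiagMatrix q • z) := by linarith
    exact le_antisymm (hz₀ _) h4
  have hiter : ∀ k : ℕ, ∃ z : ℍ, pet (⇑f) z = pet (⇑f) z₀ ∧ z.im = (q : ℝ) ^ k * z₀.im := by
    intro k
    induction k with
    | zero => exact ⟨z₀, rfl, by simp⟩
    | succ k ih =>
      obtain ⟨z, hz, him⟩ := ih
      refine ⟨heckeDiagMatrix q • z, hstep z hz, ?_⟩
      rw [im_heckeDiagMatrix_smul hq0, him, pow_succ]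
      ring
  -- decay at `i∞`
  have hzero := tendsto_petersson_smul f 1
  simp only [one_smul] at hzero
  have hev : ∀ᶠ τ in atImInfty, ‖petersson 2 (⇑f) (⇑f) τ‖ < pet (⇑f) z₀ ^ 2 :=
    hzero.eventually_lt_const (by positivity)
  obtain ⟨A, hA⟩ := (atImInfty_mem _).1 hev
  obtain ⟨k, hk⟩ : ∃ k : ℕ, A ≤ (q : ℝ) ^ k * z₀.im := by
    have hq1 : (1 : ℝ) < q := by exact_mod_cast hq
    obtain ⟨k, hk⟩ := pow_unbounded_of_one_lt (A / z₀.im) hq1
    exact ⟨k, by rw [div_lt_iff₀ z₀.im_pos] at hk; exact hk.le⟩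
  obtain ⟨z, hz, him⟩ := hiter k
  have h5 : ‖petersson 2 (⇑f) (⇑f) z‖ < pet (⇑f) z₀ ^ 2 := hA z (by rw [him]; exact hk)
  rw [← pet_sq, hz] at h5
  exact lt_irrefl _ h5

end Fermat.Agent.S58.HeckeBound
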