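import Mathlib
import Fermat.Agent.S58.HeckeBound
import Fermat.Agent.S49.Forms

/-!
# S58-PREP: `|a_q(f)| < q + 1` for a normalized eigenform `f` of weight `2` and a prime `q ∤ N`

* `heckeTLin_eq_qCoeff_smul` : a normalized eigenform (Prelude `CuspForm.IsNormalizedEigenform`,
  a condition on `q`-coefficients) of level `N` is an eigenvector of `T_q`, `q ∤ N` prime, with
  eigenvalue `a_q`;
* `norm_qCoeff_prime_lt` : `‖a_q(f)‖ < q + 1`;
* `qCoeff_prime_ne` : `a_q(f) ≠ q + 1` and `a_q(f) ≠ -(q + 1)`.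
-/

set_option autoImplicit false

open UpperHalfPlane ModularForm CongruenceSubgroup ModularFormClass
open scoped MatrixGroups

noncomputable section

namespace Fermat.Agent.S58.HeckeBound

variable {N : ℕ}

/-- A normalized eigenform of level `N` is a `T_q`-eigenvector with eigenvalue `a_q`, for every
prime `q ∤ N`. -/
theorem heckeTLin_eq_qCoeff_smul {f : CuspForm (Gamma0 N) 2} (hf : f.IsNormalizedEigenform)
    {q : ℕ} (hq : q.Prime) (hqN : ¬ q ∣ N) :
    CuspForm.heckeTLin 2 hq hqN f = qCoeff (⇑f) q • f := by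
  apply Fermat.Agent.S49.ext_qCoeff
  intro n
  rw [Fermat.Agent.S49.qCoeff_heckeT hq hqN f n, Fermat.Agent.S49.qCoeff_smul]
  have hq1 : (q : ℂ) ^ ((2 : ℤ) - 1) = q := by norm_num
  rw [hq1]
  rcases Nat.eq_zero_or_pos n with rfl | hn
  · simp [Fermat.Agent.S49.qCoeff_zero_eq]
  obtain ⟨r, m, hm, rfl⟩ : ∃ r m, ¬ q ∣ m ∧ n = q ^ r * m :=
    Nat.exists_eq_pow_mul_and_not_dvd hn.ne' q hq.ne_one
  have hcop : q.Coprime m := (Nat.Prime.coprime_iff_not_dvd hq).2 hm
  rcases r with _ | s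
  · rw [pow_zero, one_mul, if_neg hm, add_zero, hf.qCoeff_mul_of_coprime m q hcop.symm, mul_comm]
  · have hdvd : q ∣ q ^ (s + 1) * m := Dvd.dvd.mul_right (dvd_pow_self q (Nat.succ_ne_zero s)) m
    rw [if_pos hdvd]
    have e1 : q ^ (s + 1) * m * q = q ^ (s + 2) * m := by ring
    have e2 : q ^ (s + 1) * m / q = q ^ s * m := by
      rw [pow_succ, mul_assoc, mul_comm q m, ← mul_assoc]
      exact Nat.mul_div_cancel _ hq.pos
    rw [e1, e2, hf.qCoeff_mul_of_coprime _ _ (Nat.Coprime.pow_left (s + 2) hcop),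
      hf.qCoeff_mul_of_coprime _ _ (Nat.Coprime.pow_left s hcop),
      hf.qCoeff_mul_of_coprime _ _ (Nat.Coprime.pow_left (s + 1) hcop),
      hf.qCoeff_prime_pow_of_not_dvd q s hq hqN]
    ring

/-- Function-level form: `T_q f = a_q • f`. -/
theorem heckeT_eq_qCoeff_smul {f : CuspForm (Gamma0 N) 2} (hf : f.IsNormalizedEigenform)
    {q : ℕ} (hq : q.Prime) (hqN : ¬ q ∣ N) :
    ModularForm.heckeT 2 q (⇑f) = qCoeff (⇑f) q • (⇑f : ℍ → ℂ) := by
  rw [← CuspForm.coe_heckeTLin_apply 2 hq hqN f, heckeTLin_eq_qCoeff_smul hf hq hqN]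
  rfl

/-- A normalized eigenform is nonzero. -/
theorem ne_zero_of_isNormalizedEigenform {f : CuspForm (Gamma0 N) 2}
    (hf : f.IsNormalizedEigenform) : f ≠ 0 := by
  rintro rfl
  have h1 := hf.qCoeff_one
  have h2 := Fermat.Agent.S49.qCoeff_smul (0 : ℂ) (0 : CuspForm (Gamma0 N) 2) 1
  rw [zero_smul, zero_mul] at h2
  rw [h2] at h1
  exact zero_ne_one h1

/-- **The strict Hecke bound for normalized eigenforms**: `‖a_q(f)‖ < q + 1` for every prime
`q ∤ N`. -/
theorem norm_qCoeff_prime_lt [NeZero N] {f : CuspForm (Gamma0 N) 2}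
    (hf : f.IsNormalizedEigenform) {q : ℕ} (hq : q.Prime) (hqN : ¬ q ∣ N) :
    ‖qCoeff (⇑f) q‖ < q + 1 :=
  norm_lt_of_heckeT_eq_smul f (ne_zero_of_isNormalizedEigenform hf) hq.two_le _
    (heckeT_eq_qCoeff_smul hf hq hqN)

/-- `a_q(f) ≠ ±(q + 1)` for a normalized eigenform `f` of level `N` and a prime `q ∤ N`. -/
theorem qCoeff_prime_ne [NeZero N] {f : CuspForm (Gamma0 N) 2}
    (hf : f.IsNormalizedEigenform) {q : ℕ} (hq : q.Prime) (hqN : ¬ q ∣ N) :
    qCoeff (⇑f) q ≠ (q : ℂ) + 1 ∧ qCoeff (⇑f) q ≠ -((q : ℂ) + 1) := by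
  have h := norm_qCoeff_prime_lt hf hq hqN
  have hn : ‖(q : ℂ) + 1‖ = (q : ℝ) + 1 := by
    have : ((q : ℂ) + 1) = (((q : ℝ) + 1 : ℝ) : ℂ) := by push_cast; rfl
    rw [this, Complex.norm_real, Real.norm_of_nonneg (by positivity)]
  constructor
  · intro e
    rw [e, hn] at h
    exact lt_irrefl _ h
  · intro e
    rw [e, norm_neg, hn] at h
    exact lt_irrefl _ h

end Fermat.Agent.S58.HeckeBound
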