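/-
S58-PREP row 379 (MOD), brick (CHIG): `chigExists : ChigExists` — the eigencharacter of a
normalized eigenform on every `heckeAlgebra M 2 S` (restriction of the ESJ eigencharacter of the
full Hecke algebra), with integral values.
-/
import Fermat.Agent.S58.Interfaces
import Fermat.Agent.ESJ.Rep.EigChar

set_option autoImplicit false

namespace Fermat.Agent.S58.Mod

open Fermat.Agent.S58 Fermat.Agent.ESJ.Rep CongruenceSubgroup

/-- The eigencharacter of a normalized eigenform on `heckeAlgebra M 2 S`. -/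
noncomputable def chigOf {M : ℕ} [NeZero M] {g : CuspForm (Gamma0 M) 2}
    (hg : g.IsNormalizedEigenform) (S : Set ℕ) : CuspForm.heckeAlgebra M 2 S →+* ℂ :=
  (EigChar.chiC hg).comp
    (Subalgebra.inclusion (CuspForm.heckeAlgebra_mono (N := M) (k := 2)
      (Set.empty_subset S))).toRingHom

theorem chigOf_apply {M : ℕ} [NeZero M] {g : CuspForm (Gamma0 M) 2}
    (hg : g.IsNormalizedEigenform) (S : Set ℕ) (t : CuspForm.heckeAlgebra M 2 S) :
    chigOf hg S t = EigChar.chiC hg
      (Subalgebra.inclusion (CuspForm.heckeAlgebra_mono (N := M) (k := 2)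
        (Set.empty_subset S)) t) := rfl

theorem chigOf_T {M : ℕ} [NeZero M] {g : CuspForm (Gamma0 M) 2}
    (hg : g.IsNormalizedEigenform) (S : Set ℕ) {ℓ : ℕ} (hℓ : ℓ.Prime) (hℓM : ¬ ℓ ∣ M)
    (hℓS : ℓ ∉ S) :
    chigOf hg S (CuspForm.heckeAlgebra.T hℓ hℓM hℓS) = ModularFormClass.qCoeff g ℓ := by
  rw [chigOf_apply]
  exact EigChar.chiC_T hg hℓ hℓM

theorem chigOf_U {M : ℕ} [NeZero M] {g : CuspForm (Gamma0 M) 2}
    (hg : g.IsNormalizedEigenform) (S : Set ℕ) {q : ℕ} (hq : q.Prime) (hqM : q ∣ M)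
    (hqS : q ∉ S) :
    chigOf hg S (CuspForm.heckeAlgebra.U hq hqM hqS) = ModularFormClass.qCoeff g q := by
  rw [chigOf_apply]
  exact EigChar.chiC_U hg hq hqM

theorem isIntegral_chigOf {M : ℕ} [NeZero M] {g : CuspForm (Gamma0 M) 2}
    (hg : g.IsNormalizedEigenform) (S : Set ℕ) (t : CuspForm.heckeAlgebra M 2 S) :
    IsIntegral ℤ (chigOf hg S t) := by
  rw [chigOf_apply]
  exact EigChar.isIntegral_chiC hg _

/-- **(CHIG)** the eigencharacter of a normalized eigenform on every `heckeAlgebra M 2 S`; its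
values are algebraic integers. -/
theorem chigExists : ChigExists := by
  intro M _ g hg S
  exact ⟨chigOf hg (↑S : Set ℕ), fun ℓ hℓ hℓM hℓS => chigOf_T hg _ hℓ hℓM hℓS,
    fun x => isIntegral_chigOf hg _ x⟩

end Fermat.Agent.S58.Mod
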