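/-
S58-PREP row 375 (MU), half "NF-REACH" (helper84): **an integral change of variables to the nodal
normal form at a multiplicative prime.**

`exists_nf` : for an integral Weierstrass model `W` with `Δ ≠ 0`, `q ∣ Δ`, `q ∤ c₄`, and a
valuation subring `A` of `ℚ̄` over `q`, there is a change of variables `C = (1, r, s, t)` with
`r, s, t ∈ A` such that `C • W_ℚ̄` is in the normal form `y² + a₁ x y = x³ + a₄ x` with `a₁` a unit
of `A`, `a₄` a nonzero nonunit.  Every residue characteristic, including `2` and `3`.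

Method (no reduction theory): with `f = 4x³ + b₂x² + 2b₄x + b₆` (the `2`-division polynomial),
`16 Δ = f'(α)² · (b₂² - 8 b₂ α - 48 α² - 32 b₄)` at every root `α` of `f`.  We find an integral
root `α` with `|f'(α)| < |4|` (`exists_good_root`), translate the `2`-torsion point
`T = (α, -(a₁ α + a₃)/2)` to the origin (then `a₃ = a₆ = 0` and `a₄ = f'(α)/4`), and remove `a₂`
by `y ↦ y + s x`, `s² + a₁ s = a₂ + 3 α`.
-/
import Mathlib
import Fermat.Agent.S58.Interfaces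
import Fermat.Agent.EC.NF.Basic

set_option autoImplicit false

namespace Fermat.Agent.S58.MultNF

open WeierstrassCurve

/-! ### Roots in an algebraically closed field -/

section Roots

variable {K : Type*} [Field K] [IsAlgClosed K]

theorem exists_cubic_root (a b c d : K) (ha : a ≠ 0) :
    ∃ x : K, a * x ^ 3 + b * x ^ 2 + c * x + d = 0 := by
  obtain ⟨x, hx⟩ := IsAlgClosed.exists_root
    (Polynomial.C a * Polynomial.X ^ 3 + Polynomial.C b * Polynomial.X ^ 2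
      + Polynomial.C c * Polynomial.X + Polynomial.C d)
    (by rw [Polynomial.degree_cubic ha]; norm_num)
  refine ⟨x, ?_⟩
  simpa [Polynomial.IsRoot.def] using hx

theorem exists_quadratic_root (a b c : K) (ha : a ≠ 0) :
    ∃ x : K, a * x ^ 2 + b * x + c = 0 := by
  obtain ⟨x, hx⟩ := IsAlgClosed.exists_root
    (Polynomial.C a * Polynomial.X ^ 2 + Polynomial.C b * Polynomial.X + Polynomial.C c)
    (by rw [Polynomial.degree_quadratic ha]; norm_num)
  refine ⟨x, ?_⟩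
  simpa [Polynomial.IsRoot.def] using hx

end Roots

/-! ### Valuation-ring lemmas -/

section Val

variable {K : Type*} [Field K] (A : ValuationSubring K)

theorem val_mul_lt_one {x y : K} (hx : A.valuation x < 1) (hy : y ∈ A) :
    A.valuation (x * y) < 1 := by
  rw [map_mul]
  exact mul_lt_one_of_lt_of_le hx ((A.valuation_le_one_iff y).mpr hy)

theorem val_inv_lt_one {x : K} (hx : x ∉ A) : A.valuation x⁻¹ < 1 := by
  rw [← A.valuation_le_one_iff, not_le] at hx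
  rw [map_inv₀]
  exact inv_lt_one_of_one_lt₀ hx

theorem ne_zero_of_notMem {x : K} (hx : x ∉ A) : x ≠ 0 := fun h => hx (h ▸ A.zero_mem)

theorem mem_of_val_lt_one {x : K} (hx : A.valuation x < 1) : x ∈ A :=
  (A.valuation_le_one_iff x).mp hx.le

theorem val_eq_one_of_not_lt {x : K} (hx : x ∈ A) (h : ¬ A.valuation x < 1) :
    A.valuation x = 1 :=
  le_antisymm ((A.valuation_le_one_iff x).mpr hx) (not_lt.mp h)

/-- A root of a monic quadratic with coefficients in `A` lies in `A`. -/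
theorem mem_of_quadratic {x c₁ c₀ : K} (h₁ : c₁ ∈ A) (h₀ : c₀ ∈ A)
    (h : x ^ 2 + c₁ * x + c₀ = 0) : x ∈ A := by
  by_contra hx
  have hy := val_inv_lt_one A hx
  have hx0 := ne_zero_of_notMem A hx
  have e : (1 : K) = x⁻¹ * (-(c₁ + c₀ * x⁻¹)) := by
    field_simp
    linear_combination h
  have h1 : A.valuation (1 : K) < 1 := by
    rw [e]
    exact val_mul_lt_one A hy (neg_mem (add_mem h₁ (mul_mem h₀ (mem_of_val_lt_one A hy))))
  rw [map_one] at h1
  exact lt_irrefl _ h1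

/-- A root of a cubic with unit leading coefficient and coefficients in `A` lies in `A`. -/
theorem mem_of_cubic {x c₃ c₂ c₁ c₀ : K} (h₃ : A.valuation c₃ = 1) (h₂ : c₂ ∈ A) (h₁ : c₁ ∈ A)
    (h₀ : c₀ ∈ A) (h : c₃ * x ^ 3 + c₂ * x ^ 2 + c₁ * x + c₀ = 0) : x ∈ A := by
  by_contra hx
  have hy := val_inv_lt_one A hx
  have hx0 := ne_zero_of_notMem A hx
  have hyA := mem_of_val_lt_one A hy
  have e : c₃ = x⁻¹ * (-(c₂ + c₁ * x⁻¹ + c₀ * x⁻¹ ^ 2)) := by
    field_simp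
    linear_combination h
  have h1 : A.valuation c₃ < 1 := by
    rw [e]
    exact val_mul_lt_one A hy (neg_mem (add_mem (add_mem h₂ (mul_mem h₁ hyA))
      (mul_mem h₀ (pow_mem hyA 2))))
  rw [h₃] at h1
  exact lt_irrefl _ h1

end Val

/-! ### A good root of the `2`-division polynomial -/

section Good

variable {K : Type*} [Field K] [IsAlgClosed K] (A : ValuationSubring K)

/-- **An integral root `α` of `f = 4x³ + b₂x² + 2b₄x + b₆` with `|f'(α)| < |4|`**, when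
`|Δ| < 1`, `|c₄| = 1` and `16 Δ = f'(α)² (b₂² - 8 b₂ α - 48 α² - 32 b₄)` at the roots of `f`. -/
theorem exists_good_root (b₂ b₄ b₆ Δ : K) (h2 : (2 : K) ≠ 0)
    (hb₂ : b₂ ∈ A) (hb₄ : b₄ ∈ A) (hb₆ : b₆ ∈ A)
    (hΔ : ∀ α : K, 4 * α ^ 3 + b₂ * α ^ 2 + 2 * b₄ * α + b₆ = 0 →
      16 * Δ = (12 * α ^ 2 + 2 * b₂ * α + 2 * b₄) ^ 2 *
        (b₂ ^ 2 - 8 * b₂ * α - 48 * α ^ 2 - 32 * b₄))
    (hΔv : A.valuation Δ < 1) (hc₄ : A.valuation (b₂ ^ 2 - 24 * b₄) = 1) :
    ∃ α ∈ A, 4 * α ^ 3 + b₂ * α ^ 2 + 2 * b₄ * α + b₆ = 0 ∧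
      A.valuation (12 * α ^ 2 + 2 * b₂ * α + 2 * b₄) < A.valuation (4 : K) := by
  have hnat : ∀ n : ℕ, (n : K) ∈ A := fun n => natCast_mem A n
  have h2A : (2 : K) ∈ A := by exact_mod_cast hnat 2
  have h4A : (4 : K) ∈ A := by exact_mod_cast hnat 4
  have h8A : (8 : K) ∈ A := by exact_mod_cast hnat 8
  have h12A : (12 : K) ∈ A := by exact_mod_cast hnat 12
  have h16A : (16 : K) ∈ A := by exact_mod_cast hnat 16
  have h24A : (24 : K) ∈ A := by exact_mod_cast hnat 24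
  have h32A : (32 : K) ∈ A := by exact_mod_cast hnat 32
  have h48A : (48 : K) ∈ A := by exact_mod_cast hnat 48
  have h4 : (4 : K) ≠ 0 := by
    have : (4 : K) = 2 * 2 := by norm_num
    rw [this]; exact mul_ne_zero h2 h2
  have h16 : (16 : K) ≠ 0 := by
    have : (16 : K) = 4 * 4 := by norm_num
    rw [this]; exact mul_ne_zero h4 h4
  have hPA : ∀ α ∈ A, 12 * α ^ 2 + 2 * b₂ * α + 2 * b₄ ∈ A := fun α hα =>
    add_mem (add_mem (mul_mem h12A (pow_mem hα 2)) (mul_mem (mul_mem h2A hb₂) hα))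
      (mul_mem h2A hb₄)
  rcases lt_or_eq_of_le ((A.valuation_le_one_iff 2).mpr h2A) with h2v | h2v
  · -- residue characteristic `2`: `b₂` is a unit, every integral root is good
    have hb₂v : A.valuation b₂ = 1 := by
      apply val_eq_one_of_not_lt A hb₂
      intro hlt
      have h1 : A.valuation (b₂ ^ 2 - 24 * b₄) < 1 := by
        have e : b₂ ^ 2 - 24 * b₄ = b₂ * b₂ + 2 * (-(12 * b₄)) := by ring
        rw [e]
        exact Valuation.map_add_lt _ (val_mul_lt_one A hlt hb₂)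
          (val_mul_lt_one A h2v (neg_mem (mul_mem h12A hb₄)))
      rw [hc₄] at h1
      exact lt_irrefl _ h1
    have hroot : ∃ α ∈ A, 4 * α ^ 3 + b₂ * α ^ 2 + 2 * b₄ * α + b₆ = 0 := by
      by_cases hb₆0 : b₆ = 0
      · exact ⟨0, A.zero_mem, by rw [hb₆0]; ring⟩
      obtain ⟨α₁, hα₁⟩ := exists_cubic_root 4 b₂ (2 * b₄) b₆ h4
      by_cases hα₁A : α₁ ∈ A
      · exact ⟨α₁, hα₁A, hα₁⟩
      have hy := val_inv_lt_one A hα₁A
      have hα₁0 := ne_zero_of_notMem A hα₁A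
      have hyA := mem_of_val_lt_one A hy
      have h4α : A.valuation (4 * α₁) = 1 := by
        have e : 4 * α₁ = -(b₂ + α₁⁻¹ * (2 * b₄ + b₆ * α₁⁻¹)) := by
          field_simp
          linear_combination hα₁
        rw [e, Valuation.map_neg, Valuation.map_add_eq_of_lt_left _ (by
          rw [hb₂v]
          exact val_mul_lt_one A hy (add_mem (mul_mem h2A hb₄) (mul_mem hb₆ hyA))), hb₂v]
      obtain ⟨x₂, hx₂⟩ := exists_quadratic_root 4 (b₂ + 4 * α₁)
        (2 * b₄ + b₂ * α₁ + 4 * α₁ ^ 2) h4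
      obtain ⟨x₃, hx₃⟩ : ∃ x₃ : K, 4 * x₃ = -(b₂ + 4 * α₁) - 4 * x₂ :=
        ⟨(-(b₂ + 4 * α₁) - 4 * x₂) / 4, by field_simp⟩
      have hx₃' : 4 * x₃ ^ 2 + (b₂ + 4 * α₁) * x₃ + (2 * b₄ + b₂ * α₁ + 4 * α₁ ^ 2) = 0 := by
        have : 4 * (4 * x₃ ^ 2 + (b₂ + 4 * α₁) * x₃ + (2 * b₄ + b₂ * α₁ + 4 * α₁ ^ 2)) = 0 := by
          linear_combination (4 * x₃ - 4 * x₂) * hx₃ + 4 * hx₂
        exact (mul_eq_zero.mp this).resolve_left h4
      have hprod : (4 * α₁) * (x₂ * x₃) = -b₆ := by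
        linear_combination (α₁ * x₂) * hx₃ - α₁ * hx₂ + hα₁
      have hx₂₃ : x₂ ∈ A ∨ x₃ ∈ A := by
        by_contra hcon
        rw [not_or] at hcon
        obtain ⟨h2n, h3n⟩ := hcon
        have hv2 := val_inv_lt_one A h2n
        have hv3 := val_inv_lt_one A h3n
        have hx20 := ne_zero_of_notMem A h2n
        have hx30 := ne_zero_of_notMem A h3n
        have e : 4 * α₁ = x₂⁻¹ * (-b₆ * x₃⁻¹) := by
          field_simp
          linear_combination hprod
        have hlt : A.valuation (4 * α₁) < 1 := by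
          rw [e]
          exact val_mul_lt_one A hv2 (mul_mem (neg_mem hb₆) (mem_of_val_lt_one A hv3))
        rw [h4α] at hlt
        exact lt_irrefl _ hlt
      rcases hx₂₃ with hxA | hxA
      · exact ⟨x₂, hxA, by linear_combination (x₂ - α₁) * hx₂ + hα₁⟩
      · exact ⟨x₃, hxA, by linear_combination (x₃ - α₁) * hx₃' + hα₁⟩
    obtain ⟨α, hαA, hα⟩ := hroot
    refine ⟨α, hαA, hα, ?_⟩
    have hI := hΔ α hα
    have hDv : A.valuation (b₂ ^ 2 - 8 * b₂ * α - 48 * α ^ 2 - 32 * b₄) = 1 := by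
      have e : b₂ ^ 2 - 8 * b₂ * α - 48 * α ^ 2 - 32 * b₄
          = b₂ ^ 2 + 2 * (-(4 * b₂ * α + 24 * α ^ 2 + 16 * b₄)) := by ring
      rw [e, Valuation.map_add_eq_of_lt_left _ (by
        rw [map_pow, hb₂v, one_pow]
        exact val_mul_lt_one A h2v (neg_mem (add_mem (add_mem (mul_mem (mul_mem h4A hb₂) hαA)
          (mul_mem h24A (pow_mem hαA 2))) (mul_mem h16A hb₄)))), map_pow, hb₂v, one_pow]
    have hsq : A.valuation (12 * α ^ 2 + 2 * b₂ * α + 2 * b₄) ^ 2 < A.valuation (4 : K) ^ 2 := by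
      have h1 : A.valuation (16 * Δ) = A.valuation (12 * α ^ 2 + 2 * b₂ * α + 2 * b₄) ^ 2 := by
        rw [hI, map_mul, hDv, mul_one, map_pow]
      rw [← h1, ← map_pow, map_mul]
      have e : (4 : K) ^ 2 = 16 := by norm_num
      rw [e]
      exact mul_lt_of_lt_one_right (zero_lt_iff.mpr ((Valuation.ne_zero_iff _).mpr h16)) hΔv
    exact lt_of_pow_lt_pow_left' 2 hsq
  · -- odd residue characteristic: all roots are integral; use a second root if necessary
    have h4v : A.valuation (4 : K) = 1 := by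
      have : (4 : K) = 2 * 2 := by norm_num
      rw [this, map_mul, h2v, one_mul]
    have h8v : A.valuation (8 : K) = 1 := by
      have : (8 : K) = 4 * 2 := by norm_num
      rw [this, map_mul, h4v, h2v, one_mul]
    have h16v : A.valuation (16 : K) = 1 := by
      have : (16 : K) = 4 * 4 := by norm_num
      rw [this, map_mul, h4v, one_mul]
    obtain ⟨α₁, hα₁⟩ := exists_cubic_root 4 b₂ (2 * b₄) b₆ h4
    have hα₁A : α₁ ∈ A := mem_of_cubic A h4v hb₂ (mul_mem h2A hb₄) hb₆ hα₁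
    have hI := hΔ α₁ hα₁
    have hprod : A.valuation ((12 * α₁ ^ 2 + 2 * b₂ * α₁ + 2 * b₄) ^ 2 *
        (b₂ ^ 2 - 8 * b₂ * α₁ - 48 * α₁ ^ 2 - 32 * b₄)) < 1 := by
      rw [← hI, map_mul, h16v, one_mul]; exact hΔv
    by_cases hP : A.valuation (12 * α₁ ^ 2 + 2 * b₂ * α₁ + 2 * b₄) < 1
    · exact ⟨α₁, hα₁A, hα₁, by rw [h4v]; exact hP⟩
    have hP1 := val_eq_one_of_not_lt A (hPA α₁ hα₁A) hP
    have hD : A.valuation (b₂ ^ 2 - 8 * b₂ * α₁ - 48 * α₁ ^ 2 - 32 * b₄) < 1 := by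
      rw [map_mul, map_pow, hP1, one_pow, one_mul] at hprod; exact hprod
    obtain ⟨s, hs⟩ := IsAlgClosed.exists_pow_nat_eq
      (b₂ ^ 2 - 8 * b₂ * α₁ - 48 * α₁ ^ 2 - 32 * b₄) (n := 2) (by norm_num)
    have hsv : A.valuation s < 1 := by
      rw [← hs, map_pow] at hD
      exact (pow_lt_one_iff two_ne_zero).mp hD
    have hsA := mem_of_val_lt_one A hsv
    obtain ⟨α₂, hα₂⟩ : ∃ α₂ : K, 8 * α₂ = s - (b₂ + 4 * α₁) := by
      have h8 : (8 : K) ≠ 0 := by
        have : (8 : K) = 4 * 2 := by norm_num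
        rw [this]; exact mul_ne_zero h4 h2
      exact ⟨(s - (b₂ + 4 * α₁)) / 8, by field_simp⟩
    have hα₂A : α₂ ∈ A := by
      rw [← A.valuation_le_one_iff]
      have h8α : A.valuation (8 * α₂) ≤ 1 := by
        rw [hα₂]
        exact (A.valuation_le_one_iff _).mpr (sub_mem hsA (add_mem hb₂ (mul_mem h4A hα₁A)))
      rwa [map_mul, h8v, one_mul] at h8α
    have hs' : (8 * α₂ + (b₂ + 4 * α₁)) ^ 2
        = b₂ ^ 2 - 8 * b₂ * α₁ - 48 * α₁ ^ 2 - 32 * b₄ := by
      rw [hα₂, ← hs]; ring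
    have hf₂ : 4 * α₂ ^ 3 + b₂ * α₂ ^ 2 + 2 * b₄ * α₂ + b₆ = 0 := by
      have : 16 * (4 * α₂ ^ 3 + b₂ * α₂ ^ 2 + 2 * b₄ * α₂ + b₆) = 0 := by
        linear_combination (α₂ - α₁) * hs' + 16 * hα₁
      exact (mul_eq_zero.mp this).resolve_left h16
    have hP₂ : 16 * (12 * α₂ ^ 2 + 2 * b₂ * α₂ + 2 * b₄) = 16 * ((α₂ - α₁) * s) := by
      linear_combination hs' + (16 * (α₂ - α₁)) * hα₂
    refine ⟨α₂, hα₂A, hf₂, ?_⟩
    rw [h4v, mul_left_cancel₀ h16 hP₂, mul_comm]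
    exact val_mul_lt_one A hsv (sub_mem hα₂A hα₁A)

end Good

/-! ### The normal form -/

section Main

variable {K : Type*} [Field K] [IsAlgClosed K] (A : ValuationSubring K)

/-- **Integral change of variables to the nodal normal form** for a Weierstrass curve with
coefficients in `A`, `|Δ| < 1`, `Δ ≠ 0`, `|c₄| = 1` over an algebraically closed field. -/
theorem exists_nf_of_integral (E : WeierstrassCurve K) (h2 : (2 : K) ≠ 0)
    (h₁ : E.a₁ ∈ A) (h₂ : E.a₂ ∈ A) (h₃ : E.a₃ ∈ A) (h₄ : E.a₄ ∈ A) (h₆ : E.a₆ ∈ A)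
    (hΔ0 : E.Δ ≠ 0) (hΔ : A.valuation E.Δ < 1) (hc₄ : A.valuation E.c₄ = 1) :
    ∃ C : VariableChange K, C.u = 1 ∧ C.r ∈ A ∧ C.s ∈ A ∧ C.t ∈ A ∧
      Fermat.Agent.EC.NF.IsNF (C • E).toAffine ∧ A.valuation (C • E).a₁ = 1 ∧
      A.valuation (C • E).a₄ < 1 ∧ (C • E).a₄ ≠ 0 := by
  have hnat : ∀ n : ℕ, (n : K) ∈ A := fun n => natCast_mem A n
  have h2A : (2 : K) ∈ A := by exact_mod_cast hnat 2
  have h3A : (3 : K) ∈ A := by exact_mod_cast hnat 3
  have h4A : (4 : K) ∈ A := by exact_mod_cast hnat 4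
  have h48A : (48 : K) ∈ A := by exact_mod_cast hnat 48
  have h4 : (4 : K) ≠ 0 := by
    have : (4 : K) = 2 * 2 := by norm_num
    rw [this]; exact mul_ne_zero h2 h2
  have hb₂ : E.b₂ ∈ A := by
    rw [WeierstrassCurve.b₂]; exact add_mem (pow_mem h₁ 2) (mul_mem h4A h₂)
  have hb₄ : E.b₄ ∈ A := by
    rw [WeierstrassCurve.b₄]; exact add_mem (mul_mem h2A h₄) (mul_mem h₁ h₃)
  have hb₆ : E.b₆ ∈ A := by
    rw [WeierstrassCurve.b₆]; exact add_mem (pow_mem h₃ 2) (mul_mem h4A h₆)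
  obtain ⟨α, hαA, hα, hPα⟩ := exists_good_root A E.b₂ E.b₄ E.b₆ E.Δ h2 hb₂ hb₄ hb₆
    (fun α hα => by
      have hrel := E.b_relation
      rw [WeierstrassCurve.Δ]
      linear_combination (1728 * α ^ 3 + 432 * α ^ 2 * E.b₂ + 864 * α * E.b₄ - 4 * E.b₂ ^ 3
        + 144 * E.b₂ * E.b₄ - 432 * E.b₆) * hα - 4 * E.b₂ ^ 2 * hrel) hΔ hc₄
  -- the `2`-torsion point `T = (α, yT)`
  obtain ⟨yT, hyT⟩ : ∃ yT : K, 2 * yT = -(E.a₁ * α + E.a₃) :=
    ⟨-(E.a₁ * α + E.a₃) / 2, by field_simp⟩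
  have hyT2 : yT ^ 2 + (α ^ 3 + E.a₂ * α ^ 2 + E.a₄ * α + E.a₆) = 0 := by
    have h4y : 4 * (yT ^ 2 + (α ^ 3 + E.a₂ * α ^ 2 + E.a₄ * α + E.a₆)) = 0 := by
      rw [WeierstrassCurve.b₂, WeierstrassCurve.b₄, WeierstrassCurve.b₆] at hα
      linear_combination hα + (2 * yT - (E.a₁ * α + E.a₃)) * hyT
    exact (mul_eq_zero.mp h4y).resolve_left h4
  have hcub : α ^ 3 + E.a₂ * α ^ 2 + E.a₄ * α + E.a₆ ∈ A :=
    add_mem (add_mem (add_mem (pow_mem hαA 3) (mul_mem h₂ (pow_mem hαA 2))) (mul_mem h₄ hαA)) h₆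
  have hyTA : yT ∈ A := mem_of_quadratic A (c₁ := 0) A.zero_mem hcub (by linear_combination hyT2)
  -- the slope `s`
  obtain ⟨s, hs⟩ := exists_quadratic_root (1 : K) E.a₁ (-(E.a₂ + 3 * α)) one_ne_zero
  have hsA : s ∈ A :=
    mem_of_quadratic A h₁ (neg_mem (add_mem h₂ (mul_mem h3A hαA))) (by linear_combination hs)
  -- the coefficients of the new model
  have e₁ : ((⟨1, α, s, yT⟩ : VariableChange K) • E).a₁ = E.a₁ + 2 * s := by
    rw [variableChange_a₁]; simp only [inv_one, Units.val_one, one_mul]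
  have e₂ : ((⟨1, α, s, yT⟩ : VariableChange K) • E).a₂ = 0 := by
    rw [variableChange_a₂]; simp only [inv_one, Units.val_one, one_pow, one_mul]
    linear_combination -hs
  have e₃ : ((⟨1, α, s, yT⟩ : VariableChange K) • E).a₃ = 0 := by
    rw [variableChange_a₃]; simp only [inv_one, Units.val_one, one_pow, one_mul]
    linear_combination hyT
  have e₄ : 4 * ((⟨1, α, s, yT⟩ : VariableChange K) • E).a₄
      = 12 * α ^ 2 + 2 * E.b₂ * α + 2 * E.b₄ := by
    rw [variableChange_a₄, WeierstrassCurve.b₂, WeierstrassCurve.b₄]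
    simp only [inv_one, Units.val_one, one_pow, one_mul]
    linear_combination (-(2 * E.a₁ + 4 * s)) * hyT
  have e₆ : ((⟨1, α, s, yT⟩ : VariableChange K) • E).a₆ = 0 := by
    rw [variableChange_a₆]; simp only [inv_one, Units.val_one, one_pow, one_mul]
    linear_combination hyT2 - yT * hyT
  have hv₄ : A.valuation ((⟨1, α, s, yT⟩ : VariableChange K) • E).a₄ < 1 := by
    have hlt : A.valuation (4 : K) * A.valuation ((⟨1, α, s, yT⟩ : VariableChange K) • E).a₄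
        < A.valuation (4 : K) * 1 := by
      rw [← map_mul, e₄, mul_one]; exact hPα
    exact lt_of_mul_lt_mul_left' hlt
  have hΔ' : ((⟨1, α, s, yT⟩ : VariableChange K) • E).Δ = E.Δ := by
    rw [variableChange_Δ]; simp only [inv_one, Units.val_one, one_pow, one_mul]
  have hc₄' : ((⟨1, α, s, yT⟩ : VariableChange K) • E).c₄ = E.c₄ := by
    rw [variableChange_c₄]; simp only [inv_one, Units.val_one, one_pow, one_mul]
  refine ⟨⟨1, α, s, yT⟩, rfl, hαA, hsA, hyTA, ⟨e₂, e₃, e₆⟩, ?_, hv₄, ?_⟩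
  · -- `a₁' ^ 4 = c₄ + 48 a₄'` is a unit
    have hpow : ((⟨1, α, s, yT⟩ : VariableChange K) • E).a₁ ^ 4
        = E.c₄ + 48 * ((⟨1, α, s, yT⟩ : VariableChange K) • E).a₄ := by
      rw [← hc₄', WeierstrassCurve.c₄, WeierstrassCurve.b₂, WeierstrassCurve.b₄, e₂, e₃]
      ring
    have hval : A.valuation (((⟨1, α, s, yT⟩ : VariableChange K) • E).a₁ ^ 4) = 1 := by
      rw [hpow, Valuation.map_add_eq_of_lt_left _ (by
        rw [hc₄, mul_comm]
        exact val_mul_lt_one A hv₄ h48A), hc₄]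
    rw [map_pow] at hval
    exact (pow_eq_one_iff.mp hval).resolve_right (by norm_num)
  · intro h0
    apply hΔ0
    rw [← hΔ', WeierstrassCurve.Δ, WeierstrassCurve.b₂, WeierstrassCurve.b₄, WeierstrassCurve.b₆,
      WeierstrassCurve.b₈, e₂, e₃, e₆, h0]
    ring

end Main

/-! ### The statement for an integral model over `ℚ̄` -/

/-- **(NF-REACH)** at a multiplicative prime `q` the curve has, over `ℚ̄`, an `A`-integral
change of variables to the nodal normal form `y² + a₁ x y = x³ + a₄ x`, `a₁` a unit of `A`,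
`a₄` a nonzero nonunit. -/
theorem exists_nf (W : WeierstrassCurve ℤ) (hΔ : W.Δ ≠ 0) {q : ℕ} (hq : q.Prime)
    (hqΔ : (q : ℤ) ∣ W.Δ) (hc4 : ¬ (q : ℤ) ∣ W.c₄) (A : ValuationSubring Qb)
    (hA : A.LiesOverPrime q) :
    ∃ C : WeierstrassCurve.VariableChange Qb, A.valuation (C.u : Qb) = 1 ∧
      A.valuation C.r ≤ 1 ∧ A.valuation C.s ≤ 1 ∧ A.valuation C.t ≤ 1 ∧
      EC.NF.IsNF (C • W.map (Int.castRingHom Qb)).toAffine ∧
      A.valuation (C • W.map (Int.castRingHom Qb)).a₁ = 1 ∧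
      A.valuation (C • W.map (Int.castRingHom Qb)).a₄ < 1 ∧
      (C • W.map (Int.castRingHom Qb)).a₄ ≠ 0 := by
  have hint : ∀ n : ℤ, ((n : ℤ) : Qb) ∈ A := fun n => intCast_mem A n
  have hqv : A.valuation (q : Qb) < 1 := A.mem_nonunits_iff.mp hA
  have hΔv : A.valuation ((W.map (Int.castRingHom Qb)).Δ) < 1 := by
    rw [map_Δ]
    obtain ⟨m, hm⟩ := hqΔ
    rw [hm, map_mul, eq_intCast, eq_intCast, Int.cast_natCast]
    exact val_mul_lt_one A hqv (hint m)
  have hc₄v : A.valuation ((W.map (Int.castRingHom Qb)).c₄) = 1 := by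
    rw [map_c₄]
    apply val_eq_one_of_not_lt A (hint _)
    intro hlt
    have hcop : IsCoprime W.c₄ (q : ℤ) :=
      ((Nat.prime_iff_prime_int.mp hq).coprime_iff_not_dvd.mpr hc4).symm
    obtain ⟨u, v, huv⟩ := hcop
    have h1 : A.valuation (1 : Qb) < 1 := by
      have e : (1 : Qb) = (Int.castRingHom Qb) W.c₄ * (u : Qb) + (q : Qb) * (v : Qb) := by
        have := congrArg (fun z : ℤ => (z : Qb)) huv
        push_cast at this
        rw [eq_intCast]
        linear_combination -this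
      rw [e]
      exact Valuation.map_add_lt _ (val_mul_lt_one A hlt (hint u)) (val_mul_lt_one A hqv (hint v))
    rw [map_one] at h1
    exact lt_irrefl _ h1
  have hΔ0 : (W.map (Int.castRingHom Qb)).Δ ≠ 0 := by
    rw [map_Δ, eq_intCast]
    exact_mod_cast hΔ
  obtain ⟨C, hu, hr, hs, ht, hNF, h1, h4, h40⟩ :=
    exists_nf_of_integral A (W.map (Int.castRingHom Qb)) two_ne_zero
      (by rw [map_a₁]; exact hint _) (by rw [map_a₂]; exact hint _) (by rw [map_a₃]; exact hint _)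
      (by rw [map_a₄]; exact hint _) (by rw [map_a₆]; exact hint _) hΔ0 hΔv hc₄v
  exact ⟨C, by rw [hu, Units.val_one, map_one], (A.valuation_le_one_iff _).mpr hr,
    (A.valuation_le_one_iff _).mpr hs, (A.valuation_le_one_iff _).mpr ht, hNF, h1, h4, h40⟩

end Fermat.Agent.S58.MultNF
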